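import Fermat.Agent.ES.I2.ERoots
import Fermat.Agent.INJ.NFEmb

/-!
# ES / I2, piece E: the `ψ(N)` embeddings of `F_N` over `ℚ̄(j)` into `ℚ̄((Q))`, with their types

`stmtE N : StmtE N`.

Proof (formal, no analysis).  `Ω` := an algebraic closure of `ℚ̄((Q))`; `F_N / ℚ̄(j)` is separable of
degree `ψ(N)` (`S28.relfinrank_full_eq_dedekindPsi`), so there are `ψ(N)` embeddings `φ : F_N → Ω`
over `ℚ̄(j)` (embedded by `q ↦ Q^N`).  By induction along `d → p d` (modular equation of level `p`,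
split over `ℚ̄((q))` by `i2e_modEq_roots`) every `φ (j(q^d))` is `j(c Q^m)` with a type.  So `φ`
takes values in `ℚ̄((Q))`.
-/

set_option autoImplicit false

noncomputable section

namespace Fermat.Agent.ES.I2

open ModularCurve HahnSeries IntermediateField Fermat.Agent.ES Fermat.Agent.S28 Fermat.Agent.S24
open Fermat.Agent.ES.M

/-- the target of the embeddings: an algebraic closure of `ℚ̄((Q))` (a type synonym, so that it
carries no algebra structure over `F_N` by default) -/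
def I2EΩ : Type := AlgebraicClosure (LaurentSeries Kb)

instance : Field I2EΩ := inferInstanceAs (Field (AlgebraicClosure (LaurentSeries Kb)))

instance : IsAlgClosed I2EΩ := inferInstanceAs (IsAlgClosed (AlgebraicClosure (LaurentSeries Kb)))

/-- `ℚ̄((Q)) → Ω` -/
def i2eι : LaurentSeries Kb →+* I2EΩ :=
  algebraMap (LaurentSeries Kb) (AlgebraicClosure (LaurentSeries Kb))

theorem i2eι_injective : Function.Injective i2eι :=
  (algebraMap (LaurentSeries Kb) (AlgebraicClosure (LaurentSeries Kb))).injective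

theorem i2e_jBar_eq : jBar = jqModC Kb := by
  rw [jBar, coeffEmb, ← jqModC_rat, coeffMap_jqModC]

variable (N : ℕ) [NeZero N]

theorem i2e_jF_coe : ((jF N : FF N) : LaurentSeries Kb) = jqModC Kb := i2e_jBar_eq

theorem i2e_jdF_coe (d : ℕ) [NeZero d] (hd : d ∣ N) :
    ((jdF N d hd : FF N) : LaurentSeries Kb) = qExpand Kb d (jqModC Kb) := by
  rw [jdF_coe, coeffEmb, coeffMap_qExpand, ← jqModC_rat, coeffMap_jqModC]

theorem i2e_jdF_coe' (d : ℕ) (hd : d ∣ N) (hd0 : d ≠ 0) :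
    ((jdF N d hd : FF N) : LaurentSeries Kb) = UB.jd Kb d := by
  have : NeZero d := ⟨hd0⟩
  rw [i2e_jdF_coe, UB.jd_eq]

/-- a ring homomorphism `F_N → Ω` over `ℚ̄(j)` -/
structure I2EAdm (φ : FF N →+* I2EΩ) : Prop where
  const : ∀ a : Kb, φ (algebraMap Kb (FF N) a) = i2eι (HahnSeries.C a)
  j : φ (jF N) = i2eι (qExpand Kb N (jqModC Kb))

/-- the type of `φ` at `d` -/
def I2ETypeAt (φ : FF N →+* I2EΩ) (d : ℕ) (hd : d ∣ N) : Prop :=
  ∃ (a δ m : ℕ) (c : Kbˣ), a * δ = d ∧ m * δ = N * a ∧ c ^ δ = 1 ∧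
    φ (jdF N d hd) = i2eι (substQ c m (jqModC Kb))

theorem i2e_exists_primitiveRoot (p : ℕ) (hp : p ≠ 0) : ∃ ζ : Kbˣ, IsPrimitiveRoot ζ p := by
  have : NeZero ((p : ℕ) : Kb) := ⟨by exact_mod_cast hp⟩
  have := IsSepClosed.hasEnoughRootsOfUnity Kb p
  obtain ⟨ζ, hζ⟩ := HasEnoughRootsOfUnity.exists_primitiveRoot Kb p
  obtain ⟨u, rfl⟩ := hζ.isUnit hp
  exact ⟨u, IsPrimitiveRoot.coe_units_iff.mp hζ⟩

theorem i2e_exists_root (p : ℕ) (hp : 0 < p) (c : Kbˣ) : ∃ c' : Kbˣ, c' ^ p = c := by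
  obtain ⟨z, hz⟩ := IsAlgClosed.exists_pow_nat_eq (c : Kb) hp
  have hz0 : z ≠ 0 := by
    rintro rfl
    rw [zero_pow hp.ne'] at hz
    exact c.ne_zero hz.symm
  exact ⟨Units.mk0 z hz0, Units.ext (by simpa using hz)⟩

/-- the modular equation inside `F_N` -/
theorem i2e_modEq_FF {p : ℕ} [NeZero p] {Φ : Polynomial (Polynomial Kb)}
    (h1 : Φ.eval₂ (Polynomial.aeval (jqModC Kb)).toRingHom (qExpand Kb p (jqModC Kb)) = 0)
    (h2 : Φ.eval₂ (Polynomial.aeval (qExpand Kb p (jqModC Kb))).toRingHom (jqModC Kb) = 0)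
    (d : ℕ) (hd : d ∣ N) (hpd : p * d ∣ N) :
    Φ.eval₂ (Polynomial.aeval (R := Kb) (jdF N d hd)).toRingHom (jdF N (p * d) hpd) = 0 := by
  have hd0 : d ≠ 0 := fun h => NeZero.ne N (by subst h; simpa using hd)
  have hpd0 : p * d ≠ 0 := Nat.mul_ne_zero (NeZero.ne p) hd0
  obtain ⟨s1, -⟩ := UB.ModEq.shift Kb h1 h2 (d := d) hd0
  have hv : Function.Injective ((modularFunctionFieldBar N).val.toRingHom) :=
    (modularFunctionFieldBar N).val.toRingHom.injective
  apply hv
  rw [Polynomial.hom_eval₂, map_zero]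
  have e : ((modularFunctionFieldBar N).val.toRingHom).comp
      (Polynomial.aeval (R := Kb) (jdF N d hd)).toRingHom =
      (Polynomial.aeval (R := Kb) (UB.jd Kb d)).toRingHom := by
    refine Polynomial.ringHom_ext (fun a => ?_) ?_
    · simp only [RingHom.comp_apply, AlgHom.toRingHom_eq_coe, RingHom.coe_coe,
        Polynomial.aeval_C]
      rfl
    · simp only [RingHom.comp_apply, AlgHom.toRingHom_eq_coe, RingHom.coe_coe,
        Polynomial.aeval_X]
      exact i2e_jdF_coe' N d hd hd0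
  rw [e]
  have e2 : ((modularFunctionFieldBar N).val.toRingHom) (jdF N (p * d) hpd)
      = UB.jd Kb (p * d) := i2e_jdF_coe' N (p * d) hpd hpd0
  rw [e2]
  exact s1

/-- **the inductive step** `d → p d` -/
theorem i2e_type_step (φ : FF N →+* I2EΩ) (hφ : I2EAdm N φ) (p d : ℕ) (hp : p.Prime)
    (hd : d ∣ N) (hpd : p * d ∣ N) (h : I2ETypeAt N φ d hd) : I2ETypeAt N φ (p * d) hpd := by
  obtain ⟨a, δ, m, c, had, hmd, hc, hφd⟩ := h
  have : NeZero p := ⟨hp.ne_zero⟩
  have hN0 : N ≠ 0 := NeZero.ne N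
  have hd0 : d ≠ 0 := fun h => hN0 (by subst h; simpa using hd)
  have ha0 : a ≠ 0 := by
    rintro rfl
    rw [zero_mul] at had
    exact hd0 had.symm
  have hδ0 : δ ≠ 0 := by
    rintro rfl
    rw [mul_zero] at had
    exact hd0 had.symm
  obtain ⟨t, ht⟩ := hpd
  have ht0 : t ≠ 0 := by
    rintro rfl
    rw [mul_zero] at ht
    exact hN0 ht
  have hm : m = p * (a * a * t) := by
    have h1 : m * δ = (p * (a * a * t)) * δ := by
      rw [hmd, ht, ← had]; ring
    exact Nat.eq_of_mul_eq_mul_right (Nat.pos_of_ne_zero hδ0) h1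
  have hm'0 : a * a * t ≠ 0 := Nat.mul_ne_zero (Nat.mul_ne_zero ha0 ha0) ht0
  have hm0 : m ≠ 0 := by rw [hm]; exact Nat.mul_ne_zero hp.ne_zero hm'0
  have : NeZero (a * a * t) := ⟨hm'0⟩
  have : NeZero m := ⟨hm0⟩
  obtain ⟨c', hc'⟩ := i2e_exists_root p hp.pos c
  obtain ⟨ζ, hζ⟩ := i2e_exists_primitiveRoot p hp.ne_zero
  obtain ⟨Φ, hΦm, hΦd, h1, h2⟩ := ub_modEq Kb p hp
  have hF := i2e_modEq_FF N h1 h2 d hd ⟨t, ht⟩
  have hΩ : Φ.eval₂ (φ.comp (Polynomial.aeval (R := Kb) (jdF N d hd)).toRingHom)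
      (φ (jdF N (p * d) ⟨t, ht⟩)) = 0 := by
    rw [← Polynomial.hom_eval₂, hF, map_zero]
  have hsub : ∀ f : LaurentSeries Kb,
      substQ c' (a * a * t) (qExpand Kb p f) = substQ c m f := by
    intro f
    rw [i2e_substQ_qExpand, hc', hm]
  have hs : φ.comp (Polynomial.aeval (R := Kb) (jdF N d hd)).toRingHom =
      (i2eι.comp (substQ c' (a * a * t))).comp
        (Polynomial.aeval (R := Kb) (qExpand Kb p (jqModC Kb))).toRingHom := by
    refine Polynomial.ringHom_ext (fun x => ?_) ?_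
    · simp only [RingHom.comp_apply, AlgHom.toRingHom_eq_coe, RingHom.coe_coe,
        Polynomial.aeval_C]
      rw [hφ.const, Fermat.Agent.ES.M.algebraMap_eq_hahnC, i2e_substQ_C]
    · simp only [RingHom.comp_apply, AlgHom.toRingHom_eq_coe, RingHom.coe_coe,
        Polynomial.aeval_X]
      rw [hφd, hsub]
  rw [hs] at hΩ
  rcases i2e_modEq_roots hp ζ hζ hΦm hΦd h1 h2 (i2eι.comp (substQ c' (a * a * t))) _ hΩ
    with h | ⟨b, -, h⟩
  · refine ⟨p * a, δ, p * m, c ^ p, ?_, ?_, ?_, ?_⟩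
    · rw [mul_assoc, had]
    · rw [mul_assoc, hmd]; ring
    · rw [← pow_mul, mul_comm, pow_mul, hc, one_pow]
    · rw [h, RingHom.comp_apply, hsub, i2e_substQ_qExpand]
  · refine ⟨a, p * δ, a * a * t, c' * ζ ^ b, ?_, ?_, ?_, ?_⟩
    · rw [← had]; ring
    · rw [← hmd, hm]; ring
    · rw [mul_pow, pow_mul, hc', hc, ← pow_mul, mul_comm b, mul_assoc, pow_mul,
        hζ.pow_eq_one, one_pow, mul_one]
    · rw [h, RingHom.comp_apply, i2e_substQ_kronRot]

/-- every admissible `φ` has a type at every `d ∣ N` -/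
theorem i2e_type (φ : FF N →+* I2EΩ) (hφ : I2EAdm N φ) :
    ∀ (d : ℕ) (hd : d ∣ N), I2ETypeAt N φ d hd := by
  intro d
  induction d using Nat.strong_induction_on with
  | _ d ih =>
    intro hd
    have hd0 : d ≠ 0 := fun h => NeZero.ne N (by subst h; simpa using hd)
    rcases eq_or_ne d 1 with rfl | hd1
    · refine ⟨1, 1, N, 1, rfl, by ring, one_pow _, ?_⟩
      rw [jdF_one, hφ.j, i2e_substQ_one]
    · obtain ⟨e, he⟩ := Nat.minFac_dvd d
      have hp := Nat.minFac_prime hd1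
      have he0 : e ≠ 0 := by
        rintro rfl
        rw [mul_zero] at he
        exact hd0 he
      have hlt : e < d := by
        rw [he]
        exact lt_mul_of_one_lt_left (Nat.pos_of_ne_zero he0) hp.one_lt
      have hed : e ∣ N := (Dvd.intro_left _ he.symm).trans hd
      have h := i2e_type_step N φ hφ d.minFac e hp hed (he ▸ hd) (ih e hlt hed)
      obtain ⟨a, δ, m, c, h1, h2, h3, h4⟩ := h
      refine ⟨a, δ, m, c, h1.trans he.symm, h2, h3, ?_⟩
      rw [← h4]
      congr 1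
      exact Subtype.ext (by
        rw [i2e_jdF_coe' N d hd hd0, i2e_jdF_coe' N _ (he ▸ hd) (by rw [← he]; exact hd0), ← he])

/-! ## Corestriction to `ℚ̄((Q))` -/

/-- an admissible `φ` takes values in `ℚ̄((Q))` -/
theorem i2e_range (φ : FF N →+* I2EΩ) (hφ : I2EAdm N φ) (x : FF N) :
    ∃ y : LaurentSeries Kb, i2eι y = φ x := by
  refine FF_induction (p := fun x => ∃ y : LaurentSeries Kb, i2eι y = φ x) ?_ ?_ ?_ ?_ ?_ x
  · intro d hd
    obtain ⟨a, δ, m, c, -, -, -, h⟩ := i2e_type N φ hφ d hd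
    exact ⟨_, h.symm⟩
  · intro a
    exact ⟨_, (hφ.const a).symm⟩
  · rintro x y ⟨u, hu⟩ ⟨v, hv⟩
    exact ⟨u + v, by rw [map_add, map_add, hu, hv]⟩
  · rintro x y ⟨u, hu⟩ ⟨v, hv⟩
    exact ⟨u * v, by rw [map_mul, map_mul, hu, hv]⟩
  · rintro x ⟨u, hu⟩
    exact ⟨u⁻¹, by rw [map_inv₀, map_inv₀, hu]⟩

/-- the corestriction of an admissible `φ` -/
def i2eCore (φ : FF N →+* I2EΩ) (hφ : I2EAdm N φ) : FF N →ₐ[Kb] LaurentSeries Kb where
  toFun x := (i2e_range N φ hφ x).choose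
  map_one' := i2eι_injective (by rw [(i2e_range N φ hφ 1).choose_spec, map_one, map_one])
  map_mul' x y := i2eι_injective (by
    rw [(i2e_range N φ hφ (x * y)).choose_spec, map_mul, map_mul,
      (i2e_range N φ hφ x).choose_spec, (i2e_range N φ hφ y).choose_spec])
  map_zero' := i2eι_injective (by rw [(i2e_range N φ hφ 0).choose_spec, map_zero, map_zero])
  map_add' x y := i2eι_injective (by
    rw [(i2e_range N φ hφ (x + y)).choose_spec, map_add, map_add,
      (i2e_range N φ hφ x).choose_spec, (i2e_range N φ hφ y).choose_spec])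
  commutes' a := i2eι_injective (by
    rw [(i2e_range N φ hφ _).choose_spec, hφ.const, Fermat.Agent.ES.M.algebraMap_eq_hahnC])

theorem i2eCore_spec (φ : FF N →+* I2EΩ) (hφ : I2EAdm N φ) (x : FF N) :
    i2eι (i2eCore N φ hφ x) = φ x := (i2e_range N φ hφ x).choose_spec

theorem i2eCore_hasType (φ : FF N →+* I2EΩ) (hφ : I2EAdm N φ) : HasType N (i2eCore N φ hφ) := by
  intro d hd
  obtain ⟨a, δ, m, c, h1, h2, h3, h4⟩ := i2e_type N φ hφ d hd
  refine ⟨a, δ, m, c, h1, h2, h3, i2eι_injective ?_⟩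
  rw [i2eCore_spec, h4, i2e_jBar_eq]

/-! ## Counting -/

/-- `ℚ̄(j) ⊂ F_N` -/
abbrev i2eE : IntermediateField Kb (FF N) := Kb⟮jF N⟯

/-- `ι ∘ ι₀ : F_N → Ω` -/
def i2eBase : FF N →+* I2EΩ := i2eι.comp (iotaN N).toRingHom

theorem i2eBase_apply (x : FF N) :
    i2eBase N x = i2eι (qExpand Kb N (x : LaurentSeries Kb)) := rfl

/-- `Ω` as an algebra over `ℚ̄(j)`, through `q ↦ Q^N` -/
@[reducible] def i2eAlgebra : Algebra (i2eE N) I2EΩ :=
  ((i2eBase N).comp (algebraMap (i2eE N) (FF N))).toAlgebra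

theorem i2e_dedekindPsi_ne_zero : dedekindPsi N ≠ 0 := by
  unfold dedekindPsi
  have h1 : (1 : ℕ) ∈ N.divisors.filter (fun d => Squarefree d) := by
    simp [NeZero.ne N]
  have := Finset.single_le_sum (f := fun d => N / d) (fun _ _ => Nat.zero_le _) h1
  have hN : 0 < N := Nat.pos_of_ne_zero (NeZero.ne N)
  simp only [Nat.div_one] at this
  omega

/-- `[F_N : ℚ̄(j)] = ψ(N)` -/
theorem i2e_finrank : Module.finrank (i2eE N) (FF N) = dedekindPsi N := by
  have hN : ((N : ℕ) : Kb) ≠ 0 := Nat.cast_ne_zero.2 (NeZero.ne N)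
  have h0 := relfinrank_full_eq_dedekindPsi Kb N hN
  rw [← Fermat.Agent.INJ.nf_bar_eq_fullC N] at h0
  have h1 := IntermediateField.finrank_comap
    (A := (adjoin Kb {jqModC Kb} : IntermediateField Kb (LaurentSeries Kb)))
    (modularFunctionFieldBar N).val
  rw [IntermediateField.fieldRange_val] at h1
  have hcomap : (adjoin Kb {jqModC Kb} : IntermediateField Kb (LaurentSeries Kb)).comap
      (modularFunctionFieldBar N).val = i2eE N := by
    have hlift : IntermediateField.lift (Kb⟮jF N⟯ : IntermediateField Kb (FF N)) =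
        (adjoin Kb {jqModC Kb} : IntermediateField Kb (LaurentSeries Kb)) := by
      rw [IntermediateField.lift_adjoin_simple, i2e_jF_coe]
    ext x
    have h2 : x ∈ (adjoin Kb {jqModC Kb} : IntermediateField Kb (LaurentSeries Kb)).comap
        (modularFunctionFieldBar N).val ↔
        (x : LaurentSeries Kb) ∈
          (adjoin Kb {jqModC Kb} : IntermediateField Kb (LaurentSeries Kb)) := Iff.rfl
    rw [h2, ← hlift]
    exact IntermediateField.mem_lift x
  rw [hcomap] at h1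
  rw [h1, h0]

/-- the `ψ(N)` embeddings of `F_N` into `Ω` over `ℚ̄(j)` -/
theorem i2e_exists_family :
    ∃ φ : Fin (dedekindPsi N) → (FF N →+* I2EΩ),
      Function.Injective φ ∧ (∀ i, I2EAdm N (φ i)) ∧ ∃ i₀, φ i₀ = i2eBase N := by
  let _ := i2eAlgebra N
  have hfr := i2e_finrank N
  have hψ := i2e_dedekindPsi_ne_zero N
  have hfd : FiniteDimensional (i2eE N) (FF N) :=
    FiniteDimensional.of_finrank_pos (by rw [hfr]; exact Nat.pos_of_ne_zero hψ)
  have hcz : CharZero (i2eE N) := charZero_of_injective_algebraMap (algebraMap Kb (i2eE N)).injective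
  have halg : Algebra.IsAlgebraic (i2eE N) (FF N) := Algebra.IsAlgebraic.of_finite _ _
  have hsep : Algebra.IsSeparable (i2eE N) (FF N) := Algebra.IsAlgebraic.isSeparable_of_perfectField
  have hcard : Nat.card (FF N →ₐ[i2eE N] I2EΩ) = dedekindPsi N :=
    (AlgHom.natCard_of_splits (i2eE N) (FF N) I2EΩ (fun _ => IsAlgClosed.splits _)).trans hfr
  have : Finite (FF N →ₐ[i2eE N] I2EΩ) :=
    Nat.finite_of_card_ne_zero (by rw [hcard]; exact hψ)
  let e : (FF N →ₐ[i2eE N] I2EΩ) ≃ Fin (dedekindPsi N) := Finite.equivFinOfCardEq hcard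
  have hcomm : ∀ (ψ : FF N →ₐ[i2eE N] I2EΩ) (x : i2eE N),
      ψ (x : FF N) = i2eBase N (x : FF N) := fun ψ x => ψ.commutes x
  refine ⟨fun i => (e.symm i).toRingHom, ?_, ?_, ?_⟩
  · intro i i' h
    apply e.symm.injective
    apply AlgHom.coe_ringHom_injective
    exact h
  · intro i
    constructor
    · intro a
      have h1 := hcomm (e.symm i) (algebraMap Kb (i2eE N) a)
      have h2 : ((algebraMap Kb (i2eE N) a : i2eE N) : FF N) = algebraMap Kb (FF N) a := rfl
      rw [h2] at h1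
      show (e.symm i) (algebraMap Kb (FF N) a) = _
      rw [h1, i2eBase_apply]
      have h3 : ((algebraMap Kb (FF N) a : FF N) : LaurentSeries Kb) = HahnSeries.C a := by
        show algebraMap Kb (LaurentSeries Kb) a = _
        exact Fermat.Agent.ES.M.algebraMap_eq_hahnC a
      rw [h3, qExpand_C]
    · have h1 := hcomm (e.symm i) ⟨jF N, mem_adjoin_simple_self Kb (jF N)⟩
      show (e.symm i) (jF N) = _
      rw [h1, i2eBase_apply, i2e_jF_coe]
  · refine ⟨e { i2eBase N with commutes' := fun r => rfl }, ?_⟩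
    simp only [Equiv.symm_apply_apply]

/-- **piece I2-E**: the `ψ(N)` embeddings of `F_N` over `ℚ̄(j)` into `ℚ̄((Q))`, with types -/
theorem stmtE : StmtE N := by
  obtain ⟨φ, hinj, hadm, i₀, hi₀⟩ := i2e_exists_family N
  refine ⟨fun i => i2eCore N (φ i) (hadm i), ?_, fun i => i2eCore_hasType N (φ i) (hadm i),
    i₀, ?_⟩
  · intro i i' h
    apply hinj
    ext x
    rw [← i2eCore_spec N (φ i) (hadm i) x, ← i2eCore_spec N (φ i') (hadm i') x]
    exact congrArg (fun σ : FF N →ₐ[Kb] LaurentSeries Kb => i2eι (σ x)) h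
  · ext1 x
    apply i2eι_injective
    rw [i2eCore_spec, hi₀]
    rfl

theorem stmtEAll : StmtEAll := fun N _ => stmtE N

end Fermat.Agent.ES.I2
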