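import Fermat.Agent.ES.I2.Plan
import Fermat.Agent.ES.I2aux.Count
import Fermat.Agent.ES.G2.PrimCore
import Fermat.Agent.S49.QExp
import Fermat.Agent.S23.Main

/-!
# ES / I2, piece B: an integral basis of `S₂(Γ₀(N))` with independent reductions

`stmtB N A` (for `A` over a prime `ℓ`): there are `g = dim S₂(Γ₀(N))` cusp forms with integer
`q`-expansions whose reductions modulo `ℓ` are linearly independent over the residue field of `A`.

Proof: S23 gives a `ℂ`-basis with integer `q`-expansions; Gaussian elimination (`q2_elim`, with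
the attained Gauss norm from `exists_min_of_mem_span`) over `ℚ ∩ A` produces rational
combinations with `ℓ`-integral coefficients and pivots; a denominator prime to `ℓ` is cleared.
-/

set_option autoImplicit false

noncomputable section

namespace Fermat.Agent.ES.I2

open ModularCurve AlgebraicCurve HahnSeries Fermat.Agent.ES Fermat.Agent.S24 Fermat.Agent.ES.M
open ModularFormClass CongruenceSubgroup

/-- coefficients of `fqZ` -/
theorem fqZ_coeff_natCast (z : ℕ → ℤ) (n : ℕ) : (fqZ z).coeff (n : ℤ) = z n := by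
  rw [fqZ, HahnSeries.ofPowerSeries_apply_coeff, PowerSeries.coeff_mk]

theorem fqZ_coeff_neg (z : ℕ → ℤ) (m : ℤ) (hm : m < 0) : (fqZ z).coeff m = 0 := by
  rw [fqZ, HahnSeries.ofPowerSeries_apply]
  rw [HahnSeries.embDomain_of_notMem_range]
  rintro ⟨n, hn⟩
  have h1 : ((n : ℕ) : ℤ) = m := hn
  omega

/-- an `ℓ`-integral rational number with an `ℓ`-power denominator is an integer -/
theorem b_int_of_pow_mul {ℓ : ℕ} (hℓ : ℓ.Prime) (A : ValuationSubring Kb) (hA : A.LiesOverPrime ℓ) :
    ∀ (e : ℕ) (y : ℚ), algebraMap ℚ Kb y ∈ A → (∃ m : ℤ, (ℓ : ℚ) ^ e * y = m) →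
      ∃ m : ℤ, y = m := by
  intro e
  induction e with
  | zero =>
    rintro y - ⟨m, hm⟩
    exact ⟨m, by rwa [pow_zero, one_mul] at hm⟩
  | succ e ih =>
    rintro y hy ⟨m, hm⟩
    by_cases hdvd : (ℓ : ℤ) ∣ m
    · obtain ⟨m', rfl⟩ := hdvd
      refine ih y hy ⟨m', ?_⟩
      have hℓ0 : (ℓ : ℚ) ≠ 0 := Nat.cast_ne_zero.2 hℓ.ne_zero
      have h1 : (ℓ : ℚ) * ((ℓ : ℚ) ^ e * y) = (ℓ : ℚ) * (m' : ℚ) := by
        rw [← mul_assoc, ← pow_succ', hm]
        push_cast
        ring
      exact mul_left_cancel₀ hℓ0 h1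
    · exfalso
      -- `1 = a ℓ + b m` lies in the maximal ideal
      have h1 : Nat.Coprime ℓ m.natAbs :=
        (Nat.Prime.coprime_iff_not_dvd hℓ).2 (fun h => hdvd (Int.natCast_dvd.2 h))
      have hcop : IsCoprime (ℓ : ℤ) m := by
        rw [Int.isCoprime_iff_gcd_eq_one]
        simpa [Int.gcd] using h1
      obtain ⟨a, b, hab⟩ := hcop
      set v := A.valuation with hv
      have hvℓ : v (ℓ : Kb) < 1 := (ValuationSubring.mem_nonunits_iff (A := A)).1 hA
      have hvint : ∀ c : ℤ, v (c : Kb) ≤ 1 := fun c =>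
        (ValuationSubring.valuation_le_one_iff A _).2 (by
          have : ((c : A) : Kb) = (c : Kb) := by simp
          rw [← this]
          exact (c : A).2)
      have hvy : v (algebraMap ℚ Kb y) ≤ 1 := (ValuationSubring.valuation_le_one_iff A _).2 hy
      have hmK : (m : Kb) = (ℓ : Kb) * ((ℓ : Kb) ^ e * algebraMap ℚ Kb y) := by
        have := congrArg (algebraMap ℚ Kb) hm
        rw [map_mul, map_pow, map_natCast, map_intCast] at this
        rw [← this, pow_succ]
        ring
      have hvm : v (m : Kb) < 1 := by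
        rw [hmK, map_mul, map_mul, map_pow]
        calc v (ℓ : Kb) * (v (ℓ : Kb) ^ e * v (algebraMap ℚ Kb y))
            ≤ v (ℓ : Kb) * 1 := by
              refine mul_le_mul_right ?_ _
              exact mul_le_one' (pow_le_one' hvℓ.le e) hvy
          _ < 1 := by rw [mul_one]; exact hvℓ
      have h1K : (1 : Kb) = (a : Kb) * (ℓ : Kb) + (b : Kb) * (m : Kb) := by
        have := congrArg (Int.cast : ℤ → Kb) hab
        push_cast at this
        exact this.symm
      have hlt : v (1 : Kb) < 1 := by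
        rw [h1K]
        refine lt_of_le_of_lt (v.map_add _ _) (max_lt ?_ ?_)
        · rw [map_mul]
          calc v (a : Kb) * v (ℓ : Kb) ≤ 1 * v (ℓ : Kb) := mul_le_mul_left (hvint a) _
            _ < 1 := by rw [one_mul]; exact hvℓ
        · rw [map_mul]
          calc v (b : Kb) * v (m : Kb) ≤ 1 * v (m : Kb) := mul_le_mul_left (hvint b) _
            _ < 1 := by rw [one_mul]; exact hvm
      rw [map_one] at hlt
      exact lt_irrefl _ hlt

/-- the rational `q`-expansion of an integral family -/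
def bSer (z : ℕ → ℤ) : LaurentSeries ℚ := coeffMap (Int.castRingHom ℚ) (fqZ z)

theorem bSer_coeff_natCast (z : ℕ → ℤ) (n : ℕ) : (bSer z).coeff (n : ℤ) = (z n : ℚ) := by
  rw [bSer, coeffMap_coeff, fqZ_coeff_natCast]
  rfl

theorem bSer_coeff_neg (z : ℕ → ℤ) (m : ℤ) (hm : m < 0) : (bSer z).coeff m = 0 := by
  rw [bSer, coeffMap_coeff, fqZ_coeff_neg z m hm, map_zero]

/-- a `ℂ`-basis of `S₂(Γ₀(N))` consisting of forms with integer `q`-expansions -/
theorem b_exists_basis (N : ℕ) [NeZero N] :
    ∃ (f : Fin (gN N) → CuspForm (Gamma0 N) 2) (z : Fin (gN N) → ℕ → ℤ),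
      LinearIndependent ℂ f ∧ ∀ t n, qCoeff (f t) n = (z t n : ℂ) := by
  classical
  set S : Set (CuspForm (Gamma0 N) 2) := {f | ∀ n : ℕ, ∃ m : ℤ, qCoeff f n = (m : ℂ)} with hS
  have hspan : Submodule.span ℂ S = ⊤ := by
    have h := Fermat.Agent.S23.hasIntegralStructure N 2
    rw [CuspForm.HasIntegralStructure, CuspForm.intLattice] at h
    rw [← h, Submodule.span_span_of_tower]
  rcases Nat.eq_zero_or_pos (gN N) with h0 | hpos
  · refine ⟨fun t => 0, fun _ _ => 0, ?_, fun t => ?_⟩
    · have : IsEmpty (Fin (gN N)) := by rw [h0]; infer_instance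
      exact linearIndependent_empty_type
    · rw [h0] at t
      exact t.elim0
  · have hfin : Module.Finite ℂ (CuspForm (Gamma0 N) 2) := Module.finite_of_finrank_pos hpos
    obtain ⟨b, hbS, hbspan, hbli⟩ := exists_linearIndependent ℂ S
    have hbtop : ⊤ ≤ Submodule.span ℂ (Set.range ((↑) : b → CuspForm (Gamma0 N) 2)) := by
      rw [Subtype.range_coe, hbspan, hspan]
    set B := Module.Basis.mk hbli hbtop with hB
    have hfb : Fintype b := FiniteDimensional.fintypeBasisIndex B
    have hcard : Fintype.card b = gN N := (Module.finrank_eq_card_basis B).symm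
    set e : Fin (gN N) ≃ b := (Fintype.equivFinOfCardEq hcard).symm with he
    have hmem : ∀ t, ((e t : b) : CuspForm (Gamma0 N) 2) ∈ S := fun t => hbS (e t).2
    choose z hz using hmem
    exact ⟨fun t => ((e t : b) : CuspForm (Gamma0 N) 2), z, hbli.comp e e.injective, hz⟩

open Fermat.Agent.ES.I2aux in
/-- **(B)** -/
theorem stmtB (N : ℕ) [NeZero N] {ℓ : ℕ} (hℓ : ℓ.Prime) (A : ValuationSubring Kb)
    (hA : A.LiesOverPrime ℓ) : StmtB N A := by
  classical
  obtain ⟨f, z, hfli, hfz⟩ := b_exists_basis N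
  -- the rational expansions are linearly independent
  set a : Fin (gN N) → LaurentSeries ℚ := fun t => bSer (z t) with ha
  have hqc : ∀ (c : Fin (gN N) → ℚ) (n : ℕ),
      qCoeff (⇑(∑ t, ((c t : ℚ) : ℂ) • f t : CuspForm (Gamma0 N) 2)) n =
        (((∑ t, c t • a t).coeff (n : ℤ) : ℚ) : ℂ) := by
    intro c n
    have h1 := map_sum (Fermat.Agent.S49.qCoeffLin N 2 n) (fun t => ((c t : ℚ) : ℂ) • f t)
      Finset.univ
    simp only [Fermat.Agent.S49.qCoeffLin_apply, map_smul] at h1
    rw [h1, HahnSeries.coeff_sum]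
    push_cast
    refine Finset.sum_congr rfl fun t _ => ?_
    rw [HahnSeries.coeff_smul, ha]
    simp only [bSer_coeff_natCast, smul_eq_mul, hfz]
    push_cast
    rfl
  have hneg : ∀ (c : Fin (gN N) → ℚ) (m : ℤ), m < 0 → (∑ t, c t • a t).coeff m = 0 := by
    intro c m hm
    rw [HahnSeries.coeff_sum]
    refine Finset.sum_eq_zero fun t _ => ?_
    rw [HahnSeries.coeff_smul, ha]
    simp only [bSer_coeff_neg _ m hm, smul_zero]
  have hali : LinearIndependent ℚ a := by
    rw [Fintype.linearIndependent_iff]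
    intro c hc
    have h1 : ∑ t, ((c t : ℚ) : ℂ) • f t = 0 := by
      apply Fermat.Agent.S49.eq_zero_of_qCoeff_eq_zero
      intro n
      rw [hqc c n, hc, HahnSeries.coeff_zero, Rat.cast_zero]
    intro t
    have h2 := (Fintype.linearIndependent_iff.1 hfli) (fun t => ((c t : ℚ) : ℂ)) h1 t
    exact_mod_cast h2
  -- the valuation subring of `ℚ`
  set A₀ : ValuationSubring ℚ := A.comap (algebraMap ℚ Kb) with hA₀
  have hA₀mem : ∀ x : ℚ, x ∈ A₀ ↔ algebraMap ℚ Kb x ∈ A := fun x => Iff.rfl
  -- elimination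
  obtain ⟨b, p, hbspan, hbA, hδ⟩ := Fermat.Agent.ES.M.q2_elim A₀.toSubring (cntCoeff (k := ℚ))
    (Submodule.span ℚ (Set.range a))
    (by
      intro x hx hx0
      obtain ⟨c, rfl⟩ := (Submodule.mem_span_range_iff_exists_fun ℚ).1 hx
      set S : Set ℚ := {y | y ≠ 0 ∧ ∃ n : ℤ, (∑ t, c t • a t).coeff n = y} with hS
      have hne : S.Nonempty := by
        by_contra hcon
        apply hx0
        ext n
        by_contra h
        exact hcon ⟨_, h, n, rfl⟩
      obtain ⟨s₀, ⟨hs₀0, n₀, hn₀⟩, hmin⟩ := Fermat.Agent.ES.G2.exists_min_of_mem_span A₀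
        (Finset.univ.image c) S hne (fun s hs => hs.1)
        (by
          rintro s ⟨-, n, rfl⟩
          rw [HahnSeries.coeff_sum]
          refine Submodule.sum_mem _ fun t _ => ?_
          rw [HahnSeries.coeff_smul, smul_eq_mul]
          have hin : ∃ m : ℤ, (a t).coeff n = (m : ℚ) := by
            rcases lt_or_ge n 0 with h | h
            · exact ⟨0, by rw [ha]; simp only [bSer_coeff_neg _ n h, Int.cast_zero]⟩
            · obtain ⟨n', rfl⟩ := Int.eq_ofNat_of_zero_le h
              exact ⟨z t n', bSer_coeff_natCast _ _⟩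
          obtain ⟨m, hm⟩ := hin
          rw [hm, mul_comm, ← zsmul_eq_mul]
          exact Submodule.smul_mem _ _ (Submodule.subset_span
            (Finset.mem_coe.2 (Finset.mem_image_of_mem c (Finset.mem_univ t)))))
      refine ⟨n₀, ?_, fun n => ?_⟩
      · rw [cntCoeff_apply, hn₀]
        exact hs₀0
      · rw [cntCoeff_apply, cntCoeff_apply, hn₀]
        by_cases h : (∑ t, c t • a t).coeff n = 0
        · rw [h, zero_div]
          exact A₀.zero_mem
        · exact hmin _ ⟨h, n, rfl⟩)
    (gN N) a hali (fun t => Submodule.subset_span ⟨t, rfl⟩)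
  -- coefficients of `b` in terms of `a`
  have hc : ∀ t, ∃ c : Fin (gN N) → ℚ, ∑ s, c s • a s = b t := fun t =>
    (Submodule.mem_span_range_iff_exists_fun ℚ).1 (hbspan t)
  choose c hc using hc
  -- denominators
  set D₀ : ℕ := ∏ t, ∏ s, (c t s).den with hD₀
  have hD₀0 : D₀ ≠ 0 :=
    Finset.prod_ne_zero_iff.2 fun t _ => Finset.prod_ne_zero_iff.2 fun s _ => (c t s).den_nz
  obtain ⟨e, D, hD, hD₀eq⟩ := Nat.exists_eq_pow_mul_and_not_dvd hD₀0 ℓ hℓ.ne_one
  have hcint : ∀ t s, ∃ m : ℤ, (D₀ : ℚ) * c t s = m := by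
    intro t s
    have hdvd : (c t s).den ∣ D₀ :=
      (Finset.dvd_prod_of_mem _ (Finset.mem_univ s)).trans
        (Finset.dvd_prod_of_mem (fun t => ∏ s, (c t s).den) (Finset.mem_univ t))
    obtain ⟨r, hr⟩ := hdvd
    refine ⟨(r : ℤ) * (c t s).num, ?_⟩
    have h1 : ((c t s).den : ℚ) * c t s = ((c t s).num : ℚ) := Rat.den_mul_eq_num _
    rw [hr]
    push_cast
    rw [← h1]
    ring
  have hain : ∀ s (n : ℤ), ∃ m : ℤ, (a s).coeff n = (m : ℚ) := by
    intro s n
    rcases lt_or_ge n 0 with h | h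
    · exact ⟨0, by rw [ha]; simp only [bSer_coeff_neg _ n h, Int.cast_zero]⟩
    · obtain ⟨n', rfl⟩ := Int.eq_ofNat_of_zero_le h
      exact ⟨z s n', bSer_coeff_natCast _ _⟩
  have hbint0 : ∀ t (n : ℤ), ∃ m : ℤ, (D₀ : ℚ) * (b t).coeff n = m := by
    intro t n
    choose m hm using fun s => hcint t s
    choose m' hm' using fun s => hain s n
    refine ⟨∑ s, m s * m' s, ?_⟩
    rw [← hc t, HahnSeries.coeff_sum, Finset.mul_sum]
    push_cast
    refine Finset.sum_congr rfl fun s _ => ?_
    rw [HahnSeries.coeff_smul, smul_eq_mul, ← mul_assoc, hm s, hm' s]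
  have hbint : ∀ t (n : ℤ), ∃ m : ℤ, (D : ℚ) * (b t).coeff n = m := by
    intro t n
    refine b_int_of_pow_mul hℓ A hA e ((D : ℚ) * (b t).coeff n) ?_ ?_
    · rw [map_mul, map_natCast]
      refine A.mul_mem _ _ ?_ (hbA t n)
      have : (((D : ℕ) : A) : Kb) = (D : Kb) := by simp
      rw [← this]
      exact ((D : ℕ) : A).2
    · obtain ⟨m, hm⟩ := hbint0 t n
      refine ⟨m, ?_⟩
      rw [← hm, hD₀eq]
      push_cast
      ring
  choose z' hz' using hbint
  have hDk : ((D : ℕ) : kA A) ≠ 0 := by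
    have := kron_charP_residueField hℓ hA
    intro h
    exact hD ((CharP.cast_eq_zero_iff (kA A) ℓ D).1 h)
  refine ⟨fun t => ∑ s, (((D : ℚ) * c t s : ℚ) : ℂ) • f s, fun t n => z' t (n : ℤ), ?_, ?_⟩
  · intro t n
    rw [hqc (fun s => (D : ℚ) * c t s) n]
    have h1 : ∑ s, ((D : ℚ) * c t s) • a s = (D : ℚ) • b t := by
      rw [← hc t, Finset.smul_sum]
      refine Finset.sum_congr rfl fun s _ => ?_
      rw [mul_smul]
    rw [h1, HahnSeries.coeff_smul, smul_eq_mul, hz' t n]
    push_cast
    rfl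
  · rw [Fintype.linearIndependent_iff]
    intro γ hγ j
    have hp0 : 0 ≤ p j := by
      by_contra h
      rw [not_le] at h
      have h1 : (b j).coeff (p j) = 0 := by
        rw [← hc j]
        exact hneg (c j) (p j) h
      have h2 := hδ j j
      rw [cntCoeff_apply, h1, if_pos rfl] at h2
      exact zero_ne_one h2
    obtain ⟨pn, hpn⟩ := Int.eq_ofNat_of_zero_le hp0
    have h3 := congrArg (fun x : LaurentSeries (kA A) => x.coeff (p j)) hγ
    simp only [HahnSeries.coeff_sum, HahnSeries.coeff_smul, coeffMap_coeff,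
      HahnSeries.coeff_zero] at h3
    have h4 : ∀ t, (fqZ fun n => z' t (n : ℤ)).coeff (p j) = if t = j then (D : ℤ) else 0 := by
      intro t
      rw [hpn, fqZ_coeff_natCast, ← hpn]
      have h5 := hz' t (p j)
      have hd := hδ t j
      rw [cntCoeff_apply] at hd
      rw [hd] at h5
      split_ifs with h
      · rw [if_pos h, mul_one] at h5
        exact_mod_cast h5.symm
      · rw [if_neg h, mul_zero] at h5
        exact_mod_cast h5.symm
    simp only [h4] at h3
    have h6 : ∑ t, γ t • (Int.castRingHom (kA A)) (if t = j then (D : ℤ) else 0) =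
        γ j * ((D : ℕ) : kA A) := by
      rw [Finset.sum_eq_single j]
      · rw [if_pos rfl, smul_eq_mul]
        simp
      · intro t _ ht
        rw [if_neg ht, map_zero, smul_zero]
      · intro h
        exact absurd (Finset.mem_univ _) h
    rw [h6] at h3
    rcases mul_eq_zero.1 h3 with h | h
    · exact h
    · exact absurd h hDk

/-- piece I2-B -/
theorem stmtBAll : StmtBAll := fun N _ _ hℓ A hA => stmtB N hℓ A hA

end Fermat.Agent.ES.I2
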