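import Fermat.Agent.ES.I2.Abstract
import Fermat.Agent.ES.I2aux.Residue
import Fermat.Agent.S28.PrimeLevel

/-!
# ES / I2 — abstract core, part 2: orders, the residue computation and the norm argument

`Ω = k((Q))`, `J ∈ Ω` of order `-N < 0` (`J = j̄(Q^N)`).

* `OrdGe z n` : all coefficients of `z` below `n` vanish.
* `const_core` : if `∏ W_i = P(J)`, the `W_i` have no poles and one of them vanishes at `Q = 0`,
  then `P = 0`.
* `res_core` : if `Σ W_i Y_i = J (J - c) P₁(J)`, the `W_i` (`i ≠ i₀`) have no poles, the `Y_i`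
  (`i ≠ i₀`) have order `> -N`, and `Y_{i₀} θJ = G J (J - c)`, then `a₀ (W_{i₀} G) = 0`.
-/

set_option autoImplicit false

noncomputable section

namespace Fermat.Agent.ES.I2

open Polynomial Fermat.Agent.S28.Deriv

variable {k : Type*} [Field k]

/-- all coefficients below `n` vanish -/
def OrdGe (z : LaurentSeries k) (n : ℤ) : Prop := ∀ m : ℤ, m < n → z.coeff m = 0

theorem isReg_iff_ordGe {z : LaurentSeries k} : IsReg z ↔ OrdGe z 0 := Iff.rfl

theorem isPos_iff_ordGe {z : LaurentSeries k} : IsPos z ↔ OrdGe z 1 := by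
  constructor
  · intro h m hm
    exact h m (by omega)
  · intro h m hm
    exact h m (by omega)

theorem ordGe_iff {z : LaurentSeries k} {n : ℤ} : OrdGe z n ↔ (n : WithTop ℤ) ≤ z.orderTop := by
  constructor
  · intro h
    by_cases hz : z = 0
    · rw [hz, HahnSeries.orderTop_zero]
      exact le_top
    · rw [← HahnSeries.order_eq_orderTop_of_ne_zero hz]
      by_contra hcon
      have hlt : z.order < n := by
        by_contra h2
        exact hcon (by exact_mod_cast not_lt.1 h2)
      exact hz (HahnSeries.coeff_order_eq_zero.1 (h _ hlt))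
  · intro h m hm
    exact HahnSeries.coeff_eq_zero_of_lt_orderTop (lt_of_lt_of_le (by exact_mod_cast hm) h)

theorem ordGe_zero (n : ℤ) : OrdGe (0 : LaurentSeries k) n := fun _ _ => rfl

theorem OrdGe.mono {z : LaurentSeries k} {n n' : ℤ} (h : OrdGe z n) (hn : n' ≤ n) :
    OrdGe z n' := fun m hm => h m (lt_of_lt_of_le hm hn)

theorem OrdGe.add {a b : LaurentSeries k} {n : ℤ} (ha : OrdGe a n) (hb : OrdGe b n) :
    OrdGe (a + b) n := by
  intro m hm
  rw [HahnSeries.coeff_add, ha m hm, hb m hm, add_zero]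

theorem OrdGe.neg {a : LaurentSeries k} {n : ℤ} (ha : OrdGe a n) : OrdGe (-a) n := by
  intro m hm
  rw [HahnSeries.coeff_neg, ha m hm, neg_zero]

theorem OrdGe.sub {a b : LaurentSeries k} {n : ℤ} (ha : OrdGe a n) (hb : OrdGe b n) :
    OrdGe (a - b) n := by
  rw [sub_eq_add_neg]
  exact ha.add hb.neg

theorem OrdGe.mul {a b : LaurentSeries k} {n m : ℤ} (ha : OrdGe a n) (hb : OrdGe b m) :
    OrdGe (a * b) (n + m) := by
  rw [ordGe_iff] at ha hb ⊢
  rw [HahnSeries.orderTop_mul]
  push_cast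
  exact add_le_add ha hb

theorem ordGe_sum {ι : Type*} (s : Finset ι) (f : ι → LaurentSeries k) (n : ℤ)
    (h : ∀ i ∈ s, OrdGe (f i) n) : OrdGe (∑ i ∈ s, f i) n := by
  intro m hm
  rw [HahnSeries.coeff_sum]
  exact Finset.sum_eq_zero fun i hi => h i hi m hm

theorem OrdGe.thetaFun {a : LaurentSeries k} {n : ℤ} (ha : OrdGe a n) : OrdGe (thetaFun a) n := by
  intro m hm
  rw [thetaFun_coeff, ha m hm, mul_zero]

theorem ordGe_order (z : LaurentSeries k) : OrdGe z z.order := fun _ hm =>
  HahnSeries.coeff_eq_zero_of_lt_order hm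

theorem OrdGe.inv_of_order {D : LaurentSeries k} (hD : D ≠ 0) : OrdGe D⁻¹ (-D.order) := by
  rw [ordGe_iff]
  have h1 : (D * D⁻¹).orderTop = 0 := by
    rw [mul_inv_cancel₀ hD]
    exact HahnSeries.orderTop_one
  rw [HahnSeries.orderTop_mul, ← HahnSeries.order_eq_orderTop_of_ne_zero hD] at h1
  have hne : D⁻¹ ≠ 0 := inv_ne_zero hD
  rw [← HahnSeries.order_eq_orderTop_of_ne_zero hne] at h1 ⊢
  have h2 : D.order + D⁻¹.order = 0 := by exact_mod_cast h1
  have h3 : -D.order = D⁻¹.order := by omega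
  rw [h3]

/-! ## polynomials in `J` -/

theorem aeval_J_eq_zero {J : LaurentSeries k} (hJ : J.order < 0) (P : k[X])
    (h : aeval J P = 0) : P = 0 := by
  by_contra hP
  exact Fermat.Agent.S28.aeval_ne_zero_of_order_neg hJ hP h

/-- a polynomial in `J` vanishing at `Q = 0` is zero -/
theorem poly_eq_zero_of_isPos {J : LaurentSeries k} (hJ : J.order < 0) (P : k[X])
    (h : IsPos (aeval J P)) : P = 0 := by
  by_contra hP
  have hne := Fermat.Agent.S28.aeval_ne_zero_of_order_neg hJ hP
  have ho := Fermat.Agent.S28.order_aeval_of_order_neg hJ hP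
  have h1 : (aeval J P).order ≤ 0 := by
    rw [ho]
    exact mul_nonpos_of_nonneg_of_nonpos (by positivity) hJ.le
  exact hne (HahnSeries.coeff_order_eq_zero.1 (h _ h1))

/-- **the norm argument** -/
theorem const_core {J : LaurentSeries k} (hJ : J.order < 0) {ι : Type*} [Fintype ι] (i₀ : ι)
    (W : ι → LaurentSeries k) (hreg : ∀ i, i ≠ i₀ → IsReg (W i)) (hpos : IsPos (W i₀))
    (P : k[X]) (hP : ∏ i, W i = aeval J P) : P = 0 := by
  classical
  refine poly_eq_zero_of_isPos hJ P ?_
  rw [← hP, ← Finset.mul_prod_erase Finset.univ W (Finset.mem_univ i₀)]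
  exact hpos.mul_isReg (isReg_prod _ _ fun i hi => hreg i (Finset.ne_of_mem_erase hi))

/-- the residue of `P(J) dJ` vanishes -/
theorem coeff_zero_aeval_mul_theta {J : LaurentSeries k} (hJ : J ≠ 0) (P : k[X]) :
    (aeval J P * thetaFun J).coeff 0 = 0 := by
  induction P using Polynomial.induction_on' with
  | add P Q hP hQ => rw [map_add, add_mul, HahnSeries.coeff_add, hP, hQ, add_zero]
  | monomial n a =>
    rw [aeval_monomial, algebraMap_eq_C, mul_assoc, Fermat.Agent.ES.I2aux.res_coeff_C_mul]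
    have := Fermat.Agent.ES.I2aux.res_zpow_mul_theta J hJ (n : ℤ)
    rw [zpow_natCast, if_neg (by omega)] at this
    rw [this, mul_zero]

/-- **the residue computation** -/
theorem res_core {J : LaurentSeries k} {N : ℕ} (hN : 0 < N) (hJ : J.order = -(N : ℤ)) (c : k)
    {ι : Type*} [Fintype ι] (i₀ : ι) (W Y : ι → LaurentSeries k)
    (hW : ∀ i, i ≠ i₀ → IsReg (W i)) (hY : ∀ i, i ≠ i₀ → OrdGe (Y i) (-(N : ℤ) + 1))
    (P₁ : k[X]) (hP : ∑ i, W i * Y i = J * (J - HahnSeries.C c) * aeval J P₁)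
    (G : LaurentSeries k) (hG : Y i₀ * thetaFun J = G * (J * (J - HahnSeries.C c))) :
    (W i₀ * G).coeff 0 = 0 := by
  classical
  have hJneg : J.order < 0 := by rw [hJ]; omega
  have hJ0 : J ≠ 0 := by
    intro h
    rw [h, HahnSeries.order_zero] at hJneg
    exact lt_irrefl _ hJneg
  set D : LaurentSeries k := J * (J - HahnSeries.C c) with hD
  have hDa : D = aeval J (X * (X - C c)) := by
    rw [hD, map_mul, map_sub, aeval_X, aeval_C, algebraMap_eq_C]
  have hq : (X * (X - C c) : k[X]) ≠ 0 := mul_ne_zero X_ne_zero (X_sub_C_ne_zero c)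
  have hD0 : D ≠ 0 := by
    rw [hDa]
    exact Fermat.Agent.S28.aeval_ne_zero_of_order_neg hJneg hq
  have hDo : D.order = -(2 * (N : ℤ)) := by
    rw [hDa, Fermat.Agent.S28.order_aeval_of_order_neg hJneg hq, hJ]
    have : (X * (X - C c) : k[X]).natDegree = 2 := by
      rw [natDegree_mul X_ne_zero (X_sub_C_ne_zero c), natDegree_X, natDegree_X_sub_C]
    rw [this]
    push_cast
    ring
  set S : LaurentSeries k := ∑ i ∈ Finset.univ.erase i₀, W i * Y i with hS
  have hsum : W i₀ * Y i₀ = D * aeval J P₁ - S := by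
    rw [← hP, ← Finset.add_sum_erase Finset.univ _ (Finset.mem_univ i₀)]
    ring
  have hSo : OrdGe S (-(N : ℤ) + 1) := by
    refine ordGe_sum _ _ _ fun i hi => ?_
    have := (isReg_iff_ordGe.1 (hW i (Finset.ne_of_mem_erase hi))).mul
      (hY i (Finset.ne_of_mem_erase hi))
    rwa [zero_add] at this
  have hθ : OrdGe (thetaFun J) (-(N : ℤ)) := by
    have := (ordGe_order J).thetaFun
    rwa [hJ] at this
  have hDi : OrdGe D⁻¹ (2 * (N : ℤ)) := by
    have := OrdGe.inv_of_order hD0
    rwa [hDo, neg_neg] at this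
  have key : W i₀ * G = aeval J P₁ * thetaFun J - D⁻¹ * (S * thetaFun J) := by
    have h1 : W i₀ * G * D = (D * aeval J P₁ - S) * thetaFun J := by
      rw [← hsum, mul_assoc (W i₀), ← hG]
      ring
    have h2 : W i₀ * G = D⁻¹ * ((D * aeval J P₁ - S) * thetaFun J) := by
      rw [← h1]
      field_simp
    rw [h2]
    field_simp
  rw [key, HahnSeries.coeff_sub, coeff_zero_aeval_mul_theta hJ0, zero_sub, neg_eq_zero]
  have h3 := hDi.mul (hSo.mul hθ)
  exact h3 0 (by omega)

end Fermat.Agent.ES.I2
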