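import Fermat.Agent.ES.I2.Plan2
import Fermat.Agent.ES.I2.Core
import Fermat.Agent.ES.M.RedF
import Fermat.Agent.INJ.InjDescentAux

/-!
# ES / I2, piece Const: `W ∩ q k[[q]] = 0`

`stmtConstGlue : StmtConstGlue` (= `StmtTN → StmtS2All → StmtTauAll → StmtConstAll`).

For `w ∈ W` vanishing at `q = 0`: the norm `∏ τ_i w` is a polynomial in `J = j̄(Q^N)` (`StmtTN`),
the factors `τ_i w`, `i ≠ i₀`, have no pole (`StmtS2`) and `τ_{i₀} w = w(Q^N)` vanishes at `Q = 0`;
so the norm vanishes (`const_core`), hence `w = 0`.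
-/

set_option autoImplicit false

noncomputable section

namespace Fermat.Agent.ES.I2

open ModularCurve AlgebraicCurve Fermat.Agent.ES Fermat.Agent.S24 Fermat.Agent.ES.M

/-- `j̄(Q^N)` has negative order -/
theorem const_order_J (k : Type*) [Field k] (N : ℕ) [NeZero N] :
    (qExpand k N (jqModC k)).order < 0 := by
  have hN : (0 : ℤ) < N := by exact_mod_cast Nat.pos_of_ne_zero (NeZero.ne N)
  have h1 : (qExpand k N (jqModC k)).coeff ((N : ℤ) * (-1)) ≠ 0 := by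
    rw [qExpand_coeff_mul, coeff_jqModC_neg_one]
    exact one_ne_zero
  have h2 := HahnSeries.order_le_of_coeff_ne_zero h1
  omega

/-- `w(Q^N)` vanishes at `Q = 0` if `w` vanishes at `q = 0` -/
theorem const_isPos_qExpand (k : Type*) [Field k] (N : ℕ) [NeZero N] {w : LaurentSeries k}
    (hw : ∀ m : ℤ, m ≤ 0 → w.coeff m = 0) : IsPos (qExpand k N w) := by
  intro m hm
  by_cases hdvd : (N : ℤ) ∣ m
  · obtain ⟨t, rfl⟩ := hdvd
    rw [qExpand_coeff_mul]
    apply hw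
    have hN : (0 : ℤ) < N := by exact_mod_cast Nat.pos_of_ne_zero (NeZero.ne N)
    by_contra hcon
    rw [not_le] at hcon
    have : 0 < (N : ℤ) * t := mul_pos hN hcon
    omega
  · exact qExpand_coeff_of_not_dvd N _ hdvd

set_option synthInstance.maxHeartbeats 400000 in
/-- **piece I2-Const** -/
theorem stmtConstGlue : StmtConstGlue := by
  intro hTN hS2 hTau N _ ℓ hℓ hℓN A hA w hw hw0
  obtain ⟨τ, i₀, hτ⟩ := hTau N ℓ hℓ hℓN A hA
  obtain ⟨hS2a, hS2b⟩ := hS2 N ℓ hℓ hℓN A hA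
  have : Fact ℓ.Prime := ⟨hℓ⟩
  have : CharP (kA A) ℓ := kron_charP_residueField (A := A) hℓ hA
  have : PerfectRing (kA A) ℓ := Fermat.Agent.INJ.nf_perfectRing_residueField A ℓ
  have hNk : ((N : ℕ) : kA A) ≠ 0 := redF_natCast_ne_zero N A ℓ hℓ hℓN hA
  obtain ⟨-, P, hP⟩ := hTN (kA A) ℓ N hNk τ hτ.inj hτ.jmap ⟨w, hw.1⟩ (hS2a w hw)
  have hP0 : P = 0 := by
    refine const_core (const_order_J (kA A) N) i₀ (fun i => τ i ⟨w, hw.1⟩) ?_ ?_ P hP
    · intro i hi
      exact hS2b τ i₀ hτ w hw i hi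
    · rw [hτ.infty, iotaK_apply]
      exact const_isPos_qExpand (kA A) N hw0
  rw [hP0, map_zero] at hP
  obtain ⟨i, -, hi⟩ := Finset.prod_eq_zero_iff.1 hP
  have hz : (⟨w, hw.1⟩ : ↥(modularFunctionFieldFullC (kA A) N)) = 0 :=
    (τ i).toRingHom.injective (hi.trans (map_zero _).symm)
  exact congrArg Subtype.val hz

end Fermat.Agent.ES.I2
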