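import Fermat.Agent.ES.I2.Plan2
import Fermat.Agent.ES.I2aux.Count

/-!
# ES / I2-Count: the final count

`stmtCountGlue : StmtCountGlue`
(`= StmtTauAll → StmtMFkAll → StmtConstAll → StmtResAll → StmtBAll → StmtI2All`, interface
`ES/I2/Plan2.lean`): the linear count `I2aux.i2_count` with `W n := Wn N A n` and
`F t := coeffMap _ (fqZ (z t))` for the integral basis of `StmtB`.
-/

set_option autoImplicit false

noncomputable section

namespace Fermat.Agent.ES.I2

open ModularCurve AlgebraicCurve HahnSeries Fermat.Agent.ES Fermat.Agent.S24 Fermat.Agent.ES.M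

/-- the count at one `(N, A)`, from the four inputs at `(N, A)`. -/
theorem cnt2_stmtI2 (N : ℕ) [NeZero N] (A : ValuationSubring Kb)
    (hTau : StmtTau N A) (hMFk : StmtMFk N A) (hConst : StmtConst N A) (hRes : StmtRes N A)
    (hB : StmtB N A) : StmtI2 N A := by
  obtain ⟨τ, i₀, hτ⟩ := hTau
  obtain ⟨f, z, hz, hli⟩ := hB
  exact Fermat.Agent.ES.I2aux.i2_count (fun n => Wn N A n)
    (fun n w hw => ((mem_Wn N A).1 hw).2) (gN N)
    (fun t => coeffMap (Int.castRingHom (kA A)) (fqZ (z t)))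
    (fun t => (hMFk τ i₀ hτ (f t) (z t) (hz t)).1) hli
    (fun n w hw t => hRes w ((mem_Wn N A).1 hw).1 (f t) (z t) (hz t))
    (fun n w hw h0 => hConst w ((mem_Wn N A).1 hw).1 h0)

/-- piece `I2-Count`. -/
theorem stmtCountGlue : StmtCountGlue := by
  intro hTau hMFk hConst hRes hB N _ ℓ hℓ h5 hℓN A hA
  exact cnt2_stmtI2 N A (hTau N ℓ hℓ hℓN A hA) (hMFk N ℓ hℓ hℓN A hA) (hConst N ℓ hℓ hℓN A hA)
    (hRes N ℓ hℓ h5 hℓN A hA) (hB N ℓ hℓ A hA)

end Fermat.Agent.ES.I2
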