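import Mathlib

/-!
# ES-I2, abstract core 1: trace and norm as sum / product over a full set of embeddings into a
(not necessarily algebraically closed) field
-/

set_option autoImplicit false

noncomputable section

namespace Fermat.Agent.ES.I2

open Module

variable {K L Ω : Type*} [Field K] [Field L] [Field Ω] [Algebra K L] [Algebra K Ω]
  [FiniteDimensional K L] [Algebra.IsSeparable K L]

/-- An injective family of `[L : K]` embeddings `L →ₐ[K] Ω`, composed with `Ω → Ω̄`, is a
bijection onto all embeddings into the algebraic closure. -/
theorem bijective_comp_algebraicClosure {I : Type*} [Fintype I]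
    (hcard : Fintype.card I = finrank K L) (σ : I → (L →ₐ[K] Ω)) (hσ : Function.Injective σ) :
    Function.Bijective
      (fun i => (IsScalarTower.toAlgHom K Ω (AlgebraicClosure Ω)).comp (σ i)) := by
  rw [Fintype.bijective_iff_injective_and_card]
  refine ⟨fun i j hij => hσ ?_, ?_⟩
  · ext z
    have := congrArg (fun f : L →ₐ[K] AlgebraicClosure Ω => f z) hij
    exact (algebraMap Ω (AlgebraicClosure Ω)).injective this
  · rw [hcard, AlgHom.card]

theorem trace_eq_sum_of_embeddings {I : Type*} [Fintype I]
    (hcard : Fintype.card I = finrank K L) (σ : I → (L →ₐ[K] Ω)) (hσ : Function.Injective σ)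
    (z : L) : algebraMap K Ω (Algebra.trace K L z) = ∑ i, σ i z := by
  apply (algebraMap Ω (AlgebraicClosure Ω)).injective
  rw [← IsScalarTower.algebraMap_apply, trace_eq_sum_embeddings (AlgebraicClosure Ω), map_sum]
  exact (Fintype.sum_bijective _ (bijective_comp_algebraicClosure hcard σ hσ) _ _
    (fun i => rfl)).symm

theorem norm_eq_prod_of_embeddings {I : Type*} [Fintype I]
    (hcard : Fintype.card I = finrank K L) (σ : I → (L →ₐ[K] Ω)) (hσ : Function.Injective σ)
    (z : L) : algebraMap K Ω (Algebra.norm K z) = ∏ i, σ i z := by
  apply (algebraMap Ω (AlgebraicClosure Ω)).injective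
  rw [← IsScalarTower.algebraMap_apply, Algebra.norm_eq_prod_embeddings K (AlgebraicClosure Ω),
    map_prod]
  exact (Fintype.prod_bijective _ (bijective_comp_algebraicClosure hcard σ hσ) _ _
    (fun i => rfl)).symm

end Fermat.Agent.ES.I2
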