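import Fermat.Agent.ES.I2.Plan
import Fermat.Agent.ES.M.RedF
import Fermat.Agent.ES.LR.Final

/-!
# ES / I2 — piece (Int): integrality at the other cusps  (helper59)

`A ⊂ ℚ̄` a valuation ring over `ℓ ∤ N`.  If `Y ∈ A((q))` lies in `F_N` and is integral over
`ℚ̄[j]`, then `σ(Y) ∈ A((Q))` for every embedding `σ : F_N → ℚ̄((Q))` with a type.

Proof.  As in (RedF): with `ψ(N)` monomials `x i` in the `j(q^d)` whose reductions are independent
over `k(j̄)` there is a relation `D(j) Y = ∑ P i (j) x i`, `D, P i ∈ A[X]`, `D̄ ≠ 0`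
(`int_exists_relation`).  Apply `σ`: `σ(j) = j(Q^N) =: J`, `σ(x i)` is a monomial in the
`j(c Q^m)`, `c` a root of unity, so `D(J) σ(Y) = ∑ P i (J) σ(x i)` is a fraction form of `σ(Y)` with
integral numerator and primitive denominator; `σ(Y)` is integral over `ℚ̄[J]`.  Conclude with
`exists_kronInt_C_mul` and the Gauss step `kronInt_of_bounded` (ES/LR).
-/

set_option autoImplicit false

noncomputable section

namespace Fermat.Agent.ES.I2

open ModularCurve AlgebraicCurve HahnSeries Polynomial IntermediateField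
open Fermat.Agent.ES Fermat.Agent.S24 Fermat.Agent.S28 Fermat.Agent.ES.M Fermat.Agent.ES.LR

section Abstract

variable {K : Type*} [Field K] {A : ValuationSubring K} {ι : Type*} [Fintype ι]

/-- The relation behind (RedF): if the image of `Y ∈ A((q))` in `K((q))` is a `K(t)`-combination
of the `x i` (whose reductions are independent over `k(t̄)`), then `D(t) Y = ∑ P i (t) x i` with
`D, P i ∈ A[X]` and `D̄ ≠ 0`. -/
theorem int_exists_relation (x : ι → LaurentSeries A) (t : LaurentSeries A)
    (ht : Transcendental (IsLocalRing.ResidueField A) (coeffMap (IsLocalRing.residue A) t))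
    (hind : ∀ c : ι → LaurentSeries (IsLocalRing.ResidueField A),
      (∀ i, c i ∈ adjoin (IsLocalRing.ResidueField A) {coeffMap (IsLocalRing.residue A) t}) →
      ∑ i, c i * coeffMap (IsLocalRing.residue A) (x i) = 0 → ∀ i, c i = 0)
    (Y : LaurentSeries A) (c : ι → LaurentSeries K)
    (hc : ∀ i, c i ∈ adjoin K {coeffMap (algebraMap A K) t})
    (hY : coeffMap (algebraMap A K) Y = ∑ i, c i * coeffMap (algebraMap A K) (x i)) :
    ∃ (D : Polynomial A) (P : ι → Polynomial A), D.map (IsLocalRing.residue A) ≠ 0 ∧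
      aeval t D * Y = ∑ i, aeval t (P i) * x i := by
  classical
  obtain ⟨D, hD, hDP⟩ := redDVR_exists_common_denominator (A := A)
    (coeffMap (algebraMap A K) t) c hc Finset.univ
  choose P hP using fun i => hDP i (Finset.mem_univ i)
  have hD0 : D ≠ 0 := by
    rintro rfl
    rw [Polynomial.map_zero, map_zero] at hD
    exact hD rfl
  -- the relation over `A`
  have h1 : aeval t D * Y = ∑ i, aeval t (P i) * x i := by
    apply redDVR_coeffMap_injective (algebraMap A K) (IsFractionRing.injective A K)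
    rw [map_mul, map_sum, hY, Finset.mul_sum]
    simp_rw [map_mul, redDVR_coeffMap_aeval, ← hP]
    exact Finset.sum_congr rfl fun i _ => by ring
  -- joint normalisation of `D` and the `P i`
  let Q : Option ι → Polynomial A := fun o => o.elim D P
  obtain ⟨a, Q', ha, hQQ', o₀, ho₀⟩ := redF_exists_primitive A Q ⟨none, hD0⟩
  have hDa : D = C a * Q' none := hQQ' none
  have hPa : ∀ i, P i = C a * Q' (some i) := fun i => hQQ' (some i)
  have h2 : aeval t (Q' none) * Y = ∑ i, aeval t (Q' (some i)) * x i := by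
    have h3 : algebraMap A (LaurentSeries A) a *
        (aeval t (Q' none) * Y - ∑ i, aeval t (Q' (some i)) * x i) = 0 := by
      rw [mul_sub, Finset.mul_sum, sub_eq_zero]
      have e1 : algebraMap A (LaurentSeries A) a * (aeval t (Q' none) * Y) = aeval t D * Y := by
        rw [hDa, map_mul, aeval_C, mul_assoc]
      have e2 : ∀ i, algebraMap A (LaurentSeries A) a * (aeval t (Q' (some i)) * x i)
          = aeval t (P i) * x i := fun i => by
        rw [hPa i, map_mul, aeval_C, mul_assoc]
      rw [e1, h1]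
      exact Finset.sum_congr rfl fun i _ => (e2 i).symm
    exact sub_eq_zero.mp (redDVR_eq_zero_of_mul ha h3)
  refine ⟨Q' none, fun i => Q' (some i), ?_, h2⟩
  -- reduce
  have h4 := congrArg (coeffMap (IsLocalRing.residue A)) h2
  rw [map_mul, map_sum] at h4
  simp_rw [map_mul, redDVR_coeffMap_aeval] at h4
  set r := IsLocalRing.residue A with hr
  have hmemc : ∀ Q₀ : Polynomial A,
      aeval (coeffMap r t) (Q₀.map r) ∈ adjoin (IsLocalRing.ResidueField A) {coeffMap r t} :=
    fun Q₀ => IntermediateField.algebra_adjoin_le_adjoin _ _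
      (Polynomial.aeval_mem_adjoin_singleton _ _)
  intro hD'
  rw [hD', map_zero, zero_mul] at h4
  have h5 := hind (fun i => aeval (coeffMap r t) ((Q' (some i)).map r))
    (fun i => hmemc _) h4.symm
  cases o₀ with
  | none => exact ho₀ hD'
  | some i => exact ho₀ (transcendental_iff.mp ht _ (h5 i))

end Abstract

section Roots

variable (A : ValuationSubring Kb)

/-- powers (with integer exponents) of a root of unity lie in `A` -/
theorem int_zpow_mem (c : Kbˣ) (δ : ℕ) (hδ : δ ≠ 0) (hc : c ^ δ = 1) (n : ℤ) :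
    ((c ^ n : Kbˣ) : Kb) ∈ A := by
  apply arch_mem_of_isIntegral
  have h1 : ((c ^ n : Kbˣ) : Kb) ^ δ = 1 := by
    rw [← Units.val_pow_eq_pow_val, ← zpow_natCast, ← zpow_mul, mul_comm, zpow_mul, zpow_natCast,
      hc, one_zpow, Units.val_one]
  exact IsIntegral.of_pow (Nat.pos_of_ne_zero hδ) (by rw [h1]; exact isIntegral_one)

/-- `f(c q)` is integral if `f` is and `c` is a root of unity -/
theorem int_kronInt_kronRot (c : Kbˣ) (δ : ℕ) (hδ : δ ≠ 0) (hc : c ^ δ = 1)
    {f : LaurentSeries Kb} (hf : KronInt A f) : KronInt A (kronRot c f) := by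
  intro n
  rw [kronRot_coeff]
  exact A.mul_mem _ _ (int_zpow_mem A c δ hδ hc n) (hf n)

end Roots

section Concrete

variable (N : ℕ) [NeZero N] (A : ValuationSubring Kb)

theorem int_jBar_eq : jBar = jqModC Kb := by
  rw [jBar, coeffEmb, ← jqModC_rat, coeffMap_jqModC]

/-- `σ(j) = j(Q^N)` for an embedding with a type -/
theorem int_sigma_jF (σ : FF N →ₐ[Kb] LaurentSeries Kb) (hσ : HasType N σ) :
    σ (jF N) = qExpand Kb N jBar := by
  obtain ⟨a, δ, m, c, h1, h2, h3, h4⟩ := hσ 1 (one_dvd N)
  have ha : a = 1 := Nat.eq_one_of_mul_eq_one_right h1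
  have hδ : δ = 1 := Nat.eq_one_of_mul_eq_one_left h1
  subst ha
  subst hδ
  rw [mul_one, mul_one] at h2
  rw [pow_one] at h3
  subst h2
  subst h3
  rw [← jdF_one, h4, substQ_eq, kronRot_one]

/-- `σ(j(q^d))` is integral for an embedding with a type -/
theorem int_kronInt_sigma_jdF (σ : FF N →ₐ[Kb] LaurentSeries Kb) (hσ : HasType N σ)
    (d : ℕ) (hd : d ∣ N) : KronInt A (σ (jdF N d hd)) := by
  obtain ⟨a, δ, m, c, h1, h2, h3, h4⟩ := hσ d hd
  have hd0 : d ≠ 0 := fun h => NeZero.ne N (by subst h; simpa using hd)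
  have hδ : δ ≠ 0 := by
    rintro rfl
    exact hd0 (by rw [← h1, mul_zero])
  have ha : a ≠ 0 := by
    rintro rfl
    exact hd0 (by rw [← h1, zero_mul])
  have hm : m ≠ 0 := by
    rintro rfl
    rw [zero_mul] at h2
    exact (mul_ne_zero (NeZero.ne N) ha) h2.symm
  have : NeZero m := ⟨hm⟩
  rw [h4, substQ_eq]
  exact (int_kronInt_kronRot A c δ hδ h3 (kronInt_jBar A)).qExpand m

/-- `σ` of a monomial in the `j(q^d)` is integral -/
theorem int_kronInt_sigma_monomial (σ : FF N →ₐ[Kb] LaurentSeries Kb) (hσ : HasType N σ)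
    {x : LaurentSeries ℤ} (hx : x ∈ Submonoid.closure (gensZ N)) :
    ∃ h : coeffMap (Int.castRingHom Kb) x ∈ modularFunctionFieldBar N,
      KronInt A (σ ⟨coeffMap (Int.castRingHom Kb) x, h⟩) := by
  induction hx using Submonoid.closure_induction with
  | mem z hz =>
    obtain ⟨d, hne, hd, rfl⟩ := hz
    have e : coeffMap (Int.castRingHom Kb) (qExpand ℤ d (jqModC ℤ)) =
        ((jdF N d hd : FF N) : LaurentSeries Kb) := by
      rw [jdF_coe, coeffMap_qExpand, coeffMap_jqModC, ← jqModC_rat, G2.hdeg_coeffEmb_gen]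
    have hmem : coeffMap (Int.castRingHom Kb) (qExpand ℤ d (jqModC ℤ)) ∈
        modularFunctionFieldBar N := by
      rw [e]
      exact (jdF N d hd).2
    refine ⟨hmem, ?_⟩
    have e2 : (⟨coeffMap (Int.castRingHom Kb) (qExpand ℤ d (jqModC ℤ)), hmem⟩ : FF N) =
        jdF N d hd := Subtype.ext e
    rw [e2]
    exact int_kronInt_sigma_jdF N A σ hσ d hd
  | one =>
    have hmem : coeffMap (Int.castRingHom Kb) (1 : LaurentSeries ℤ) ∈
        modularFunctionFieldBar N := by
      rw [map_one]
      exact one_mem _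
    refine ⟨hmem, ?_⟩
    have e2 : (⟨coeffMap (Int.castRingHom Kb) (1 : LaurentSeries ℤ), hmem⟩ : FF N) = 1 :=
      Subtype.ext (map_one _)
    rw [e2, map_one]
    exact KronInt.one
  | mul a b _ _ ha hb =>
    obtain ⟨ha1, ha2⟩ := ha
    obtain ⟨hb1, hb2⟩ := hb
    have hmem : coeffMap (Int.castRingHom Kb) (a * b) ∈ modularFunctionFieldBar N := by
      rw [map_mul]
      exact mul_mem ha1 hb1
    refine ⟨hmem, ?_⟩
    have e2 : (⟨coeffMap (Int.castRingHom Kb) (a * b), hmem⟩ : FF N) =
        (⟨coeffMap (Int.castRingHom Kb) a, ha1⟩ : FF N) *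
          (⟨coeffMap (Int.castRingHom Kb) b, hb1⟩ : FF N) := Subtype.ext (map_mul _ _ _)
    rw [e2, map_mul]
    exact ha2.mul hb2

end Concrete

section Main

variable (N : ℕ) [NeZero N] (A : ValuationSubring Kb)

/-- `j(Q^N)` is transcendental over the residue field -/
theorem int_transcendental_qExpand (k : Type*) [Field k] :
    Transcendental k (qExpand k N (jqModC k)) := by
  have h := red_transcendental_jqModC k
  intro halg
  apply h
  have h1 : IsAlgebraic k (qExpandAlgHomC k N (jqModC k)) := halg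
  exact (isAlgebraic_algHom_iff (qExpandAlgHomC k N) (qExpandAlgHomC k N).toRingHom.injective).1 h1

/-- polynomials over `A` in an integral series are integral -/
theorem int_kronInt_aeval {J : LaurentSeries Kb} (hJ : KronInt A J) (P : Polynomial A) :
    KronInt A (aeval J (P.map (algebraMap A Kb))) := by
  have h := kronInt_C_mul_aeval (A := A) hJ (P.map (algebraMap A Kb)) (c := 1) (fun k => by
    rw [one_mul, Polynomial.coeff_map]
    exact (P.coeff k).2)
  rwa [map_one, one_mul] at h

/-- sums of integral series are integral -/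
theorem int_kronInt_sum {ι : Type*} (s : Finset ι) (f : ι → LaurentSeries Kb)
    (hf : ∀ i ∈ s, KronInt A (f i)) : KronInt A (∑ i ∈ s, f i) := by
  rw [← mem_intSub]
  exact Subring.sum_mem _ fun i hi => mem_intSub.2 (hf i hi)

/-- `D(j(Q^N))` is primitive if `D̄ ≠ 0` -/
theorem int_kronPrim_aeval (D : Polynomial A) (hD : D.map (IsLocalRing.residue A) ≠ 0) :
    KronPrim A (aeval (qExpand Kb N jBar) (D.map (algebraMap A Kb))) := by
  have h1 : aeval (qExpand Kb N jBar) (D.map (algebraMap A Kb)) =
      kronIncl A (aeval (qExpand A N (jqModC A)) D) := by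
    have h2 := redDVR_coeffMap_aeval (algebraMap A Kb) (qExpand A N (jqModC A)) D
    rw [coeffMap_qExpand, coeffMap_jqModC, ← int_jBar_eq] at h2
    exact h2.symm
  rw [h1, kronPrim_kronIncl_iff]
  have h3 := redDVR_coeffMap_aeval (IsLocalRing.residue A) (qExpand A N (jqModC A)) D
  rw [coeffMap_qExpand, coeffMap_jqModC] at h3
  intro h0
  apply hD
  have h4 : aeval (qExpand (kA A) N (jqModC (kA A))) (D.map (IsLocalRing.residue A)) = 0 := by
    rw [← h3]
    exact h0
  exact transcendental_iff.mp (int_transcendental_qExpand N (kA A)) _ h4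

/-- **(Int)**: an `A`-integral element of `F_N` which is integral over `ℚ̄[j]` has `A`-integral
expansion under every embedding with a type. -/
theorem stmtInt (ℓ : ℕ) (hℓ : ℓ.Prime) (hℓN : ¬ ℓ ∣ N) (hA : A.LiesOverPrime ℓ) :
    StmtInt N A := by
  intro σ hσ Y hY hint
  have hArch : Arch A := arch_Qbar A hℓ hA
  -- the relation, as in (RedF)
  have hNk := redF_natCast_ne_zero N A ℓ hℓ hℓN hA
  obtain ⟨x, hx, hli⟩ := exists_monomials_full (k := kA A) N (primeHyp_of_dvd (kA A) N hNk)
  set X : Fin (dedekindPsi N) → LaurentSeries A := fun i => coeffMap (Int.castRingHom A) (x i)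
    with hX
  set t : LaurentSeries A := jqModC A with htdef
  have htk : coeffMap (IsLocalRing.residue A) t = jqModC (kA A) := coeffMap_jqModC _
  have htK : coeffMap (algebraMap A Kb) t = jqModC Kb := coeffMap_jqModC _
  have hXk : ∀ i, coeffMap (IsLocalRing.residue A) (X i) =
      coeffMap (Int.castRingHom (kA A)) (x i) := fun i => by
    rw [hX, coeffMap_coeffMap]
    exact coeffMap_congr (RingHom.ext_int _ _) _
  have hXK : ∀ i, coeffMap (algebraMap A Kb) (X i) = coeffMap (Int.castRingHom Kb) (x i) :=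
    fun i => by
      rw [hX, coeffMap_coeffMap]
      exact coeffMap_congr (RingHom.ext_int _ _) _
  have ht : Transcendental (IsLocalRing.ResidueField A) (coeffMap (IsLocalRing.residue A) t) := by
    rw [htk]
    exact red_transcendental_jqModC _
  have hind : ∀ c : Fin (dedekindPsi N) → LaurentSeries (IsLocalRing.ResidueField A),
      (∀ i, c i ∈ adjoin (IsLocalRing.ResidueField A) {coeffMap (IsLocalRing.residue A) t}) →
      ∑ i, c i * coeffMap (IsLocalRing.residue A) (X i) = 0 → ∀ i, c i = 0 := by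
    intro c hc hsum
    rw [htk] at hc
    simp_rw [hXk] at hsum
    have h0 := Fintype.linearIndependent_iff.mp hli (fun i => ⟨c i, hc i⟩) (by
      rw [← hsum]
      exact Finset.sum_congr rfl fun i _ => rfl)
    intro i
    exact congrArg Subtype.val (h0 i)
  have hindK := redF_indep X t ht hind
  have hliK : LinearIndependent (adjoin Kb {jqModC Kb})
      (fun i => coeffMap (Int.castRingHom Kb) (x i)) := by
    rw [Fintype.linearIndependent_iff]
    intro g hg i
    have h1 := hindK (fun i => (g i : LaurentSeries Kb)) (fun i => by rw [htK]; exact (g i).2)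
      (by
        simp_rw [hXK]
        rw [← hg]
        exact Finset.sum_congr rfl fun i _ => rfl) i
    exact Subtype.ext h1
  have hfin := UB.finrank_full_le Kb (NeZero.ne N)
    (fun r hr _ => @ub_modEq Kb _ r ⟨hr.ne_zero⟩ hr)
  have hm : ∀ i, coeffMap (Int.castRingHom Kb) (x i) ∈ modularFunctionFieldFullC Kb N :=
    fun i => redF_mem_full N Kb (hx i)
  have hYF : kronIncl A Y ∈ modularFunctionFieldFullC Kb N := by
    rw [← G2.hdeg_laurentBaseChange_full]
    exact hY
  obtain ⟨c, hc, hfc⟩ := exists_coeffs_of_linearIndependent (UB.K0 Kb)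
    (modularFunctionFieldFullC Kb N) (UB.K0_le_full Kb N) hfin.1 hfin.2
    (fun i => coeffMap (Int.castRingHom Kb) (x i)) hm hliK _ hYF
  obtain ⟨D, P, hD, hrel⟩ := int_exists_relation X t ht hind Y c (by rw [htK]; exact hc)
    (by simp_rw [hXK]; exact hfc)
  -- the relation in `ℚ̄((q))`
  have hrelK : aeval jBar (D.map (algebraMap A Kb)) * kronIncl A Y =
      ∑ i, aeval jBar ((P i).map (algebraMap A Kb)) * coeffMap (Int.castRingHom Kb) (x i) := by
    have h1 := congrArg (coeffMap (algebraMap A Kb)) hrel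
    rw [map_mul, map_sum] at h1
    simp_rw [map_mul, redDVR_coeffMap_aeval, htK, hXK] at h1
    rw [int_jBar_eq]
    exact h1
  -- the relation in `F_N`
  choose hxm hxi using fun i => int_kronInt_sigma_monomial N A σ hσ (hx i)
  have hco : ∀ p : Kb[X], ((aeval (jF N) p : FF N) : LaurentSeries Kb) = aeval jBar p := by
    intro p
    exact (Polynomial.aeval_algHom_apply (modularFunctionFieldBar N).val (jF N) p).symm
  have hrelF : aeval (jF N) (D.map (algebraMap A Kb)) * (⟨kronIncl A Y, hY⟩ : FF N) =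
      ∑ i, aeval (jF N) ((P i).map (algebraMap A Kb)) *
        (⟨coeffMap (Int.castRingHom Kb) (x i), hxm i⟩ : FF N) := by
    apply Subtype.ext
    have h1 : ((∑ i, aeval (jF N) ((P i).map (algebraMap A Kb)) *
        (⟨coeffMap (Int.castRingHom Kb) (x i), hxm i⟩ : FF N) : FF N) : LaurentSeries Kb) =
        ∑ i, aeval jBar ((P i).map (algebraMap A Kb)) * coeffMap (Int.castRingHom Kb) (x i) := by
      rw [← IntermediateField.coe_val, map_sum]
      refine Finset.sum_congr rfl fun i _ => ?_
      rw [map_mul, IntermediateField.coe_val, hco]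
    rw [h1, ← hrelK]
    show ((aeval (jF N) (D.map (algebraMap A Kb)) : FF N) : LaurentSeries Kb) * kronIncl A Y = _
    rw [hco]
  -- apply `σ`
  set J : LaurentSeries Kb := qExpand Kb N jBar with hJdef
  have hJ : KronInt A J := (kronInt_jBar A).qExpand N
  have hσa : ∀ p : Kb[X], σ (aeval (jF N) p) = aeval J p := by
    intro p
    rw [← Polynomial.aeval_algHom_apply, int_sigma_jF N σ hσ]
  have hrelσ : σ ⟨kronIncl A Y, hY⟩ * aeval J (D.map (algebraMap A Kb)) =
      ∑ i, aeval J ((P i).map (algebraMap A Kb)) *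
        σ ⟨coeffMap (Int.castRingHom Kb) (x i), hxm i⟩ := by
    have h1 := congrArg σ hrelF
    rw [map_mul, map_sum, hσa] at h1
    rw [mul_comm, h1]
    refine Finset.sum_congr rfl fun i _ => ?_
    rw [map_mul, hσa]
  have hY₁ : KronInt A (∑ i, aeval J ((P i).map (algebraMap A Kb)) *
      σ ⟨coeffMap (Int.castRingHom Kb) (x i), hxm i⟩) :=
    int_kronInt_sum A _ _ fun i _ => (int_kronInt_aeval A hJ (P i)).mul (hxi i)
  have hY₂ : KronPrim A (aeval J (D.map (algebraMap A Kb))) := int_kronPrim_aeval N A D hD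
  have hY₂0 : aeval J (D.map (algebraMap A Kb)) ≠ 0 := by
    intro h0
    obtain ⟨-, n, hn⟩ := hY₂
    apply hn
    rw [h0, HahnSeries.coeff_zero]
    exact (ValuationSubring.mem_nonunits_iff_exists_mem_maximalIdeal).2
      ⟨A.zero_mem, Ideal.zero_mem _⟩
  -- the monic relation
  obtain ⟨p, hp, hpz⟩ := hint
  have hz : Polynomial.eval₂ (Polynomial.aeval J).toRingHom (σ ⟨kronIncl A Y, hY⟩) p = 0 := by
    have hcomp1 : (modularFunctionFieldBar N).val.toRingHom.comp
        (Polynomial.aeval (R := Kb) (jF N)).toRingHom = (Polynomial.aeval jBar).toRingHom := by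
      apply RingHom.ext
      intro q
      exact hco q
    have hcomp2 : σ.toRingHom.comp (Polynomial.aeval (R := Kb) (jF N)).toRingHom =
        (Polynomial.aeval J).toRingHom := by
      apply RingHom.ext
      intro q
      exact hσa q
    have h1 := Polynomial.hom_eval₂ p (Polynomial.aeval (R := Kb) (jF N)).toRingHom
      (modularFunctionFieldBar N).val.toRingHom (⟨kronIncl A Y, hY⟩ : FF N)
    rw [hcomp1] at h1
    have h2 : Polynomial.eval₂ (Polynomial.aeval (R := Kb) (jF N)).toRingHom
        (⟨kronIncl A Y, hY⟩ : FF N) p = 0 := by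
      apply Subtype.ext
      exact h1.trans hpz
    have h3 := Polynomial.hom_eval₂ p (Polynomial.aeval (R := Kb) (jF N)).toRingHom
      σ.toRingHom (⟨kronIncl A Y, hY⟩ : FF N)
    rw [hcomp2, h2, map_zero] at h3
    exact h3.symm
  obtain ⟨c₀, hc₀, hcx⟩ := exists_kronInt_C_mul hArch hJ hY₁ hY₂.1 hY₂0 hrelσ p hp hz
  exact kronInt_of_bounded hArch hc₀ hcx hY₁ hY₂ hrelσ

/-- **(Int)** for all good `(N, ℓ, A)`. -/
theorem stmtIntAll : StmtIntAll := by
  intro N _ ℓ hℓ hℓN A hA
  exact stmtInt N A ℓ hℓ hℓN hA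

end Main

end Fermat.Agent.ES.I2
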