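import Fermat.Agent.ES.I2.Plan2
import Fermat.Agent.ES.I2.Embed
import Fermat.Agent.ES.I2.Int
import Fermat.Agent.ES.HModular
import Fermat.Agent.INJ.HMMem
import Fermat.Agent.S24.PolyClosure

/-!
# ES / I2 — piece (IR): reduction preserves integrality over the `j`-line  (helper59)

`stmtIRGlue : StmtEAll → StmtIntAll → StmtIRAll`.

`Y ∈ A((q)) ∩ F_N` integral over `ℚ̄[j]`.  Its minimal polynomial `μ` over `ℚ̄(j)` has coefficients
in `ℚ̄[j]` (`ℚ̄[j]` is integrally closed).  The `ψ(N)` embeddings `σ i : F_N → ℚ̄((Q))` of `(E)` are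
all the embeddings over `ℚ̄(j)` (`bijective_comp_algebraicClosure`), so the roots of `μ` are the
`σ i Y`, which are `A`-integral by `(Int)`; hence the coefficients `P(j)` of `μ` have
`P(j(Q^N)) ∈ A((Q))` (`ir_coeff_mem`), so `P ∈ A[X]` (`ir_exists_poly`).  Reduce `μ` modulo `𝔪_A`.
-/

set_option autoImplicit false
set_option linter.style.haveILetI false

noncomputable section

namespace Fermat.Agent.ES.I2

open ModularCurve AlgebraicCurve Polynomial IntermediateField Module
open Fermat.Agent.ES Fermat.Agent.S24 Fermat.Agent.S28 Fermat.Agent.ES.M Fermat.Agent.ES.LR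

section Abstract

/-- a product of linear factors with roots in a subring has coefficients in the subring -/
theorem ir_prod_coeff_mem {Ω : Type*} [Field Ω] (T : Subring Ω) (m : Multiset Ω)
    (hm : ∀ r ∈ m, r ∈ T) (n : ℕ) : ((m.map fun r => X - C r).prod).coeff n ∈ T := by
  have h : (m.map fun r => X - C r).prod ∈ (Polynomial.mapRingHom T.subtype).range := by
    apply Subring.multiset_prod_mem
    intro p hp
    rw [Multiset.mem_map] at hp
    obtain ⟨r, hr, rfl⟩ := hp
    refine ⟨X - C ⟨r, hm r hr⟩, ?_⟩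
    simp
  obtain ⟨q, hq⟩ := h
  rw [← hq]
  simp only [coe_mapRingHom, coeff_map, Subring.subtype_apply]
  exact (q.coeff n).2

/-- **Conjugates**: if all conjugates `σ i y` lie in a subring `S` of `Ω`, the coefficients of the
minimal polynomial of `y` lie in `S`. -/
theorem ir_coeff_mem {K0 L Ω : Type*} [Field K0] [Field L] [Field Ω] [Algebra K0 L]
    [FiniteDimensional K0 L] [Algebra.IsSeparable K0 L] {I : Type*} [Fintype I]
    (hcard : Fintype.card I = finrank K0 L) (ι : K0 →+* Ω) (σ : I → (L →+* Ω))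
    (hσι : ∀ i x, σ i (algebraMap K0 L x) = ι x) (hσ : Function.Injective σ)
    (S : Subring Ω) (y : L) (hy : ∀ i, σ i y ∈ S) (n : ℕ) :
    ι ((minpoly K0 y).coeff n) ∈ S := by
  letI : Algebra K0 Ω := ι.toAlgebra
  let σ' : I → (L →ₐ[K0] Ω) := fun i => { σ i with commutes' := fun x => hσι i x }
  have hσ' : Function.Injective σ' := fun i j h => hσ (by
    ext z
    exact congrArg (fun f : L →ₐ[K0] Ω => f z) h)
  have hbij := bijective_comp_algebraicClosure hcard σ' hσ'
  have halg : Algebra.IsAlgebraic K0 L := Algebra.IsAlgebraic.of_finite K0 L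
  set T : Subring (AlgebraicClosure Ω) := S.map (algebraMap Ω (AlgebraicClosure Ω)) with hT
  have hroots : ∀ r ∈ ((minpoly K0 y).map (algebraMap K0 (AlgebraicClosure Ω))).roots, r ∈ T := by
    intro r hr
    have h1 : r ∈ (minpoly K0 y).rootSet (AlgebraicClosure Ω) := by
      rw [Polynomial.rootSet, Polynomial.aroots]
      simpa using hr
    rw [← halg.range_eval_eq_rootSet_minpoly (AlgebraicClosure Ω) y] at h1
    obtain ⟨φ, rfl⟩ := h1
    obtain ⟨i, rfl⟩ := hbij.2 φ
    exact ⟨σ i y, hy i, rfl⟩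
  have hmonic : ((minpoly K0 y).map (algebraMap K0 (AlgebraicClosure Ω))).Monic :=
    (minpoly.monic (Algebra.IsIntegral.isIntegral y)).map _
  have hsplit := (IsAlgClosed.splits ((minpoly K0 y).map
    (algebraMap K0 (AlgebraicClosure Ω)))).eq_prod_roots_of_monic hmonic
  have h2 := ir_prod_coeff_mem T _ hroots n
  rw [← hsplit, Polynomial.coeff_map] at h2
  obtain ⟨s, hs, hs'⟩ := h2
  have h3 : algebraMap K0 (AlgebraicClosure Ω) ((minpoly K0 y).coeff n) =
      algebraMap Ω (AlgebraicClosure Ω) (ι ((minpoly K0 y).coeff n)) :=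
    IsScalarTower.algebraMap_apply K0 Ω (AlgebraicClosure Ω) _
  rw [h3] at hs'
  have h4 := (algebraMap Ω (AlgebraicClosure Ω)).injective hs'
  rw [← h4]
  exact hs

end Abstract

section Poly

variable (N : ℕ) [NeZero N] (A : ValuationSubring Kb)

/-- a polynomial `P` over `ℚ̄` with `P(j(Q^N))` integral has coefficients in `A` -/
theorem ir_exists_poly (P : Kb[X]) (h : KronInt A (aeval (qExpand Kb N jBar) P)) :
    ∃ P' : Polynomial A, P'.map (algebraMap A Kb) = P := by
  classical
  by_cases hP : P = 0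
  · exact ⟨0, by rw [hP, Polynomial.map_zero]⟩
  -- clear denominators
  obtain ⟨c₁, hc₁0, hc₁A, hc₁⟩ := exists_common_denom (A := A) P.coeffs
  have hl₁ : C c₁ * P ∈ Polynomial.lifts (algebraMap A Kb) := by
    rw [Polynomial.lifts_iff_coeff_lifts]
    intro n
    rw [Polynomial.coeff_C_mul]
    by_cases h0 : P.coeff n = 0
    · exact ⟨0, by rw [h0, mul_zero, map_zero]⟩
    · exact ⟨⟨_, hc₁ _ (Polynomial.coeff_mem_coeffs h0)⟩, rfl⟩
  obtain ⟨P₁, hP₁⟩ := (Polynomial.mem_lifts _).1 hl₁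
  have hP₁0 : P₁ ≠ 0 := by
    rintro rfl
    rw [Polynomial.map_zero] at hP₁
    exact (mul_ne_zero (by rwa [Ne, Polynomial.C_eq_zero]) hP) hP₁.symm
  -- normalise
  obtain ⟨a, P'', ha, hPP'', i, hprim'⟩ :=
    redF_exists_primitive A (fun _ : Unit => P₁) ⟨(), hP₁0⟩
  have hprim : (P'' ()).map (IsLocalRing.residue A) ≠ 0 := hprim'
  have haK : (a : Kb) ≠ 0 := fun h0 => ha (Subtype.ext h0)
  have hrel : P = C ((a : Kb) / c₁) * (P'' ()).map (algebraMap A Kb) := by
    have h1 : C c₁ * P = C (a : Kb) * (P'' ()).map (algebraMap A Kb) := by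
      rw [← hP₁, hPP'' (), Polynomial.map_mul, Polynomial.map_C]
      rfl
    have h2 : C ((a : Kb) / c₁) * (P'' ()).map (algebraMap A Kb) =
        C c₁⁻¹ * (C (a : Kb) * (P'' ()).map (algebraMap A Kb)) := by
      rw [← mul_assoc, ← C_mul, div_eq_inv_mul]
    rw [h2, ← h1, ← mul_assoc, ← C_mul, inv_mul_cancel₀ hc₁0, C_1, one_mul]
  -- the unit coefficient
  obtain ⟨hint, n, hn⟩ := int_kronPrim_aeval N A (P'' ()) hprim
  set v : Kb := (aeval (qExpand Kb N jBar) ((P'' ()).map (algebraMap A Kb))).coeff n with hv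
  have hvA : v ∈ A := hint n
  have hvinv : v⁻¹ ∈ A := by
    by_contra hcon
    apply hn
    rw [ValuationSubring.mem_nonunits_iff]
    have hv1 : A.valuation v ≤ 1 := (A.valuation_le_one_iff v).2 hvA
    rcases lt_or_eq_of_le hv1 with hlt | heq
    · exact hlt
    · exfalso
      apply hcon
      rw [← A.valuation_le_one_iff, map_inv₀, heq, inv_one]
  have hv0 : v ≠ 0 := by
    rintro h0
    apply hn
    rw [h0]
    exact (ValuationSubring.mem_nonunits_iff_exists_mem_maximalIdeal).2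
      ⟨A.zero_mem, Ideal.zero_mem _⟩
  have hu : (a : Kb) / c₁ ∈ A := by
    have h3 := h n
    rw [hrel, map_mul, aeval_C, LaurentSeries.algebraMap_apply, HahnSeries.C_mul_eq_smul,
      HahnSeries.coeff_smul, smul_eq_mul] at h3
    have h4 : (a : Kb) / c₁ = ((a : Kb) / c₁ * v) * v⁻¹ := by
      rw [mul_assoc, mul_inv_cancel₀ hv0, mul_one]
    rw [h4]
    exact A.mul_mem _ _ h3 hvinv
  refine ⟨C ⟨(a : Kb) / c₁, hu⟩ * P'' (), ?_⟩
  rw [Polynomial.map_mul, Polynomial.map_C, hrel]
  rfl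

end Poly

section Main

variable (N : ℕ) [NeZero N] (A : ValuationSubring Kb)

/-- two embeddings with a type agree on `ℚ̄(j)` -/
theorem ir_agree (σ τ : FF N →ₐ[Kb] LaurentSeries Kb) (hσ : HasType N σ) (hτ : HasType N τ)
    (x : Kb⟮jF N⟯) : σ (algebraMap Kb⟮jF N⟯ (FF N) x) = τ (algebraMap Kb⟮jF N⟯ (FF N) x) := by
  have h : σ.comp (IsScalarTower.toAlgHom Kb Kb⟮jF N⟯ (FF N)) =
      τ.comp (IsScalarTower.toAlgHom Kb Kb⟮jF N⟯ (FF N)) := by
    apply IntermediateField.adjoin_algHom_ext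
    intro z hz
    rw [Set.mem_singleton_iff] at hz
    subst hz
    show σ (jF N) = τ (jF N)
    rw [int_sigma_jF N σ hσ, int_sigma_jF N τ hτ]
  exact DFunLike.congr_fun h x

/-- the relation over `A` and its reduction -/
theorem ir_reduce (Y : LaurentSeries A) (μA : Polynomial (Polynomial A))
    (h : Polynomial.eval₂ (Polynomial.aeval jBar).toRingHom (kronIncl A Y)
      (μA.map (Polynomial.mapRingHom (algebraMap A Kb))) = 0) :
    Polynomial.eval₂ (Polynomial.aeval (jqModC (kA A))).toRingHom (kronRed A Y)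
      (μA.map (Polynomial.mapRingHom (IsLocalRing.residue A))) = 0 := by
  have hcompK : (kronIncl A).comp (Polynomial.aeval (jqModC A)).toRingHom =
      (Polynomial.aeval jBar).toRingHom.comp (Polynomial.mapRingHom (algebraMap A Kb)) := by
    apply RingHom.ext
    intro P
    have h1 := redDVR_coeffMap_aeval (algebraMap A Kb) (jqModC A) P
    rw [coeffMap_jqModC, ← int_jBar_eq] at h1
    exact h1
  have hcompk : (kronRed A).comp (Polynomial.aeval (jqModC A)).toRingHom =
      (Polynomial.aeval (jqModC (kA A))).toRingHom.comp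
        (Polynomial.mapRingHom (IsLocalRing.residue A)) := by
    apply RingHom.ext
    intro P
    have h1 := redDVR_coeffMap_aeval (IsLocalRing.residue A) (jqModC A) P
    rw [coeffMap_jqModC] at h1
    exact h1
  have h0 : Polynomial.eval₂ (Polynomial.aeval (jqModC A)).toRingHom Y μA = 0 := by
    apply kronIncl_injective (A := A)
    rw [map_zero, Polynomial.hom_eval₂, hcompK, ← Polynomial.eval₂_map]
    exact h
  have h1 := congrArg (kronRed A) h0
  rw [map_zero, Polynomial.hom_eval₂, hcompk, ← Polynomial.eval₂_map] at h1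
  exact h1

/-- **(IR)** from `(E)` and `(Int)`. -/
theorem ir_stmtIR (hE : StmtE N) (hInt : StmtInt N A) : StmtIR N A := by
  intro Y hY hint
  obtain ⟨σ, hσinj, hσtype, i₀, -⟩ := hE
  -- the tower `ℚ̄[X] → ℚ̄(j) → F`
  haveI hfd : FiniteDimensional Kb⟮jF N⟯ (FF N) := H.finiteDimensional_adjoin_jF N
  haveI : CharZero Kb⟮jF N⟯ := charZero_of_injective_algebraMap (algebraMap Kb Kb⟮jF N⟯).injective
  haveI : Algebra.IsAlgebraic Kb⟮jF N⟯ (FF N) := Algebra.IsAlgebraic.of_finite _ _
  haveI : PerfectField Kb⟮jF N⟯ := PerfectField.ofCharZero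
  haveI : Algebra.IsSeparable Kb⟮jF N⟯ (FF N) :=
    Algebra.IsAlgebraic.isSeparable_of_perfectField
  letI := polyAlgebra (K := Kb) (jF N)
  letI := polyAlgebraAdjoin (K := Kb) (jF N)
  haveI := polyAlgebraAdjoin_tower (K := Kb) (jF N)
  haveI := polyAlgebraAdjoin_isFractionRing (K := Kb) (jF N) (transcendental_jF N)
  have hco : ∀ p : Kb[X], ((aeval (jF N) p : FF N) : LaurentSeries Kb) = aeval jBar p := by
    intro p
    exact (Polynomial.aeval_algHom_apply (modularFunctionFieldBar N).val (jF N) p).symm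
  have hcomp : (modularFunctionFieldBar N).val.toRingHom.comp (algebraMap Kb[X] (FF N)) =
      (Polynomial.aeval jBar).toRingHom := by
    apply RingHom.ext
    intro q
    exact hco q
  set y : FF N := ⟨kronIncl A Y, hY⟩ with hy
  -- `y` is integral over `ℚ̄[X]`
  have hyint : IsIntegral Kb[X] y := by
    obtain ⟨p, hp, hpz⟩ := hint
    refine ⟨p, hp, ?_⟩
    apply Subtype.ext
    have h1 := Polynomial.hom_eval₂ p (algebraMap Kb[X] (FF N))
      (modularFunctionFieldBar N).val.toRingHom y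
    rw [hcomp] at h1
    exact h1.trans hpz
  have hmin : minpoly Kb⟮jF N⟯ y = (minpoly Kb[X] y).map (algebraMap Kb[X] Kb⟮jF N⟯) :=
    minpoly.isIntegrallyClosed_eq_field_fractions' Kb⟮jF N⟯ hyint
  -- the conjugates
  have hcard : Fintype.card (Fin (dedekindPsi N)) = finrank Kb⟮jF N⟯ (FF N) := by
    rw [Fintype.card_fin, INJ.hmMem_finrank_jF]
  have hcoef : ∀ n, KronInt A (aeval (qExpand Kb N jBar) ((minpoly Kb[X] y).coeff n)) := by
    intro n
    have h1 := ir_coeff_mem hcard
      ((σ i₀).toRingHom.comp (algebraMap Kb⟮jF N⟯ (FF N)))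
      (fun i => (σ i).toRingHom)
      (fun i x => ir_agree N (σ i) (σ i₀) (hσtype i) (hσtype i₀) x)
      (fun i j hij => hσinj (AlgHom.ext fun z =>
        congrArg (fun f : FF N →+* LaurentSeries Kb => f z) hij))
      (intSub A) y (fun i => mem_intSub.2 (hInt (σ i) (hσtype i) Y hY hint)) n
    rw [mem_intSub, hmin, Polynomial.coeff_map] at h1
    have h2 : ((σ i₀).toRingHom.comp (algebraMap Kb⟮jF N⟯ (FF N)))
        (algebraMap Kb[X] Kb⟮jF N⟯ ((minpoly Kb[X] y).coeff n)) =
        aeval (qExpand Kb N jBar) ((minpoly Kb[X] y).coeff n) := by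
      show σ i₀ (algebraMap Kb⟮jF N⟯ (FF N) (algebraMap Kb[X] Kb⟮jF N⟯ _)) = _
      rw [← IsScalarTower.algebraMap_apply Kb[X] Kb⟮jF N⟯ (FF N)]
      show σ i₀ (aeval (jF N) _) = _
      rw [← Polynomial.aeval_algHom_apply, int_sigma_jF N (σ i₀) (hσtype i₀)]
    rw [h2] at h1
    exact h1
  -- lift the minimal polynomial to `A[X][T]`
  have hlift : minpoly Kb[X] y ∈
      Polynomial.lifts (Polynomial.mapRingHom (algebraMap A Kb)) := by
    rw [Polynomial.lifts_iff_coeff_lifts]
    intro n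
    obtain ⟨P', hP'⟩ := ir_exists_poly N A _ (hcoef n)
    exact ⟨P', hP'⟩
  obtain ⟨μA, hμA, -, hμAmonic⟩ :=
    Polynomial.lifts_and_degree_eq_and_monic hlift (minpoly.monic hyint)
  refine ⟨μA.map (Polynomial.mapRingHom (IsLocalRing.residue A)), hμAmonic.map _, ?_⟩
  apply ir_reduce A Y μA
  rw [hμA]
  have h1 := Polynomial.hom_eval₂ (minpoly Kb[X] y) (algebraMap Kb[X] (FF N))
    (modularFunctionFieldBar N).val.toRingHom y
  rw [hcomp] at h1
  have h2 : Polynomial.eval₂ (algebraMap Kb[X] (FF N)) y (minpoly Kb[X] y) = 0 :=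
    minpoly.aeval Kb[X] y
  rw [h2, map_zero] at h1
  exact h1.symm

/-- piece `I2-IR` -/
theorem stmtIRGlue : StmtIRGlue := by
  intro hE hInt N _ ℓ hℓ hℓN A hA
  exact ir_stmtIR N A (hE N) (hInt N ℓ hℓ hℓN A hA)

end Main

end Fermat.Agent.ES.I2
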