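import Fermat.Agent.ES.I2.MFAnalytic
import Fermat.Agent.INJ.HMSturm
import Fermat.Agent.S23.LevelOneInt
import Fermat.Agent.S28.Transfer
import Fermat.Agent.S28.ModUnit
import Fermat.Agent.S28.Deriv

/-!
# ES / I2-MF, formal part: the identities in `ℤ((q))`

With `E4 = mfE4L`, `E6 = mfE6L` (the integral `q`-expansions as Laurent series), `Δ⁻¹ = deltaInvZ`:
* `mf_j_eq`     : `j = E4³ · Δ⁻¹`;
* `mf_j_sub_eq` : `j − 1728 = E6² · Δ⁻¹`;
* `mf_theta_j`  : `θ j = −E4² · E6 · Δ⁻¹`.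
-/

set_option autoImplicit false

noncomputable section

namespace Fermat.Agent.ES.I2

open CongruenceSubgroup UpperHalfPlane ModularForm ModularFormClass Derivative EisensteinSeries
open HahnSeries ModularCurve
open Fermat.Agent.S23 Fermat.Agent.S24 Fermat.Agent.S28 Fermat.Agent.S16 Fermat.Agent.INJ.HM
open Fermat.Agent.S28.Deriv
open scoped MatrixGroups ModularForm Manifold

local notation "Δ" => ModularForm.discriminant

/-- the integral `q`-expansion `1 - 504 ∑ σ₅(n) qⁿ` of `E₆`. -/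
def mfE6 : PowerSeries ℤ :=
  PowerSeries.mk fun n => if n = 0 then 1 else -504 * ∑ d ∈ n.divisors, (d : ℤ) ^ 5

theorem mf_qExp_E6 : qExpansion 1 E₆ = hmC mfE6 := by
  ext n
  rw [levelOneInt_E6_coeff, hmC, PowerSeries.coeff_map, mfE6, PowerSeries.coeff_mk]
  split_ifs with h
  · simp
  · simp [ArithmeticFunction.sigma_apply]

/-- `E₄` as a Laurent series over `ℤ`. -/
def mfE4L : LaurentSeries ℤ := HahnSeries.ofPowerSeries ℤ ℤ eisenstein4

/-- `E₆` as a Laurent series over `ℤ`. -/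
def mfE6L : LaurentSeries ℤ := HahnSeries.ofPowerSeries ℤ ℤ mfE6

theorem mf_coeffMap_E4L :
    coeffMap (Int.castRingHom ℂ) mfE4L = HahnSeries.ofPowerSeries ℤ ℂ (qExpansion 1 E₄) := by
  rw [mfE4L, coeffMap_ofPowerSeries, hm_qExp_E4]

theorem mf_coeffMap_E6L :
    coeffMap (Int.castRingHom ℂ) mfE6L = HahnSeries.ofPowerSeries ℤ ℂ (qExpansion 1 E₆) := by
  rw [mfE6L, coeffMap_ofPowerSeries, mf_qExp_E6]

theorem mf_deltaZ_eq :
    deltaZ = HahnSeries.ofPowerSeries ℤ ℤ (PowerSeries.X * dedekindEtaUnit) := by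
  rw [deltaZ, map_mul, HahnSeries.ofPowerSeries_X]

/-- `E₄³ − E₆² = 1728 Δ` in `ℤ[[q]]`. -/
theorem mf_ps_disc :
    eisenstein4 ^ 3 - mfE6 ^ 2 = PowerSeries.C (1728 : ℤ) * (PowerSeries.X * dedekindEtaUnit) := by
  apply hmC_injective
  have h := levelOneInt_discriminant_qExpansion_mul
  rw [hm_qExp_E4, mf_qExp_E6, hm_qExp_Delta] at h
  have e1 : hmC (PowerSeries.C (1728 : ℤ)) = PowerSeries.C (1728 : ℂ) := by
    rw [hmC, PowerSeries.map_C]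
    simp
  have e2 : hmC (PowerSeries.X : PowerSeries ℤ) = PowerSeries.X := PowerSeries.map_X _
  rw [map_sub, map_pow, map_pow, map_mul, map_mul, e1, e2, ← h]

/-- `E₄³ − E₆² = 1728 Δ` in `ℤ((q))`. -/
theorem mf_disc : mfE4L ^ 3 - mfE6L ^ 2 = 1728 * deltaZ := by
  have h := congrArg (HahnSeries.ofPowerSeries ℤ ℤ) mf_ps_disc
  rw [map_sub, map_pow, map_pow, map_mul, ← mf_deltaZ_eq] at h
  rw [mfE4L, mfE6L, h]
  congr 1
  rw [HahnSeries.ofPowerSeries_C]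
  simp

theorem mf_deltaInvZ_mul : deltaInvZ * deltaZ = 1 := by
  rw [mul_comm]
  exact deltaZ_mul_deltaInvZ

/-- `j = E₄³ Δ⁻¹`. -/
theorem mf_j_eq : jqModC ℤ = mfE4L ^ 3 * deltaInvZ := by
  have h : jNum.map (Int.castRingHom ℤ) = jNum := by
    ext n
    simp
  rw [jqModC, h, jNum, map_mul, map_pow, mfE4L, deltaInvZ]
  ring

/-- `j − 1728 = E₆² Δ⁻¹`. -/
theorem mf_j_sub_eq : jqModC ℤ - 1728 = mfE6L ^ 2 * deltaInvZ := by
  rw [mf_j_eq]
  have h := mf_disc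
  have h2 := mf_deltaInvZ_mul
  linear_combination deltaInvZ * h + 1728 * h2

/-- `θ j = −E₄² E₆ Δ⁻¹`. -/
theorem mf_theta_j : thetaFun (jqModC ℤ) = -(mfE4L ^ 2 * mfE6L * deltaInvZ) := by
  apply coeffMap_injective (g := Int.castRingHom ℂ) Int.cast_injective
  rw [← thetaFun_coeffMap, coeffMap_jqModC, map_neg, map_mul, map_mul, map_pow, mf_coeffMap_E4L,
    mf_coeffMap_E6L]
  have hD : coeffMap (Int.castRingHom ℂ) deltaInvZ = deltaL⁻¹ := deltaInvS_complex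
  rw [hD]
  -- the analytic identity
  have h4 : IsMF (G0 1) 4 (E₄ : ℍ → ℂ) := IsMF.of_levelOne mf_isMF_E4
  have h6 : IsMF (G0 1) 6 (E₆ : ℍ → ℂ) := IsMF.of_levelOne mf_isMF_E6
  have hΔ : IsHPB (Δ : ℍ → ℂ) := bridge_isHPB_discriminant
  have m4 := IsHPB.isMerInf h4.isHPB
  have m6 := IsHPB.isMerInf h6.isHPB
  have mΔ := isMerInf_discriminant
  have hfun : Fermat.Agent.S28.CPrime.hTwo = -((Δ : ℍ → ℂ) * (E₄ : ℍ → ℂ) ^ 2 * (E₆ : ℍ → ℂ)) := by
    funext z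
    rw [mf_hTwo_eq]
    simp
  have hfun2 : Fermat.Agent.S28.CPrime.hTwo = ((Δ : ℍ → ℂ) ^ 2) * D Jfun := by
    funext z
    simp [Fermat.Agent.S28.CPrime.hTwo]
  have hΔ2 : IsMerInf ((Δ : ℍ → ℂ) ^ 2) :=
    Subalgebra.pow_mem merInf (x := (Δ : ℍ → ℂ)) isMerInf_discriminant 2
  have m42 : IsMerInf ((E₄ : ℍ → ℂ) ^ 2) :=
    Subalgebra.pow_mem merInf (x := (E₄ : ℍ → ℂ)) m4 2
  have e1 : laurentOf Fermat.Agent.S28.CPrime.hTwo
      = deltaL ^ 2 * thetaFun (jqModC ℂ) := by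
    rw [hfun2, laurentOf_mul hΔ2 Fermat.Agent.S28.CPrime.isMerInf_DJ,
      laurentOf_pow isMerInf_discriminant, laurentOf_discriminant,
      Fermat.Agent.S28.CPrime.laurentOf_DJ Fermat.Agent.S28.CPrime.derivBridgeStmt]
  have e2 : laurentOf Fermat.Agent.S28.CPrime.hTwo
      = -(deltaL * HahnSeries.ofPowerSeries ℤ ℂ (qExpansion 1 E₄) ^ 2 *
          HahnSeries.ofPowerSeries ℤ ℂ (qExpansion 1 E₆)) := by
    have hneg : -((Δ : ℍ → ℂ) * (E₄ : ℍ → ℂ) ^ 2 * (E₆ : ℍ → ℂ))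
        = (-1 : ℂ) • ((Δ : ℍ → ℂ) * (E₄ : ℍ → ℂ) ^ 2 * (E₆ : ℍ → ℂ)) := by
      simp
    rw [hfun, hneg, laurentOf_smul (-1) ((mΔ.mul m42).mul m6), laurentOf_mul (mΔ.mul m42) m6,
      laurentOf_mul mΔ m42, laurentOf_pow m4, laurentOf_discriminant,
      laurentOf_of_isHPB h4.isHPB, laurentOf_of_isHPB h6.isHPB]
    simp
  have hne : deltaL ≠ 0 := deltaL_ne_zero
  have key : deltaL ^ 2 * thetaFun (jqModC ℂ) =
      deltaL ^ 2 * (-(HahnSeries.ofPowerSeries ℤ ℂ (qExpansion 1 E₄) ^ 2 *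
        HahnSeries.ofPowerSeries ℤ ℂ (qExpansion 1 E₆) * deltaL⁻¹)) := by
    rw [← e1, e2]
    field_simp
  exact mul_left_cancel₀ (pow_ne_zero 2 hne) key

end Fermat.Agent.ES.I2
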