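import Fermat.Agent.ES.I2.Plan
import Fermat.Agent.ES.I2.MFFormal
import Fermat.Agent.ES.RiemannRat

/-!
# ES / I2-MF: the modular functions `-f E₄ E₆ / Δ`, `-f³ E₆ / Δ`, `f² E₄² / Δ`

`stmtMF : StmtMF N`, `stmtMFAll : StmtMFAll` (interface `ES/I2/Plan.lean`).
For a cusp form `f` of weight `2` on `Γ₀(N)` with integral `q`-expansion the three functions are
`G/Δ` for cusp forms `G` of weight `12` with integral `q`-expansion, so
`ES/RiemannRat.cusp_rational_relation` applies; the formal identities come from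
`j = E₄³/Δ`, `j − 1728 = E₆²/Δ`, `θ j = −E₄² E₆/Δ` (`MFFormal.lean`).
-/

set_option autoImplicit false

noncomputable section

namespace Fermat.Agent.ES.I2

open CongruenceSubgroup UpperHalfPlane ModularForm ModularFormClass Derivative EisensteinSeries
open HahnSeries ModularCurve
open Fermat.Agent.S23 Fermat.Agent.S24 Fermat.Agent.S28 Fermat.Agent.S16 Fermat.Agent.INJ.HM
open Fermat.Agent.S28.Deriv Fermat.Agent.ES.R
open scoped MatrixGroups ModularForm Manifold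

/-- the integral `q`-expansion of `-f E₄ E₆`. -/
def mfPt (z : ℕ → ℤ) : PowerSeries ℤ := -(PowerSeries.mk z * eisenstein4 * mfE6)

/-- the integral `q`-expansion of `-f³ E₆`. -/
def mfP1 (z : ℕ → ℤ) : PowerSeries ℤ := -(PowerSeries.mk z * PowerSeries.mk z * PowerSeries.mk z * mfE6)

/-- the integral `q`-expansion of `f² E₄²`. -/
def mfP2 (z : ℕ → ℤ) : PowerSeries ℤ :=
  PowerSeries.mk z * PowerSeries.mk z * (eisenstein4 * eisenstein4)

theorem mf_jBar_eq : jBar = jqModC Kb := by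
  rw [jBar, coeffEmb, ← jqModC_rat]
  exact map_jqModC (algebraMap ℚ Kb)

theorem mf_deltaS_inv : (deltaS Kb ^ 1)⁻¹ = deltaInvS Kb := by
  rw [pow_one]
  exact (eq_inv_of_mul_eq_one_left (deltaInvS_mul_deltaS Kb)).symm

/-- a cusp form of weight `12` on `Γ₀(N)` with integral `q`-expansion `P`, divided by `Δ`. -/
theorem mf_cusp (N : ℕ) [NeZero N] {g : ℍ → ℂ} (hg : IsCF (G0 N) 12 g) (P : PowerSeries ℤ)
    (hP : qExpansion 1 g = hmC P) :
    coeffMap (Int.castRingHom Kb) (HahnSeries.ofPowerSeries ℤ ℤ P * deltaInvZ) ∈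
        modularFunctionFieldBar N ∧
      CuspRel N (coeffMap (Int.castRingHom Kb) (HahnSeries.ofPowerSeries ℤ ℤ P * deltaInvZ)) := by
  obtain ⟨F, hF⟩ := hg.of_weight_eq (show (12 : ℤ) = 12 * ((1 : ℕ) : ℤ) by norm_num)
  have hz : ∀ n, (qExpansion 1 F).coeff n = (((fun n => P.coeff n) n : ℤ) : ℂ) := by
    intro n
    rw [hF, hP]
    simp [hmC]
  obtain ⟨hmem, a, ha⟩ := cusp_rational_relation 1 le_rfl F (fun n => P.coeff n) hz
  have hx : coeffMap (Int.castRingHom Kb) (HahnSeries.ofPowerSeries ℤ ℤ P * deltaInvZ)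
      = ratSeries 1 (fun n => P.coeff n) := by
    rw [ratSeries, mf_deltaS_inv, map_mul, coeffMap_ofPowerSeries]
    congr 2
    ext n
    simp
  rw [hx]
  refine ⟨hmem, a, ?_⟩
  rw [cosetCard_eq_dedekindPsi] at ha
  rw [mf_jBar_eq]
  simpa only [one_mul] using ha

/-- **(MF)**. -/
theorem stmtMF (N : ℕ) [NeZero N] : StmtMF N := by
  intro f z hz
  have hfq : qExpansion 1 f = hmC (PowerSeries.mk z) := by
    ext n
    have := hz n
    rw [ModularFormClass.qCoeff] at this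
    rw [this]
    simp [hmC]
  have hf : IsCF (G0 N) 2 (⇑f) := ⟨f, rfl⟩
  have h4 : IsMF (G0 N) 4 (E₄ : ℍ → ℂ) := IsMF.of_levelOne mf_isMF_E4
  have h6 : IsMF (G0 N) 6 (E₆ : ℍ → ℂ) := IsMF.of_levelOne mf_isMF_E6
  -- the three cusp forms of weight 12
  have hGt : IsCF (G0 N) 12 (-(⇑f * (E₄ : ℍ → ℂ) * (E₆ : ℍ → ℂ))) :=
    (((hf.mul_isMF h4).mul_isMF h6).of_weight_eq (by norm_num)).neg
  have hG1 : IsCF (G0 N) 12 (-(⇑f * ⇑f * ⇑f * (E₆ : ℍ → ℂ))) :=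
    ((((hf.mul_isMF hf.isMF).mul_isMF hf.isMF).mul_isMF h6).of_weight_eq (by norm_num)).neg
  have hG2 : IsCF (G0 N) 12 (⇑f * ⇑f * ((E₄ : ℍ → ℂ) * (E₄ : ℍ → ℂ))) :=
    ((hf.mul_isMF hf.isMF).mul_isMF (h4.mul h4)).of_weight_eq (by norm_num)
  -- their `q`-expansions
  have hqt : qExpansion 1 (-(⇑f * (E₄ : ℍ → ℂ) * (E₆ : ℍ → ℂ))) = hmC (mfPt z) := by
    rw [IsMF.qExpansion_neg ((hf.isMF.mul h4).mul h6), IsMF.qExpansion_mul (hf.isMF.mul h4) h6,
      IsMF.qExpansion_mul hf.isMF h4, hfq, hm_qExp_E4, mf_qExp_E6, mfPt, map_neg, map_mul, map_mul]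
  have hq1 : qExpansion 1 (-(⇑f * ⇑f * ⇑f * (E₆ : ℍ → ℂ))) = hmC (mfP1 z) := by
    rw [IsMF.qExpansion_neg (((hf.isMF.mul hf.isMF).mul hf.isMF).mul h6),
      IsMF.qExpansion_mul ((hf.isMF.mul hf.isMF).mul hf.isMF) h6,
      IsMF.qExpansion_mul (hf.isMF.mul hf.isMF) hf.isMF, IsMF.qExpansion_mul hf.isMF hf.isMF, hfq,
      mf_qExp_E6, mfP1, map_neg, map_mul, map_mul, map_mul]
  have hq2 : qExpansion 1 (⇑f * ⇑f * ((E₄ : ℍ → ℂ) * (E₄ : ℍ → ℂ))) = hmC (mfP2 z) := by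
    rw [IsMF.qExpansion_mul (hf.isMF.mul hf.isMF) (h4.mul h4), IsMF.qExpansion_mul hf.isMF hf.isMF,
      IsMF.qExpansion_mul h4 h4, hfq, hm_qExp_E4, mfP2, map_mul, map_mul, map_mul]
  refine ⟨HahnSeries.ofPowerSeries ℤ ℤ (mfPt z) * deltaInvZ,
    HahnSeries.ofPowerSeries ℤ ℤ (mfP1 z) * deltaInvZ,
    HahnSeries.ofPowerSeries ℤ ℤ (mfP2 z) * deltaInvZ, ?_, ?_, ?_,
    mf_cusp N hGt _ hqt, mf_cusp N hG1 _ hq1, mf_cusp N hG2 _ hq2⟩
  · rw [mf_theta_j, mf_j_sub_eq, mf_j_eq, mfPt, fqZ, map_neg, map_mul, map_mul, mfE4L, mfE6L]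
    ring
  · rw [mf_j_sub_eq, mfPt, mfP2, map_neg, map_mul, map_mul, map_mul, map_mul, map_mul, mfE6L]
    ring
  · rw [mf_j_sub_eq, mf_j_eq, mfPt, mfP1, map_neg, map_neg, map_mul, map_mul, map_mul, map_mul,
      map_mul, mfE4L, mfE6L]
    ring

/-- **(MF)** for all levels. -/
theorem stmtMFAll : StmtMFAll := fun N _ => stmtMF N

end Fermat.Agent.ES.I2
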