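import Fermat.Agent.ES.I2.Plan2
import Fermat.Agent.ES.M.RedF
import Fermat.Agent.S49.QExp

/-!
# ES / I2-MFk: the functions of `StmtMF` in characteristic `ℓ`

`stmtMFkGlue : StmtMFkGlue` (`= StmtIRAll → StmtMFAll → StmtMFkAll`, interface `ES/I2/Plan2.lean`).

The functions `Yt, Y1, Y2 ∈ ℤ((q))` of `StmtMF` are reduced to `k((q))`: the reduction of
`coeffMap (ℤ → A) Y` is `coeffMap (ℤ → k) Y`; membership in `F_k` is `(RedF)`
(`ES/M/RedF.lean`), integrality over `k[j̄]` is `StmtIR` applied to the cuspidal norm relation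
(a monic relation over `ℚ̄[j]`), and the order bound is the field `cusp` of `IsTau`.
-/

set_option autoImplicit false

noncomputable section

namespace Fermat.Agent.ES.I2

open ModularCurve AlgebraicCurve HahnSeries Fermat.Agent.ES Fermat.Agent.S24 Fermat.Agent.ES.M
open Fermat.Agent.S28.Deriv

/-- a cuspidal norm relation is a monic relation over `ℚ̄[j]`. -/
theorem mfk_intJ_of_cuspRel (N : ℕ) {x : LaurentSeries Kb} (h : CuspRel N x) : IntJ jBar x := by
  obtain ⟨a, ha⟩ := h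
  refine ⟨Polynomial.X ^ dedekindPsi N + ∑ j ∈ Finset.Icc 1 (dedekindPsi N),
      Polynomial.C (∑ i ∈ Finset.range j, Polynomial.C (a j i) * Polynomial.X ^ i) *
        Polynomial.X ^ (dedekindPsi N - j), Polynomial.monic_X_pow_add ?_, ?_⟩
  · refine lt_of_le_of_lt (Polynomial.degree_sum_le _ _) ?_
    refine (Finset.sup_lt_iff (WithBot.bot_lt_coe (dedekindPsi N))).2 fun j hj => ?_
    rw [Finset.mem_Icc] at hj
    refine lt_of_le_of_lt (Polynomial.degree_C_mul_X_pow_le _ _) ?_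
    exact WithBot.coe_lt_coe.2 (by omega : dedekindPsi N - j < dedekindPsi N)
  · rw [Polynomial.eval₂_add, Polynomial.eval₂_X_pow, Polynomial.eval₂_finsetSum, ← ha]
    congr 1
    refine Finset.sum_congr rfl fun j _ => ?_
    rw [Polynomial.eval₂_mul, Polynomial.eval₂_C, Polynomial.eval₂_X_pow]
    congr 1
    simp only [AlgHom.toRingHom_eq_coe, RingHom.coe_coe, map_sum, map_mul, map_pow,
      Polynomial.aeval_C, Polynomial.aeval_X, algebraMap_eq_hahnC]

theorem mfk_incl (A : ValuationSubring Kb) (Y : LaurentSeries ℤ) :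
    kronIncl A (coeffMap (Int.castRingHom A) Y) = coeffMap (Int.castRingHom Kb) Y := by
  rw [kronIncl, coeffMap_coeffMap]
  exact coeffMap_congr (RingHom.ext_int _ _) _

theorem mfk_red (A : ValuationSubring Kb) (Y : LaurentSeries ℤ) :
    kronRed A (coeffMap (Int.castRingHom A) Y) = coeffMap (Int.castRingHom (kA A)) Y := by
  rw [kronRed, coeffMap_coeffMap]
  exact coeffMap_congr (RingHom.ext_int _ _) _

theorem mfk_fqZ_coeff (z : ℕ → ℤ) (hz0 : z 0 = 0) (m : ℤ) (hm : m ≤ 0) : (fqZ z).coeff m = 0 := by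
  rcases hm.lt_or_eq with h | rfl
  · exact ofPowerSeries_coeff_of_neg _ h
  · rw [fqZ]
    have := HahnSeries.ofPowerSeries_apply_coeff (Γ := ℤ) (PowerSeries.mk z) 0
    rw [Nat.cast_zero] at this
    rw [this, PowerSeries.coeff_mk, hz0]

/-- piece `I2-MFk`. -/
theorem stmtMFkGlue : StmtMFkGlue := by
  intro hIR hMF N _ ℓ hℓ hℓN A hA τ i₀ hτ f z hz
  obtain ⟨Yt, Y1, Y2, e1, e2, e3, ⟨mt, ct⟩, ⟨m1, c1⟩, ⟨m2, c2⟩⟩ := hMF N f z hz
  have hRedF := stmtRedF N A ℓ hℓ hℓN hA
  have hIRA := hIR N ℓ hℓ hℓN A hA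
  have hz0 : z 0 = 0 := by
    have h1 := hz 0
    rw [Fermat.Agent.S49.qCoeff_zero_cusp] at h1
    exact_mod_cast h1.symm
  -- membership of the reductions
  have key : ∀ Y : LaurentSeries ℤ, coeffMap (Int.castRingHom Kb) Y ∈ modularFunctionFieldBar N →
      CuspRel N (coeffMap (Int.castRingHom Kb) Y) →
      ∃ hYk : coeffMap (Int.castRingHom (kA A)) Y ∈ modularFunctionFieldFullC (kA A) N,
        IntJ (jqModC (kA A)) (coeffMap (Int.castRingHom (kA A)) Y) ∧
        ∀ i, ∀ m : ℤ, m ≤ -(N : ℤ) →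
          (τ i ⟨coeffMap (Int.castRingHom (kA A)) Y, hYk⟩).coeff m = 0 := by
    intro Y hm hc
    have hm' : kronIncl A (coeffMap (Int.castRingHom A) Y) ∈ modularFunctionFieldBar N := by
      rw [mfk_incl]; exact hm
    have hc' : CuspRel N (kronIncl A (coeffMap (Int.castRingHom A) Y)) := by
      rw [mfk_incl]; exact hc
    have h1 := hRedF _ hm'
    have h2 := hIRA _ hm' (mfk_intJ_of_cuspRel N hc')
    have h3 := fun i => hτ.cusp i _ hm' h1 hc'
    simp only [mfk_red] at h1 h2 h3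
    exact ⟨h1, h2, h3⟩
  obtain ⟨ht, it, ot⟩ := key Yt mt ct
  obtain ⟨h1, i1, -⟩ := key Y1 m1 c1
  obtain ⟨h2, i2, -⟩ := key Y2 m2 c2
  refine ⟨fun m hm => ?_, ⟨_, ht⟩, ⟨_, h1⟩, ⟨_, h2⟩, ?_, ?_, ?_, it, i1, i2, ot⟩
  · rw [coeffMap_coeff, mfk_fqZ_coeff z hz0 m hm, map_zero]
  · have := congrArg (coeffMap (Int.castRingHom (kA A))) e1
    simpa only [map_mul, map_sub, ← thetaFun_coeffMap, coeffMap_jqModC, map_ofNat] using this
  · have := congrArg (coeffMap (Int.castRingHom (kA A))) e2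
    simpa only [map_mul, map_sub, map_pow, coeffMap_jqModC, map_ofNat] using this
  · have := congrArg (coeffMap (Int.castRingHom (kA A))) e3
    simpa only [map_mul, map_sub, map_pow, coeffMap_jqModC, map_ofNat] using this

end Fermat.Agent.ES.I2
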