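import Fermat.Agent.ES.I2.Plan2

/-!
# ES / I2 — piece `I2-Nilp`: the abstract nilpotent-trace lemma

`stmtNilp : StmtNilp`.  In a field `Ω` that is an algebra over `k[X]` with injective structure map
(`X ↦ J`): if `Z_i ^ M = (J - c) U_i` with `U_i` integral over `k[X]` and `Σ Z_i` is the image of
`P`, then `P(c) = 0`.

Proof: in the integral closure `B` of `k[X]` in `Ω`, every `Z_i` lies in `rad ((J - c) B)`, hence
so does the image of `P`, hence so does the constant `P(c)` (`X - c ∣ P - P(c)`).  If `P(c) ≠ 0`
this is a unit, so `J - c` is a unit of `B`; `B` is integral over `k[X]` and `k[X] → B` is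
injective, so `k[X] → B` is a local homomorphism and `X - c` is a unit of `k[X]`, absurd.
-/

set_option autoImplicit false

namespace Fermat.Agent.ES.I2

/-- the abstract nilpotent-trace lemma over `k[X]` -/
theorem nilp_core {k Ω : Type*} [Field k] [Field Ω] [Algebra (Polynomial k) Ω]
    (hinj : Function.Injective (algebraMap (Polynomial k) Ω))
    {n : ℕ} (Z U : Fin n → Ω) (c : k) (M : ℕ) (hM : 0 < M)
    (hZ : ∀ i, Z i ^ M = algebraMap (Polynomial k) Ω (Polynomial.X - Polynomial.C c) * U i)
    (hU : ∀ i, IsIntegral (Polynomial k) (U i))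
    (P : Polynomial k) (hP : ∑ i, Z i = algebraMap (Polynomial k) Ω P) : P.eval c = 0 := by
  by_contra hne
  have hZB : ∀ i, Z i ∈ integralClosure (Polynomial k) Ω := fun i => by
    have h1 : IsIntegral (Polynomial k) (Z i ^ M) := by
      rw [hZ]; exact isIntegral_algebraMap.mul (hU i)
    exact h1.of_pow hM
  let B := integralClosure (Polynomial k) Ω
  let I : Ideal B := Ideal.span {algebraMap (Polynomial k) B (Polynomial.X - Polynomial.C c)}
  have hZr : ∀ i, (⟨Z i, hZB i⟩ : B) ∈ I.radical := fun i => by
    refine ⟨M, ?_⟩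
    rw [Ideal.mem_span_singleton']
    refine ⟨⟨U i, hU i⟩, ?_⟩
    apply Subtype.ext
    simp only [MulMemClass.coe_mul, SubmonoidClass.coe_pow]
    rw [hZ i, mul_comm]
    rfl
  have hsum : (∑ i, (⟨Z i, hZB i⟩ : B)) ∈ I.radical := Ideal.sum_mem _ (fun i _ => hZr i)
  have hsumeq : (∑ i, (⟨Z i, hZB i⟩ : B)) = algebraMap (Polynomial k) B P := by
    apply Subtype.ext
    rw [AddSubmonoidClass.coe_finsetSum]
    exact hP
  rw [hsumeq] at hsum
  obtain ⟨Q, hQ⟩ := Polynomial.X_sub_C_dvd_sub_C_eval (a := c) (p := P)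
  have hC : algebraMap (Polynomial k) B (Polynomial.C (P.eval c)) ∈ I.radical := by
    have h1 : algebraMap (Polynomial k) B (Polynomial.C (P.eval c)) =
        algebraMap (Polynomial k) B P -
          algebraMap (Polynomial k) B (Polynomial.X - Polynomial.C c) *
            algebraMap (Polynomial k) B Q := by
      rw [← map_mul, ← hQ, map_sub, sub_sub_cancel]
    rw [h1]
    exact Ideal.sub_mem _ hsum
      (Ideal.le_radical (Ideal.mul_mem_right _ _ (Ideal.subset_span rfl)))
  have hunit : IsUnit (algebraMap (Polynomial k) B (Polynomial.C (P.eval c))) :=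
    (Polynomial.isUnit_C.2 (isUnit_iff_ne_zero.2 hne)).map _
  have htop : I.radical = ⊤ := Ideal.eq_top_of_isUnit_mem _ hC hunit
  have htop' : I = ⊤ := Ideal.radical_eq_top.1 htop
  have hu : IsUnit (algebraMap (Polynomial k) B (Polynomial.X - Polynomial.C c)) :=
    Ideal.span_singleton_eq_top.1 htop'
  have hinjB : Function.Injective (algebraMap (Polynomial k) B) := by
    intro x y hxy
    apply hinj
    exact congrArg Subtype.val hxy
  have : FaithfulSMul (Polynomial k) B := (faithfulSMul_iff_algebraMap_injective _ _).2 hinjB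
  have h2 := (Algebra.IsIntegral.isLocalHom (Polynomial k) B).map_nonunit _ hu
  exact Polynomial.not_isUnit_X_sub_C c h2

/-- piece `I2-Nilp` -/
theorem stmtNilp : StmtNilp := by
  intro k _ J hJ n Z U c M hM hZ hU P hP
  let _ : Algebra (Polynomial k) (LaurentSeries k) := (Polynomial.aeval J).toRingHom.toAlgebra
  have hinj : Function.Injective (algebraMap (Polynomial k) (LaurentSeries k)) := by
    rw [injective_iff_map_eq_zero]
    intro p hp
    exact hJ p hp
  refine nilp_core hinj Z U c M hM ?_ (fun i => hU i) P hP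
  intro i
  rw [hZ i]
  congr 1
  show _ = Polynomial.aeval J (Polynomial.X - Polynomial.C c)
  rw [map_sub, Polynomial.aeval_X, Polynomial.aeval_C, Fermat.Agent.ES.M.algebraMap_eq_hahnC]

end Fermat.Agent.ES.I2
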