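import Fermat.Agent.ES.M.Plan
import Fermat.Agent.ES.Kronecker
import Fermat.Agent.S24.FFGen
import Fermat.Agent.S28.Deriv
import Fermat.Prelude.Def_CuspForm_IntegralStructure

/-!
# ES / I2 — the upper bound `dim W_n ≤ n + 1 - g` in characteristic `ℓ ≥ 5`: interface

Plan: `NOTES/ES-I2.md`.  Target: `Fermat.Agent.ES.M.StmtI2All`.
Everything here is a definition or a `Prop`; the proofs live in the pieces.

Notation: `F = FF N ⊂ ℚ̄((q))`, `A ⊂ ℚ̄` a valuation ring over `ℓ ∤ N`, `k = kA A`,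
`F_k = modularFunctionFieldFullC k N ⊂ k((q))`, `Q = q^(1/N)`: the embeddings of `F` over `ℚ̄(j)`
take values in `ℚ̄((Q))`, and `ι₀ = (q ↦ Q^N)` is the one belonging to the cusp `∞`.

* `substQ c m` : the substitution `f(q) ↦ f(c · Q^m)`.
* `iotaN N` : `ι₀ : F → ℚ̄((Q))`, `f(q) ↦ f(Q^N)`.
* `HasType N σ` : `σ (j(q^d)) = j(c · Q^m)` with `a δ = d`, `m δ = N a`, `c^δ = 1` for every `d ∣ N`
  (classically `σ f = f ∘ γ`, `j(d γ τ) = j((a τ + b) / δ)`).
* `IntJ x z` : `z` satisfies a monic polynomial with coefficients in `K[x]`.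
* `CuspRel N x` : `x` satisfies the norm relation of a cusp form of weight `12` divided by `Δ`
  (coefficient of `x^(ψ - j)` a polynomial in `j` of degree `< j`).

Pieces: `StmtE` (formal embeddings), `StmtReg` (regularity at the other cusps), `StmtInt`
(integrality at the other cusps), `StmtRed` (reduction of the embeddings mod `𝔪_A`), `StmtMF`
(the functions `-f E₄ E₆ / Δ`, `-f³ E₆ / Δ`, `f² E₄² / Δ`), `StmtB` (integral basis of `S₂` with
independent reductions).
-/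

set_option autoImplicit false

noncomputable section

namespace Fermat.Agent.ES.I2

open ModularCurve AlgebraicCurve HahnSeries Fermat.Agent.ES Fermat.Agent.S24 Fermat.Agent.ES.M
open Fermat.Agent.S28.Deriv

/-- the substitution `f(q) ↦ f(c · Q^m)` (junk value `id` for `m = 0`) -/
def substQ {K : Type*} [Field K] (c : Kˣ) (m : ℕ) : LaurentSeries K →+* LaurentSeries K :=
  if h : m = 0 then RingHom.id _ else (@qExpand K _ m ⟨h⟩).comp (kronRot c)

theorem substQ_eq {K : Type*} [Field K] (c : Kˣ) (m : ℕ) [hm : NeZero m] (f : LaurentSeries K) :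
    substQ c m f = qExpand K m (kronRot c f) := by
  rw [substQ, dif_neg hm.out]
  rfl

/-- `ι₀ : F_N → ℚ̄((Q))`, `f(q) ↦ f(Q^N)`: the embedding belonging to the cusp `∞`. -/
def iotaN (N : ℕ) [NeZero N] : FF N →ₐ[Kb] LaurentSeries Kb :=
  (qExpandAlgHomC Kb N).comp (IntermediateField.val (modularFunctionFieldBar N))

theorem iotaN_apply (N : ℕ) [NeZero N] (x : FF N) :
    iotaN N x = qExpand Kb N (x : LaurentSeries Kb) := rfl

/-- the same in characteristic `ℓ` -/
def iotaK (k : Type*) [Field k] (N : ℕ) [NeZero N] :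
    ↥(modularFunctionFieldFullC k N) →ₐ[k] LaurentSeries k :=
  (qExpandAlgHomC k N).comp (IntermediateField.val (modularFunctionFieldFullC k N))

theorem iotaK_apply (k : Type*) [Field k] (N : ℕ) [NeZero N]
    (x : ↥(modularFunctionFieldFullC k N)) :
    iotaK k N x = qExpand k N (x : LaurentSeries k) := rfl

/-- `σ (j(q^d)) = j(c · Q^m)` with `a δ = d`, `m δ = N a`, `c^δ = 1`, for every `d ∣ N`. -/
def HasType (N : ℕ) [NeZero N] (σ : FF N →ₐ[Kb] LaurentSeries Kb) : Prop :=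
  ∀ (d : ℕ) (hd : d ∣ N), ∃ (a δ m : ℕ) (c : Kbˣ),
    a * δ = d ∧ m * δ = N * a ∧ c ^ δ = 1 ∧ σ (jdF N d hd) = substQ c m jBar

/-- `z` is integral over `K[x]`, in explicit form. -/
def IntJ {K : Type*} [Field K] (x z : LaurentSeries K) : Prop :=
  ∃ p : Polynomial (Polynomial K), p.Monic ∧ p.eval₂ (Polynomial.aeval x).toRingHom z = 0

/-- the norm relation of `G / Δ`, `G` a cusp form of weight `12` -/
def CuspRel (N : ℕ) (x : LaurentSeries Kb) : Prop :=
  ∃ a : ℕ → ℕ → Kb,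
    x ^ dedekindPsi N + ∑ j ∈ Finset.Icc 1 (dedekindPsi N),
      (∑ i ∈ Finset.range j, HahnSeries.C (a j i) * jBar ^ i) * x ^ (dedekindPsi N - j) = 0

/-- the `q`-expansion with integer coefficients `z` -/
def fqZ (z : ℕ → ℤ) : LaurentSeries ℤ := HahnSeries.ofPowerSeries ℤ ℤ (PowerSeries.mk z)

/-! ## The pieces -/

/-- **(E)** the `ψ(N)` embeddings of `F_N` over `ℚ̄(j)` into `ℚ̄((Q))`, with their types. -/
def StmtE (N : ℕ) [NeZero N] : Prop :=
  ∃ σ : Fin (dedekindPsi N) → (FF N →ₐ[Kb] LaurentSeries Kb),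
    Function.Injective σ ∧ (∀ i, HasType N (σ i)) ∧ ∃ i₀, σ i₀ = iotaN N

/-- **(Reg)** a function regular outside the cusp `∞` has no pole in `Q` under an embedding
`σ ≠ ι₀`. -/
def StmtReg (N : ℕ) [NeZero N] : Prop :=
  ∀ σ : FF N →ₐ[Kb] LaurentSeries Kb, HasType N σ → σ ≠ iotaN N →
    ∀ x : FF N, RegOut N x → ∀ n : ℤ, n < 0 → (σ x).coeff n = 0

/-- **(Int)** an `A`-integral element of `F` which is integral over `ℚ̄[j]` has `A`-integral
expansion under every embedding. -/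
def StmtInt (N : ℕ) [NeZero N] (A : ValuationSubring Kb) : Prop :=
  ∀ σ : FF N →ₐ[Kb] LaurentSeries Kb, HasType N σ →
    ∀ (Y : LaurentSeries A) (hY : kronIncl A Y ∈ modularFunctionFieldBar N),
      IntJ jBar (kronIncl A Y) → KronInt A (σ ⟨kronIncl A Y, hY⟩)

/-- **(Red)** reduction of the embeddings: `σ ↦ σ̄`, compatible with the reduction of integral
series, and injective on the embeddings with a type. -/
def StmtRed (N : ℕ) [NeZero N] (A : ValuationSubring Kb) : Prop :=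
  ∃ R : (FF N →ₐ[Kb] LaurentSeries Kb) →
      (↥(modularFunctionFieldFullC (kA A) N) →ₐ[kA A] LaurentSeries (kA A)),
    (∀ σ, HasType N σ →
      ∀ (Y Z : LaurentSeries A) (hY : kronIncl A Y ∈ modularFunctionFieldBar N)
        (hYk : kronRed A Y ∈ modularFunctionFieldFullC (kA A) N),
        σ ⟨kronIncl A Y, hY⟩ = kronIncl A Z → R σ ⟨kronRed A Y, hYk⟩ = kronRed A Z) ∧
    (∀ σ σ', HasType N σ → HasType N σ' → R σ = R σ' → σ = σ')

/-- **(MF)** the modular functions attached to a cusp form `f` of weight `2` with integral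
`q`-expansion: `Yt = -f E₄ E₆ / Δ`, `Y1 = -f³ E₆ / Δ`, `Y2 = f² E₄² / Δ` (in `ℤ((q))`). -/
def StmtMF (N : ℕ) [NeZero N] : Prop :=
  ∀ (f : CuspForm (CongruenceSubgroup.Gamma0 N) 2) (z : ℕ → ℤ),
    (∀ n, ModularFormClass.qCoeff f n = (z n : ℂ)) →
    ∃ Yt Y1 Y2 : LaurentSeries ℤ,
      Yt * thetaFun (jqModC ℤ) = fqZ z * jqModC ℤ * (jqModC ℤ - 1728) ∧
      Yt ^ 2 = Y2 * (jqModC ℤ - 1728) ∧
      Yt ^ 3 = Y1 * jqModC ℤ * (jqModC ℤ - 1728) ∧
      (coeffMap (Int.castRingHom Kb) Yt ∈ modularFunctionFieldBar N ∧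
        CuspRel N (coeffMap (Int.castRingHom Kb) Yt)) ∧
      (coeffMap (Int.castRingHom Kb) Y1 ∈ modularFunctionFieldBar N ∧
        CuspRel N (coeffMap (Int.castRingHom Kb) Y1)) ∧
      (coeffMap (Int.castRingHom Kb) Y2 ∈ modularFunctionFieldBar N ∧
        CuspRel N (coeffMap (Int.castRingHom Kb) Y2))

/-- **(B)** an integral basis of `S₂(Γ₀(N))` whose reductions are linearly independent. -/
def StmtB (N : ℕ) [NeZero N] (A : ValuationSubring Kb) : Prop :=
  ∃ (f : Fin (gN N) → CuspForm (CongruenceSubgroup.Gamma0 N) 2) (z : Fin (gN N) → ℕ → ℤ),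
    (∀ t n, ModularFormClass.qCoeff (f t) n = (z t n : ℂ)) ∧
    LinearIndependent (kA A) (fun t => coeffMap (Int.castRingHom (kA A)) (fqZ (z t)))

/-! ## The `All` versions -/

def StmtEAll : Prop := ∀ (N : ℕ) [NeZero N], StmtE N

def StmtRegAll : Prop := ∀ (N : ℕ) [NeZero N], StmtReg N

def StmtIntAll : Prop :=
  ∀ (N : ℕ) [NeZero N] (ℓ : ℕ), ℓ.Prime → ¬ ℓ ∣ N →
    ∀ A : ValuationSubring Kb, A.LiesOverPrime ℓ → StmtInt N A

def StmtRedAll : Prop :=
  ∀ (N : ℕ) [NeZero N] (ℓ : ℕ), ℓ.Prime → ¬ ℓ ∣ N →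
    ∀ A : ValuationSubring Kb, A.LiesOverPrime ℓ → StmtRed N A

def StmtMFAll : Prop := ∀ (N : ℕ) [NeZero N], StmtMF N

def StmtBAll : Prop :=
  ∀ (N : ℕ) [NeZero N] (ℓ : ℕ), ℓ.Prime →
    ∀ A : ValuationSubring Kb, A.LiesOverPrime ℓ → StmtB N A

/-- the assembly: the pieces give `(I2)` for `ℓ ≥ 5` -/
def StmtI2Glue : Prop :=
  StmtEAll → StmtRegAll → StmtIntAll → StmtRedAll → StmtMFAll → StmtBAll → StmtI2All

end Fermat.Agent.ES.I2
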