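/-
ES / I2, piece `I2-Red` (helper8): reduction of the embeddings `σ : F_N → ℚ̄((Q))` mod `𝔪_A`.

For `ℓ ∤ N`, `A ⊂ ℚ̄` a valuation ring over `ℓ`, `k = kA A`:

* `redSubst c m`      : the substitution `f(q) ↦ f(c · Q^m)` over any commutative ring
                        (`= substQ c m` over a field), natural in the coefficient ring;
* `red_rel`           : a relation mod `𝔪` between the `j(q^d)` is a relation between their
                        images `j(c_d Q^(m_d))` under an embedding `σ` with a type;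
* `red_rel_iff`       : ... and conversely;
* `red_exists`        : the reduction `σ̄ : F_k → k((Q))`, compatible with the reduction of
                        integral series;
* `stmtRed`, `stmtRedAll` : the piece.
-/
import Fermat.Agent.ES.I2.Plan
import Fermat.Agent.ES.I2.RedUnit
import Fermat.Agent.ES.M.FrickeRed

set_option autoImplicit false

noncomputable section

namespace Fermat.Agent.ES.I2

open ModularCurve AlgebraicCurve HahnSeries Polynomial IntermediateField
open Fermat.Agent.ES Fermat.Agent.S24 Fermat.Agent.S28 Fermat.Agent.ES.M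

/-! ### The substitution `f(q) ↦ f(c Q^m)` over a commutative ring -/

section Subst

variable {R S : Type*} [CommRing R] [CommRing S]

/-- the substitution `f(q) ↦ f(c · Q^m)` over a commutative ring (junk value `id` for `m = 0`) -/
def redSubst (c : Rˣ) (m : ℕ) : LaurentSeries R →+* LaurentSeries R :=
  if h : m = 0 then RingHom.id _ else (@qExpand R _ m ⟨h⟩).comp (kronRot c)

theorem redSubst_eq (c : Rˣ) (m : ℕ) [hm : NeZero m] (f : LaurentSeries R) :
    redSubst c m f = qExpand R m (kronRot c f) := by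
  rw [redSubst, dif_neg hm.out]
  rfl

theorem substQ_eq_redSubst {K : Type*} [Field K] (c : Kˣ) (m : ℕ) :
    substQ c m = redSubst c m := rfl

theorem coeffMap_redSubst (φ : R →+* S) (c : Rˣ) (m : ℕ) (f : LaurentSeries R) :
    coeffMap φ (redSubst c m f) = redSubst (Units.map (φ : R →* S) c) m (coeffMap φ f) := by
  rcases eq_or_ne m 0 with rfl | hm
  · simp [redSubst]
  · have : NeZero m := ⟨hm⟩
    rw [redSubst_eq, redSubst_eq, coeffMap_qExpand, coeffMap_kronRot]

theorem redSubst_algebraMap (c : Rˣ) (m : ℕ) (a : R) :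
    redSubst c m (algebraMap R (LaurentSeries R) a) = algebraMap R (LaurentSeries R) a := by
  rcases eq_or_ne m 0 with rfl | hm
  · simp [redSubst]
  · have : NeZero m := ⟨hm⟩
    rw [redSubst_eq]
    have h1 : kronRot c (algebraMap R (LaurentSeries R) a) = algebraMap R (LaurentSeries R) a := by
      ext n
      rw [kronRot_coeff, redDVR_algebraMap_eq_single]
      by_cases hn : n = 0
      · subst hn
        simp
      · rw [HahnSeries.coeff_single_of_ne hn, mul_zero]
    rw [h1, redDVR_algebraMap_eq_single, qExpand_single, mul_zero]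

theorem redSubst_aeval (c : Rˣ) (m : ℕ) (f : LaurentSeries R) (D : Polynomial R) :
    redSubst c m (Polynomial.aeval f D) = Polynomial.aeval (redSubst c m f) D := by
  rw [Polynomial.aeval_def, Polynomial.aeval_def, Polynomial.hom_eval₂]
  congr 1
  ext a : 1
  exact redSubst_algebraMap c m a

end Subst

section SubstField

variable {k : Type*} [Field k]

theorem redSubst_injective (c : kˣ) (m : ℕ) : Function.Injective (redSubst c m) :=
  (redSubst c m).injective

theorem order_kronRot (c : kˣ) (f : LaurentSeries k) : (kronRot c f).order = f.order := by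
  rcases eq_or_ne f 0 with rfl | hf
  · rw [map_zero]
  have hf' : kronRot c f ≠ 0 := fun h => hf ((kronRot c).injective (by rw [h, map_zero]))
  apply le_antisymm
  · apply HahnSeries.order_le_of_coeff_ne_zero
    rw [kronRot_coeff]
    exact mul_ne_zero (Units.ne_zero _) (HahnSeries.coeff_order_eq_zero.not.mpr hf)
  · apply HahnSeries.order_le_of_coeff_ne_zero
    have h := HahnSeries.coeff_order_eq_zero.not.mpr hf'
    rw [kronRot_coeff] at h
    exact right_ne_zero_of_mul h

theorem order_redSubst_jqModC (c : kˣ) (m : ℕ) (hm : m ≠ 0) :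
    (redSubst c m (jqModC k)).order = -(m : ℤ) := by
  have : NeZero m := ⟨hm⟩
  rw [redSubst_eq, order_qExpand, order_kronRot, order_jqModC]
  ring

theorem coeff_redSubst_jqModC (c : kˣ) (m : ℕ) (hm : m ≠ 0) :
    (redSubst c m (jqModC k)).coeff (-(m : ℤ)) = ((c⁻¹ : kˣ) : k) := by
  have : NeZero m := ⟨hm⟩
  have h1 : -(m : ℤ) = (m : ℤ) * (-1) := by ring
  rw [redSubst_eq, h1, qExpand_coeff_mul, kronRot_coeff, coeff_jqModC_neg_one, mul_one, zpow_neg_one]

theorem redSubst_jqModC_transcendental (c : kˣ) (m : ℕ) (hm : m ≠ 0) :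
    Transcendental k (redSubst c m (jqModC k)) := by
  rw [transcendental_iff_injective]
  exact aeval_injective_of_order_neg (by
    rw [order_redSubst_jqModC c m hm]
    have : (0 : ℤ) < m := by exact_mod_cast Nat.pos_of_ne_zero hm
    omega)

/-- the data `(m, c)` of a substitution are determined by the series `j(c · Q^m)`. -/
theorem redSubst_jqModC_inj {c c' : kˣ} {m m' : ℕ} (hm : m ≠ 0) (hm' : m' ≠ 0)
    (h : redSubst c m (jqModC k) = redSubst c' m' (jqModC k)) : m = m' ∧ c = c' := by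
  have h1 := order_redSubst_jqModC c m hm
  rw [h, order_redSubst_jqModC c' m' hm'] at h1
  have hmm : m = m' := by omega
  subst hmm
  refine ⟨rfl, ?_⟩
  have h2 := coeff_redSubst_jqModC c m hm
  rw [h, coeff_redSubst_jqModC c' m hm] at h2
  have h3 : c'⁻¹ = c⁻¹ := Units.ext h2
  exact (inv_injective h3).symm

end SubstField

/-! ### The integral data of an embedding with a type -/

section Data

variable (N : ℕ) [NeZero N] (A : ValuationSubring Kb)

theorem red_jBar_eq : jBar = jqModC Kb := by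
  rw [jBar, ← jqModC_rat, coeffEmb, coeffMap_jqModC]

omit [NeZero N] in
theorem red_dv_ne_zero (hN : N ≠ 0) (d : Dv N) : d.1 ≠ 0 := fun h =>
  hN (Nat.eq_zero_of_zero_dvd (h ▸ d.2))

/-- integral data of an embedding with a type: `σ (j(q^d)) = j(c_d Q^(m_d))`, `c_d ∈ Aˣ`,
`c_d ^ N = 1`, `m_d ≠ 0`. -/
theorem red_exists_data (σ : FF N →ₐ[Kb] LaurentSeries Kb) (hσ : HasType N σ) :
    ∃ (m : Dv N → ℕ) (c : Dv N → Aˣ), (∀ d, m d ≠ 0) ∧ (∀ d, c d ^ N = 1) ∧
      ∀ d, σ (jFfam N d) = kronIncl A (redSubst (c d) (m d) (jqModC A)) := by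
  have hN0 : N ≠ 0 := NeZero.ne N
  have key : ∀ d : Dv N, ∃ (m : ℕ) (c : Aˣ), m ≠ 0 ∧ c ^ N = 1 ∧
      σ (jFfam N d) = kronIncl A (redSubst c m (jqModC A)) := by
    intro d
    obtain ⟨a, δ, m, c, had, hmδ, hc, hσd⟩ := hσ d.1 d.2
    have hd0 : d.1 ≠ 0 := red_dv_ne_zero N hN0 d
    have ha0 : a ≠ 0 := by rintro rfl; exact hd0 (by rw [← had, zero_mul])
    have hm0 : m ≠ 0 := by
      rintro rfl
      rw [zero_mul] at hmδ
      exact Nat.mul_ne_zero hN0 ha0 hmδ.symm
    have hδN : δ ∣ N := Dvd.dvd.trans ⟨a, by rw [← had, mul_comm]⟩ d.2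
    have hcN : c ^ N = 1 := by
      obtain ⟨e, rfl⟩ := hδN
      rw [pow_mul, hc, one_pow]
    obtain ⟨cA, hcA⟩ := kron_exists_unit_lift A hN0 c hcN
    refine ⟨m, cA, hm0, ?_, ?_⟩
    · apply Units.map_injective (f := (A.subtype : A →* Kb)) Subtype.val_injective
      rw [map_pow, hcA, hcN, map_one]
    · show σ (jdF N d.1 d.2) = _
      rw [hσd, substQ_eq_redSubst, coeffMap_redSubst, coeffMap_jqModC, red_jBar_eq]
      congr 2
      exact hcA.symm
  choose m c h1 h2 h3 using key
  exact ⟨m, c, h1, h2, h3⟩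

variable {N A}

/-- evaluation of an embedding on polynomials in the `j(q^d)` -/
theorem red_sigma_aeval (σ : FF N →ₐ[Kb] LaurentSeries Kb) (s : Dv N → LaurentSeries A)
    (hs : ∀ d, σ (jFfam N d) = kronIncl A (s d)) (P : MvPolynomial (Dv N) A) :
    σ ⟨kronIncl A (MvPolynomial.aeval (jRfam N A) P), fr_kronIncl_aeval_mem N A P⟩ =
      kronIncl A (MvPolynomial.aeval s P) := by
  have h1 : (⟨kronIncl A (MvPolynomial.aeval (jRfam N A) P), fr_kronIncl_aeval_mem N A P⟩ :
      FF N) = MvPolynomial.aeval (jFfam N) (MvPolynomial.map A.subtype P) := by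
    apply Subtype.ext
    rw [← fr_aeval_jBfam, ← fr_kronIncl_aeval]
  have hfg : (fun i => σ (jFfam N i)) = fun i => coeffMap A.subtype (s i) := funext hs
  rw [h1, MvPolynomial.comp_aeval_apply (jFfam N) σ, frRed_coeffMap_mvAeval, hfg]

/-- **Relations mod `𝔪`** between the `j(q^d)` are relations between their images under an
embedding with integral values on the generators. -/
theorem red_rel (ℓ : ℕ) (hℓ : ℓ.Prime) (hℓN : ¬ ℓ ∣ N) (hA : A.LiesOverPrime ℓ)
    (σ : FF N →ₐ[Kb] LaurentSeries Kb) (s : Dv N → LaurentSeries A)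
    (hs : ∀ d, σ (jFfam N d) = kronIncl A (s d))
    (ht : Transcendental (kA A) (kronRed A (s ⟨1, one_dvd N⟩)))
    (P : MvPolynomial (Dv N) A)
    (hP : kronRed A (MvPolynomial.aeval (jRfam N A) P) = 0) :
    kronRed A (MvPolynomial.aeval s P) = 0 := by
  obtain ⟨D, R, hD, hDY, hR0⟩ := frRed_expand_mv N A ℓ hℓ hℓN hA _ (fr_kronIncl_aeval_mem N A P)
  have hR := hR0 hP
  have hrel : MvPolynomial.aeval (jRfam N A) (frE N D * P - R) = 0 := by
    rw [map_sub, map_mul, frE_aeval, jRfam_one, hDY, sub_self]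
  have h1 := red_sigma_aeval σ s hs (frE N D * P - R)
  have h2 : kronIncl A (MvPolynomial.aeval s (frE N D * P - R)) = 0 := by
    rw [← h1]
    have h0 : (⟨kronIncl A (MvPolynomial.aeval (jRfam N A) (frE N D * P - R)),
        fr_kronIncl_aeval_mem N A _⟩ : FF N) = 0 :=
      Subtype.ext (by
        show kronIncl A (MvPolynomial.aeval (jRfam N A) (frE N D * P - R)) = 0
        rw [hrel, map_zero])
    rw [h0, map_zero]
  have h3 : MvPolynomial.aeval s (frE N D * P - R) = 0 :=
    kronIncl_injective (A := A) (by rw [h2, map_zero])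
  rw [map_sub, map_mul] at h3
  have h4 := congrArg (kronRed A) h3
  rw [map_zero, map_sub, map_mul, frRed_coeffMap_mvAeval (IsLocalRing.residue A) s R, hR,
    map_zero, sub_zero, frE_aeval, redDVR_coeffMap_aeval] at h4
  exact (mul_eq_zero.mp h4).resolve_left fun h0 => hD (transcendental_iff.mp ht _ h0)

end Data

/-! ### Relations in characteristic `ℓ` -/

section RelK

variable {N : ℕ} [NeZero N] {A : ValuationSubring Kb}

theorem red_jRfam_mem_full (k : Type*) [Field k] (d : Dv N) :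
    jRfam N k d ∈ modularFunctionFieldFullC k N := by
  have hd0 : d.1 ≠ 0 := red_dv_ne_zero N (NeZero.ne N) d
  have : NeZero d.1 := ⟨hd0⟩
  show intJd k d.1 ∈ _
  rw [intJd_eq]
  exact jqModCd_mem_full k N d.2

theorem red_full_eq_adjoin (k : Type*) [Field k] :
    modularFunctionFieldFullC k N = IntermediateField.adjoin k (Set.range (jRfam N k)) := by
  apply le_antisymm
  · rw [modularFunctionFieldFullC, IntermediateField.adjoin_le_iff]
    rintro x ⟨d, hne, hd, rfl⟩
    refine IntermediateField.subset_adjoin k _ ⟨⟨d, hd⟩, ?_⟩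
    show intJd k d = _
    rw [intJd_eq]
  · rw [IntermediateField.adjoin_le_iff]
    rintro _ ⟨d, rfl⟩
    exact red_jRfam_mem_full k d

/-- the family `d ↦ j(q^d)` in `F_k`. -/
def redKfam (k : Type*) [Field k] (N : ℕ) [NeZero N] : Dv N → ↥(modularFunctionFieldFullC k N) :=
  fun d => ⟨jRfam N k d, red_jRfam_mem_full k d⟩

theorem red_coe_aeval_redKfam (k : Type*) [Field k] (H : MvPolynomial (Dv N) k) :
    ((MvPolynomial.aeval (redKfam k N) H : ↥(modularFunctionFieldFullC k N)) : LaurentSeries k) =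
      MvPolynomial.aeval (jRfam N k) H :=
  MvPolynomial.comp_aeval_apply (redKfam k N)
    (IntermediateField.val (modularFunctionFieldFullC k N)) H

theorem red_aeval_mem_full (k : Type*) [Field k] (H : MvPolynomial (Dv N) k) :
    MvPolynomial.aeval (jRfam N k) H ∈ modularFunctionFieldFullC k N := by
  rw [← red_coe_aeval_redKfam]
  exact Subtype.prop _

omit [NeZero N] in
theorem red_kronRed_aeval_jRfam (P : MvPolynomial (Dv N) A) :
    kronRed A (MvPolynomial.aeval (jRfam N A) P) =
      MvPolynomial.aeval (jRfam N (kA A)) (MvPolynomial.map (IsLocalRing.residue A) P) :=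
  fr_kronRed_aeval N A id P

/-- **Relations in characteristic `ℓ`**, one direction. -/
theorem red_rel_k (ℓ : ℕ) (hℓ : ℓ.Prime) (hℓN : ¬ ℓ ∣ N) (hA : A.LiesOverPrime ℓ)
    (σ : FF N →ₐ[Kb] LaurentSeries Kb) (s : Dv N → LaurentSeries A)
    (hs : ∀ d, σ (jFfam N d) = kronIncl A (s d))
    (ht : Transcendental (kA A) (kronRed A (s ⟨1, one_dvd N⟩)))
    (H : MvPolynomial (Dv N) (kA A))
    (hH : MvPolynomial.aeval (jRfam N (kA A)) H = 0) :
    MvPolynomial.aeval (fun d => kronRed A (s d)) H = 0 := by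
  obtain ⟨P, rfl⟩ := MvPolynomial.map_surjective (f := IsLocalRing.residue A)
    IsLocalRing.residue_surjective H
  rw [← frRed_coeffMap_mvAeval]
  apply red_rel ℓ hℓ hℓN hA σ s hs ht
  rw [red_kronRed_aeval_jRfam]
  exact hH

/-- **Relations in characteristic `ℓ`**: the `j(q^d)` and their images satisfy the same
relations. -/
theorem red_rel_k_iff (ℓ : ℕ) (hℓ : ℓ.Prime) (hℓN : ¬ ℓ ∣ N) (hA : A.LiesOverPrime ℓ)
    (σ : FF N →ₐ[Kb] LaurentSeries Kb) (s : Dv N → LaurentSeries A)
    (hs : ∀ d, σ (jFfam N d) = kronIncl A (s d))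
    (ht : Transcendental (kA A) (kronRed A (s ⟨1, one_dvd N⟩)))
    (H : MvPolynomial (Dv N) (kA A)) :
    MvPolynomial.aeval (jRfam N (kA A)) H = 0 ↔
      MvPolynomial.aeval (fun d => kronRed A (s d)) H = 0 := by
  refine ⟨red_rel_k ℓ hℓ hℓN hA σ s hs ht H, fun h => ?_⟩
  by_contra hz
  have hNk := redF_natCast_ne_zero N A ℓ hℓ hℓN hA
  have hzF : MvPolynomial.aeval (jRfam N (kA A)) H ∈ modularFunctionFieldFullC (kA A) N :=
    red_aeval_mem_full (kA A) H
  have hint : IsIntegral (adjoin (kA A) {jqModC (kA A)}) (MvPolynomial.aeval (jRfam N (kA A)) H) :=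
    isIntegral_of_mem_full N (primeHyp_of_dvd (kA A) N hNk) hzF
  have hμ0 := minpoly.coeff_zero_ne_zero hint hz
  have hμz := minpoly.aeval (adjoin (kA A) {jqModC (kA A)}) (MvPolynomial.aeval (jRfam N (kA A)) H)
  set μ := minpoly (adjoin (kA A) {jqModC (kA A)}) (MvPolynomial.aeval (jRfam N (kA A)) H)
    with hμdef
  obtain ⟨D, hD, hDP⟩ := redDVR_exists_common_denominator (A := kA A) (E := kA A)
    (jqModC (kA A)) (fun i : ℕ => ((μ.coeff i : adjoin (kA A) {jqModC (kA A)}) :
      LaurentSeries (kA A))) (fun i => (μ.coeff i).2) (Finset.range (μ.natDegree + 1))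
  simp only [Algebra.algebraMap_self, Polynomial.map_id] at hD hDP
  choose! P hP using hDP
  have hH' : MvPolynomial.aeval (jRfam N (kA A))
      (∑ i ∈ Finset.range (μ.natDegree + 1), frE N (P i) * H ^ i) = 0 := by
    rw [map_sum]
    have h1 : ∀ i ∈ Finset.range (μ.natDegree + 1),
        MvPolynomial.aeval (jRfam N (kA A)) (frE N (P i) * H ^ i) =
          Polynomial.aeval (jqModC (kA A)) D *
            (((μ.coeff i : adjoin (kA A) {jqModC (kA A)}) : LaurentSeries (kA A)) *
              MvPolynomial.aeval (jRfam N (kA A)) H ^ i) := by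
      intro i hi
      rw [map_mul, map_pow, frE_aeval, jRfam_one, ← hP i hi]
      ring
    rw [Finset.sum_congr rfl h1, ← Finset.mul_sum]
    have h2 : ∑ i ∈ Finset.range (μ.natDegree + 1),
        ((μ.coeff i : adjoin (kA A) {jqModC (kA A)}) : LaurentSeries (kA A)) *
          MvPolynomial.aeval (jRfam N (kA A)) H ^ i =
        Polynomial.aeval (MvPolynomial.aeval (jRfam N (kA A)) H) μ := by
      rw [Polynomial.aeval_eq_sum_range]
      exact Finset.sum_congr rfl fun i _ => rfl
    rw [h2, hμz, mul_zero]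
  have h5 := red_rel_k ℓ hℓ hℓN hA σ s hs ht _ hH'
  rw [map_sum, Finset.sum_eq_single 0] at h5
  · rw [pow_zero, mul_one, frE_aeval] at h5
    have hP0 : P 0 = 0 := transcendental_iff.mp ht _ h5
    have h6 := hP 0 (Finset.mem_range.mpr (Nat.succ_pos _))
    rw [hP0, map_zero] at h6
    rcases mul_eq_zero.mp h6 with h7 | h7
    · exact hμ0 (Subtype.ext h7)
    · exact hD h7
  · intro i _ hi0
    rw [map_mul, map_pow, h, zero_pow hi0, mul_zero]
  · intro h0
    exact absurd (Finset.mem_range.mpr (Nat.succ_pos _)) h0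

end RelK

/-! ### The reduction of an embedding -/

section Exists

variable {N : ℕ} [NeZero N] {A : ValuationSubring Kb}

set_option synthInstance.maxHeartbeats 400000 in
set_option maxHeartbeats 1600000 in
/-- **The reduction of an embedding** with integral values on the generators. -/
theorem red_exists_of_data (ℓ : ℕ) (hℓ : ℓ.Prime) (hℓN : ¬ ℓ ∣ N) (hA : A.LiesOverPrime ℓ)
    (σ : FF N →ₐ[Kb] LaurentSeries Kb) (s : Dv N → LaurentSeries A)
    (hs : ∀ d, σ (jFfam N d) = kronIncl A (s d))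
    (ht : Transcendental (kA A) (kronRed A (s ⟨1, one_dvd N⟩))) :
    ∃ τ : ↥(modularFunctionFieldFullC (kA A) N) →ₐ[kA A] LaurentSeries (kA A),
      ∀ (Y Z : LaurentSeries A) (hY : kronIncl A Y ∈ modularFunctionFieldBar N)
        (hYk : kronRed A Y ∈ modularFunctionFieldFullC (kA A) N),
        σ ⟨kronIncl A Y, hY⟩ = kronIncl A Z → τ ⟨kronRed A Y, hYk⟩ = kronRed A Z := by
  obtain ⟨τ, hτ⟩ := br_exists_algHom_of_eq_adjoin (modularFunctionFieldFullC (kA A) N)
    (jRfam N (kA A)) (red_full_eq_adjoin (kA A)) (fun d => kronRed A (s d))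
    (red_rel_k_iff ℓ hℓ hℓN hA σ s hs ht)
  have hτH : ∀ H : MvPolynomial (Dv N) (kA A),
      τ (MvPolynomial.aeval (redKfam (kA A) N) H) =
        MvPolynomial.aeval (fun d => kronRed A (s d)) H := by
    intro H
    have hfg : (fun i => τ (redKfam (kA A) N i)) = fun d => kronRed A (s d) :=
      funext fun d => hτ d _
    rw [MvPolynomial.comp_aeval_apply (redKfam (kA A) N) τ, hfg]
  refine ⟨τ, fun Y Z hY hYk hσ => ?_⟩
  obtain ⟨D, R, hD, hDY, -⟩ := frRed_expand_mv N A ℓ hℓ hℓN hA Y hY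
  -- apply `σ` to the relation
  have ha : MvPolynomial.aeval s (frE N D) * Z = MvPolynomial.aeval s R := by
    apply kronIncl_injective (A := A)
    rw [map_mul, ← red_sigma_aeval σ s hs, ← red_sigma_aeval σ s hs, ← hσ, ← map_mul]
    congr 1
    apply Subtype.ext
    show kronIncl A (MvPolynomial.aeval (jRfam N A) (frE N D)) * kronIncl A Y =
      kronIncl A (MvPolynomial.aeval (jRfam N A) R)
    rw [← map_mul, frE_aeval, jRfam_one, hDY]
  have hb := congrArg (kronRed A) ha
  rw [map_mul, frRed_coeffMap_mvAeval, frRed_coeffMap_mvAeval, frE_map, frE_aeval] at hb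
  -- reduce the relation and apply `τ`
  have hc := congrArg (kronRed A) hDY
  rw [map_mul, redDVR_coeffMap_aeval, coeffMap_jqModC, red_kronRed_aeval_jRfam] at hc
  have hc' : MvPolynomial.aeval (redKfam (kA A) N) (frE N (D.map (IsLocalRing.residue A))) *
      (⟨kronRed A Y, hYk⟩ : ↥(modularFunctionFieldFullC (kA A) N)) =
      MvPolynomial.aeval (redKfam (kA A) N) (MvPolynomial.map (IsLocalRing.residue A) R) := by
    apply Subtype.ext
    show ((MvPolynomial.aeval (redKfam (kA A) N) (frE N (D.map (IsLocalRing.residue A))) :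
        ↥(modularFunctionFieldFullC (kA A) N)) : LaurentSeries (kA A)) * kronRed A Y =
      ((MvPolynomial.aeval (redKfam (kA A) N) (MvPolynomial.map (IsLocalRing.residue A) R) :
        ↥(modularFunctionFieldFullC (kA A) N)) : LaurentSeries (kA A))
    rw [red_coe_aeval_redKfam, red_coe_aeval_redKfam, frE_aeval, jRfam_one]
    exact hc
  have hd := congrArg τ hc'
  rw [map_mul, hτH, hτH, frE_aeval, ← hb] at hd
  exact mul_left_cancel₀ (fun h0 => hD (transcendental_iff.mp ht _ h0)) hd

set_option synthInstance.maxHeartbeats 400000 in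
set_option maxHeartbeats 1600000 in
/-- **The reduction of an embedding with a type.** -/
theorem red_exists (ℓ : ℕ) (hℓ : ℓ.Prime) (hℓN : ¬ ℓ ∣ N) (hA : A.LiesOverPrime ℓ)
    (σ : FF N →ₐ[Kb] LaurentSeries Kb) (hσ : HasType N σ) :
    ∃ τ : ↥(modularFunctionFieldFullC (kA A) N) →ₐ[kA A] LaurentSeries (kA A),
      ∀ (Y Z : LaurentSeries A) (hY : kronIncl A Y ∈ modularFunctionFieldBar N)
        (hYk : kronRed A Y ∈ modularFunctionFieldFullC (kA A) N),
        σ ⟨kronIncl A Y, hY⟩ = kronIncl A Z → τ ⟨kronRed A Y, hYk⟩ = kronRed A Z := by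
  obtain ⟨m, c, hm, -, hs⟩ := red_exists_data N A σ hσ
  refine red_exists_of_data ℓ hℓ hℓN hA σ (fun d => redSubst (c d) (m d) (jqModC A)) hs ?_
  show Transcendental (kA A) (coeffMap (IsLocalRing.residue A)
    (redSubst (c ⟨1, one_dvd N⟩) (m ⟨1, one_dvd N⟩) (jqModC A)))
  rw [coeffMap_redSubst, coeffMap_jqModC]
  exact redSubst_jqModC_transcendental _ _ (hm _)

set_option synthInstance.maxHeartbeats 400000 in
set_option maxHeartbeats 1600000 in
/-- **Injectivity of the reduction**: a reduction map compatible with the reduction of integral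
series separates the embeddings with a type. -/
theorem red_injective (ℓ : ℕ) (hℓ : ℓ.Prime) (hℓN : ¬ ℓ ∣ N) (hA : A.LiesOverPrime ℓ)
    (τ τ' : ↥(modularFunctionFieldFullC (kA A) N) →ₐ[kA A] LaurentSeries (kA A))
    (σ σ' : FF N →ₐ[Kb] LaurentSeries Kb) (hσ : HasType N σ) (hσ' : HasType N σ')
    (hτ : ∀ (Y Z : LaurentSeries A) (hY : kronIncl A Y ∈ modularFunctionFieldBar N)
        (hYk : kronRed A Y ∈ modularFunctionFieldFullC (kA A) N),
        σ ⟨kronIncl A Y, hY⟩ = kronIncl A Z → τ ⟨kronRed A Y, hYk⟩ = kronRed A Z)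
    (hτ' : ∀ (Y Z : LaurentSeries A) (hY : kronIncl A Y ∈ modularFunctionFieldBar N)
        (hYk : kronRed A Y ∈ modularFunctionFieldFullC (kA A) N),
        σ' ⟨kronIncl A Y, hY⟩ = kronIncl A Z → τ' ⟨kronRed A Y, hYk⟩ = kronRed A Z)
    (h : τ = τ') : σ = σ' := by
  have hNk := redF_natCast_ne_zero N A ℓ hℓ hℓN hA
  obtain ⟨m, c, hm, hc, hs⟩ := red_exists_data N A σ hσ
  obtain ⟨m', c', hm', hc', hs'⟩ := red_exists_data N A σ' hσ'
  apply FF_algHom_ext
  intro d hd
  have hY : kronIncl A (jRfam N A ⟨d, hd⟩) ∈ modularFunctionFieldBar N := by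
    have h1 := fr_kronIncl_aeval_mem N A (MvPolynomial.X ⟨d, hd⟩)
    rwa [MvPolynomial.aeval_X] at h1
  have hYk : kronRed A (jRfam N A ⟨d, hd⟩) ∈ modularFunctionFieldFullC (kA A) N := by
    show coeffMap (IsLocalRing.residue A) (jRfam N A ⟨d, hd⟩) ∈ _
    rw [coeffMap_jRfam]
    exact red_jRfam_mem_full (kA A) ⟨d, hd⟩
  have hYF : (⟨kronIncl A (jRfam N A ⟨d, hd⟩), hY⟩ : FF N) = jFfam N ⟨d, hd⟩ := by
    apply Subtype.ext
    show coeffMap A.subtype (jRfam N A ⟨d, hd⟩) = jBfam N ⟨d, hd⟩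
    rw [coeffMap_jRfam, jRfam_Kb]
  have e1 := hτ _ _ hY hYk (by rw [hYF]; exact hs ⟨d, hd⟩)
  have e2 := hτ' _ _ hY hYk (by rw [hYF]; exact hs' ⟨d, hd⟩)
  rw [h, e2] at e1
  have e3 : redSubst (Units.map (IsLocalRing.residue A : A →* kA A) (c' ⟨d, hd⟩)) (m' ⟨d, hd⟩)
      (jqModC (kA A)) =
      redSubst (Units.map (IsLocalRing.residue A : A →* kA A) (c ⟨d, hd⟩)) (m ⟨d, hd⟩)
        (jqModC (kA A)) := by
    rw [← coeffMap_jqModC (IsLocalRing.residue A), ← coeffMap_redSubst, ← coeffMap_redSubst]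
    exact e1
  obtain ⟨hmm, hcc⟩ := redSubst_jqModC_inj (hm' _) (hm _) e3
  have hcc' : c' ⟨d, hd⟩ = c ⟨d, hd⟩ :=
    red_unit_eq_of_res_eq A N hNk _ _ (hc' _) (hc _) hcc
  show σ (jFfam N ⟨d, hd⟩) = σ' (jFfam N ⟨d, hd⟩)
  rw [hs, hs', hmm, hcc']

end Exists

/-! ### The piece -/

section Main

variable (N : ℕ) [NeZero N] (A : ValuationSubring Kb)

set_option synthInstance.maxHeartbeats 400000 in
set_option maxHeartbeats 1600000 in
/-- **(Red)** reduction of the embeddings of `F_N` into `ℚ̄((Q))` modulo `𝔪_A`. -/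
theorem stmtRed (ℓ : ℕ) (hℓ : ℓ.Prime) (hℓN : ¬ ℓ ∣ N) (hA : A.LiesOverPrime ℓ) :
    StmtRed N A := by
  classical
  refine ⟨fun σ => if h : HasType N σ then Classical.choose (red_exists ℓ hℓ hℓN hA σ h)
    else iotaK (kA A) N, ?_, ?_⟩
  · intro σ hσ Y Z hY hYk hYZ
    simp only [dif_pos hσ]
    exact Classical.choose_spec (red_exists ℓ hℓ hℓN hA σ hσ) Y Z hY hYk hYZ
  · intro σ σ' hσ hσ' h
    simp only [dif_pos hσ, dif_pos hσ'] at h
    exact red_injective ℓ hℓ hℓN hA _ _ σ σ' hσ hσ'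
      (Classical.choose_spec (red_exists ℓ hℓ hℓN hA σ hσ))
      (Classical.choose_spec (red_exists ℓ hℓ hℓN hA σ' hσ')) h

end Main

/-- **(Red)**, all levels and all primes. -/
theorem stmtRedAll : StmtRedAll := fun N _ ℓ hℓ hℓN A hA => stmtRed N A ℓ hℓ hℓN hA

end Fermat.Agent.ES.I2
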