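import Fermat.Agent.ES.I2.Plan
import Fermat.Agent.ES.M.CuspInfty
import Fermat.Agent.ES.RiemannRat
import Fermat.Agent.S28.LaurentRank

/-!
# ES / I2 — piece `I2-Reg`: regularity at the other cusps

`stmtReg N : StmtReg N`: if `σ : F_N → ℚ̄((Q))` is an embedding with a type, `σ ≠ ι₀`, and
`x ∈ F_N` is regular outside the cusp `∞`, then `σ x` has no pole in `Q`.

Proof: `ord_Q ∘ σ` is a valuation of `F_N`, trivial on `ℚ̄`, nontrivial (`σ j = j(Q^N)`), so it
is `e₀ ·` the order of a place `w`.  If `w` is not the cusp `∞` we are done.  If it is, then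
`e₀ = N` (look at `j`) and `ord_Q σ(j_d) = - N d`; the type `(a, δ, m, c)` at `d` has `m = N d`,
so `δ = 1`, `c = 1`, and `σ (j_d) = j(Q^(N d)) = ι₀ (j_d)` for every `d ∣ N`: `σ = ι₀`.
-/

set_option autoImplicit false

noncomputable section

namespace Fermat.Agent.ES.I2

open ModularCurve AlgebraicCurve HahnSeries WithZero Fermat.Agent.ES Fermat.Agent.S24
  Fermat.Agent.ES.M Fermat.Agent.S28

/-- `kronRot c` preserves the order -/
theorem reg_order_kronRot {K : Type*} [Field K] (c : Kˣ) (f : LaurentSeries K) :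
    (kronRot c f).order = f.order := by
  rcases eq_or_ne f 0 with rfl | hf
  · simp
  have hcoef : ∀ n, (kronRot c f).coeff n = 0 ↔ f.coeff n = 0 := by
    intro n
    rw [kronRot_coeff]
    constructor
    · intro h
      rcases mul_eq_zero.1 h with h | h
      · exact absurd h (Units.ne_zero _)
      · exact h
    · intro h
      rw [h, mul_zero]
  have hne : kronRot c f ≠ 0 := by
    intro h
    apply hf
    apply HahnSeries.coeff_order_eq_zero.1
    rw [← hcoef, h]
    rfl
  apply le_antisymm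
  · apply HahnSeries.order_le_of_coeff_ne_zero
    rw [Ne, hcoef]
    exact fun h => hf (HahnSeries.coeff_order_eq_zero.1 h)
  · apply HahnSeries.order_le_of_coeff_ne_zero
    rw [Ne, ← hcoef]
    exact fun h => hne (HahnSeries.coeff_order_eq_zero.1 h)

/-- the order of `f(c · Q^m)` -/
theorem reg_order_substQ {K : Type*} [Field K] (c : Kˣ) (m : ℕ) (hm : m ≠ 0)
    (f : LaurentSeries K) : (substQ c m f).order = (m : ℤ) * f.order := by
  haveI : NeZero m := ⟨hm⟩
  rw [substQ_eq, order_qExpand, reg_order_kronRot]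

/-- in a type nothing vanishes -/
theorem reg_type_ne_zero {N d a δ m : ℕ} [NeZero N] (hd : d ∣ N) (h1 : a * δ = d)
    (h2 : m * δ = N * a) : a ≠ 0 ∧ δ ≠ 0 ∧ m ≠ 0 := by
  have hd0 : d ≠ 0 := fun h => NeZero.ne N (by subst h; simpa using hd)
  have ha : a ≠ 0 := by
    rintro rfl
    rw [zero_mul] at h1
    exact hd0 h1.symm
  have hδ : δ ≠ 0 := by
    rintro rfl
    rw [mul_zero] at h1
    exact hd0 h1.symm
  refine ⟨ha, hδ, ?_⟩
  rintro rfl
  rw [zero_mul] at h2
  exact mul_ne_zero (NeZero.ne N) ha h2.symm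

variable {N : ℕ} [NeZero N]

/-- the valuation `ord_Q ∘ σ` of `F_N` -/
def regVal (σ : FF N →ₐ[Kb] LaurentSeries Kb) : Valuation (FF N) ℤᵐ⁰ :=
  (Valued.v : Valuation (LaurentSeries Kb) ℤᵐ⁰).comap (σ : FF N →+* LaurentSeries Kb)

theorem regVal_apply (σ : FF N →ₐ[Kb] LaurentSeries Kb) (f : FF N) :
    regVal σ f = Valued.v (σ f) := rfl

theorem reg_sigma_ne_zero (σ : FF N →ₐ[Kb] LaurentSeries Kb) {f : FF N} (hf : f ≠ 0) :
    σ f ≠ 0 := by
  intro h
  exact hf ((map_eq_zero_iff σ (σ : FF N →+* LaurentSeries Kb).injective).1 h)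

theorem vord_regVal (σ : FF N →ₐ[Kb] LaurentSeries Kb) {f : FF N} (hf : f ≠ 0) :
    vord (regVal σ) f = (σ f).order := by
  rw [vord, regVal_apply, laurent_valued_eq_exp_neg_order (reg_sigma_ne_zero σ hf), log_exp,
    neg_neg]

theorem regVal_algebraMap_le (σ : FF N →ₐ[Kb] LaurentSeries Kb) (a : Kb) :
    regVal σ (algebraMap Kb (FF N) a) ≤ 1 := by
  rw [regVal_apply, σ.commutes]
  have h := LaurentSeries.valuation_le_iff_coeff_lt_eq_zero (K := Kb) (D := 0)
    (f := algebraMap Kb (LaurentSeries Kb) a)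
  have h' : (Valued.v (algebraMap Kb (LaurentSeries Kb) a) : ℤᵐ⁰) ≤ 1 ↔
      ∀ n : ℤ, n < 0 → (algebraMap Kb (LaurentSeries Kb) a).coeff n = 0 := by
    simpa using h
  rw [h']
  intro n hn
  rw [M.algebraMap_eq_hahnC, HahnSeries.C_apply, HahnSeries.coeff_single_of_ne hn.ne]

theorem reg_coe_jdF (d : ℕ) [NeZero d] (hd : d ∣ N) :
    ((jdF N d hd : FF N) : LaurentSeries Kb) = qExpand Kb d jBar := by
  rw [jdF_coe, Fermat.Agent.ES.R.coeffEmb_qExpand_jq]
  have h2 := Fermat.Agent.ES.R.coeffEmb_qExpand_jq Kb 1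
  rw [qExpand_one_apply, qExpand_one_apply] at h2
  rw [jBar, h2]

/-- the `q`-order of `j(q^d)` -/
theorem reg_order_jdF (d : ℕ) [NeZero d] (hd : d ∣ N) :
    ((jdF N d hd : FF N) : LaurentSeries Kb).order = -(d : ℤ) := by
  rw [reg_coe_jdF, order_qExpand, order_jBar]
  ring

theorem reg_jdF_ne_zero (d : ℕ) [NeZero d] (hd : d ∣ N) : jdF N d hd ≠ 0 := by
  intro h
  have h1 : ((jdF N d hd : FF N) : LaurentSeries Kb) = 0 := by rw [h]; rfl
  rw [reg_coe_jdF] at h1
  exact jBar_ne_zero (qExpand_injective d (by rw [h1, map_zero]))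

/-- **(Reg)** -/
theorem stmtReg (N : ℕ) [NeZero N] : StmtReg N := by
  intro σ hσ hne x hx n hn
  rcases eq_or_ne x 0 with rfl | hx0
  · simp
  have hNpos : (0 : ℤ) < (N : ℤ) := by exact_mod_cast Nat.pos_of_ne_zero (NeZero.ne N)
  -- the type at `d = 1`
  have hj : (σ (jF N)).order = -(N : ℤ) := by
    obtain ⟨a₁, δ₁, m₁, c₁, h11, h12, -, h14⟩ := hσ 1 (one_dvd N)
    have ha₁ : a₁ = 1 := Nat.eq_one_of_mul_eq_one_right h11
    have hm₁ : m₁ = N := by
      have hδ₁ : δ₁ = 1 := Nat.eq_one_of_mul_eq_one_left h11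
      rw [ha₁, hδ₁, mul_one, mul_one] at h12
      exact h12
    rw [← jdF_one, h14, hm₁, reg_order_substQ _ _ (NeZero.ne N), order_jBar]
    ring
  have hpole : ∃ y : FF N, y ≠ 0 ∧ regVal σ y < 1 := by
    refine ⟨(jF N)⁻¹, inv_ne_zero (S24.jF_ne_zero N), ?_⟩
    rw [lt_one_iff_vord_pos _ (inv_ne_zero (S24.jF_ne_zero N)), vord_inv,
      vord_regVal σ (S24.jF_ne_zero N), hj]
    omega
  obtain ⟨w, e₀, he₀, -, hord⟩ :=
    exists_place_of_valuation (K := Kb) (regVal σ) (regVal_algebraMap_le σ) hpole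
  by_cases hinf : IsCuspInfty N w
  · exfalso
    apply hne
    have he : e₀ = N := by
      have h1 := hord (jF N) (S24.jF_ne_zero N)
      rw [vord_regVal σ (S24.jF_ne_zero N), hj, hinf.ord_jF] at h1
      linarith
    have hgen : ∀ (d : ℕ) (hd : d ∣ N), σ (jdF N d hd) = iotaN N (jdF N d hd) := by
      intro d hd
      haveI : NeZero d := ⟨fun h => NeZero.ne N (by subst h; simpa using hd)⟩
      obtain ⟨a, δ, m, c, h1, h2, h3, h4⟩ := hσ d hd
      obtain ⟨ha, -, hm⟩ := reg_type_ne_zero hd h1 h2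
      have hjd0 := reg_jdF_ne_zero (N := N) d hd
      have h5 := hord (jdF N d hd) hjd0
      rw [vord_regVal σ hjd0, h4, reg_order_substQ c m hm, order_jBar, hinf _ hjd0,
        reg_order_jdF, he] at h5
      have hmNd : m = N * d := by
        have : (m : ℤ) = (N : ℤ) * d := by linarith
        exact_mod_cast this
      have hδ1 : δ = 1 := by
        have h6 : N * (d * δ) = N * a := by rw [← mul_assoc, ← hmNd]; exact h2
        have h7 : d * δ = a := Nat.eq_of_mul_eq_mul_left (Nat.pos_of_ne_zero (NeZero.ne N)) h6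
        have h8 : a * (δ * δ) = a * 1 := by rw [← mul_assoc, h1, h7, mul_one]
        have h9 : δ * δ = 1 := Nat.eq_of_mul_eq_mul_left (Nat.pos_of_ne_zero ha) h8
        exact Nat.eq_one_of_mul_eq_one_right h9
      have hc : c = 1 := by
        rw [hδ1, pow_one] at h3
        exact h3
      haveI : NeZero (N * d) := ⟨mul_ne_zero (NeZero.ne N) (NeZero.ne d)⟩
      rw [h4, iotaN_apply, hmNd, hc, substQ_eq, kronRot_one, reg_coe_jdF, qExpand_qExpand]
    apply AlgHom.ext
    intro y
    exact FF_induction (p := fun y => σ y = iotaN N y) hgen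
      (fun a => by rw [σ.commutes, (iotaN N).commutes])
      (fun x y hx hy => by rw [map_add, map_add, hx, hy])
      (fun x y hx hy => by rw [map_mul, map_mul, hx, hy])
      (fun x hx => by rw [map_inv₀, map_inv₀, hx]) y
  · have h0 := hx w hinf
    have h1 := hord x hx0
    rw [vord_regVal σ hx0] at h1
    have h2 : 0 ≤ (σ x).order := by
      rw [h1]
      exact mul_nonneg he₀.le h0
    exact HahnSeries.coeff_eq_zero_of_lt_order (lt_of_lt_of_le hn h2)

/-- **(Reg)** for all levels -/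
theorem stmtRegAll : StmtRegAll := fun N _ => stmtReg N

end Fermat.Agent.ES.I2
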