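import Fermat.Agent.ES.I2.Plan2
import Fermat.Agent.ES.I2.Core
import Fermat.Agent.ES.M.RedF
import Fermat.Agent.INJ.InjDescentAux

/-!
# ES / I2 — piece `I2-Res`: the residue theorem on `W` (`ℓ ≥ 5`)

`a₀ (w f̄) = 0` for `w ∈ W` and `f` a cusp form of weight `2` with integral `q`-expansion.
Plan: `NOTES/ES-I2.md`; interface `ES/I2/Plan2.lean`.
-/

set_option autoImplicit false

noncomputable section

namespace Fermat.Agent.ES.I2

open ModularCurve AlgebraicCurve HahnSeries Fermat.Agent.ES Fermat.Agent.S24 Fermat.Agent.ES.M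
open Polynomial Fermat.Agent.S28.Deriv

section Gen

variable {k : Type*} [Field k]

theorem intJ_iff {x z : LaurentSeries k} :
    IntJ x z ↔ (Polynomial.aeval (R := k) x).toRingHom.IsIntegralElem z := Iff.rfl

theorem IntJ.mul {x a b : LaurentSeries k} (ha : IntJ x a) (hb : IntJ x b) : IntJ x (a * b) :=
  RingHom.IsIntegralElem.mul _ (intJ_iff.1 ha) (intJ_iff.1 hb)

theorem IntJ.add {x a b : LaurentSeries k} (ha : IntJ x a) (hb : IntJ x b) : IntJ x (a + b) :=
  RingHom.IsIntegralElem.add _ (intJ_iff.1 ha) (intJ_iff.1 hb)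

theorem IntJ.sub {x a b : LaurentSeries k} (ha : IntJ x a) (hb : IntJ x b) : IntJ x (a - b) :=
  RingHom.IsIntegralElem.sub _ (intJ_iff.1 ha) (intJ_iff.1 hb)

theorem IntJ.pow {x a : LaurentSeries k} (ha : IntJ x a) (n : ℕ) : IntJ x (a ^ n) := by
  induction n with
  | zero =>
    rw [pow_zero]
    exact intJ_iff.2 ((Polynomial.aeval (R := k) x).toRingHom.isIntegralElem_one)
  | succ n ih =>
    rw [pow_succ]
    exact ih.mul ha

theorem intJ_aeval (x : LaurentSeries k) (P : k[X]) : IntJ x (aeval x P) :=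
  intJ_iff.2 ((Polynomial.aeval (R := k) x).toRingHom.isIntegralElem_map)

theorem intJ_self (x : LaurentSeries k) : IntJ x x := by
  have := intJ_aeval x X
  rwa [aeval_X] at this

theorem intJ_ofNat (x : LaurentSeries k) (n : ℕ) [n.AtLeastTwo] :
    IntJ x (OfNat.ofNat n : LaurentSeries k) := by
  have := intJ_aeval x (OfNat.ofNat n : k[X])
  rwa [map_ofNat] at this

/-- transport of integrality along a `k`-algebra map defined on an intermediate field -/
theorem IntJ.map_algHom (E : IntermediateField k (LaurentSeries k))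
    (τ : ↥E →ₐ[k] LaurentSeries k) (x z : ↥E) (h : IntJ (x : LaurentSeries k) z) :
    IntJ (τ x) (τ z) := by
  obtain ⟨p, hp, h0⟩ := h
  refine ⟨p, hp, ?_⟩
  have hval : ∀ φ : ↥E →ₐ[k] LaurentSeries k,
      p.eval₂ (Polynomial.aeval (R := k) (φ x)).toRingHom (φ z) =
        φ (p.eval₂ (Polynomial.aeval (R := k) x).toRingHom z) := by
    intro φ
    have h1 := Polynomial.hom_eval₂ p (Polynomial.aeval (R := k) x).toRingHom φ.toRingHom z
    have h2 : φ.toRingHom.comp (Polynomial.aeval (R := k) x).toRingHom =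
        (Polynomial.aeval (R := k) (φ x)).toRingHom := by
      have h3 : (Polynomial.aeval (R := k) (φ x)) = φ.comp (Polynomial.aeval x) :=
        Polynomial.aeval_algHom φ x
      rw [h3]
      rfl
    rw [h2] at h1
    exact h1.symm
  have h3 : p.eval₂ (Polynomial.aeval (R := k) x).toRingHom z = 0 := by
    have h1 := hval E.val
    have h2 : E.val x = (x : LaurentSeries k) := rfl
    have h4 : E.val z = (z : LaurentSeries k) := rfl
    rw [h2, h4, h0] at h1
    exact E.val.injective (h1.symm.trans (map_zero _).symm)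
  rw [hval τ, h3, map_zero]

end Gen

section Main

theorem res_1728_ne_zero {k : Type*} [Field k] (ℓ : ℕ) (hℓ : ℓ.Prime) (h5 : 5 ≤ ℓ)
    [CharP k ℓ] : (1728 : k) ≠ 0 := by
  intro h
  have h1 : ((1728 : ℕ) : k) = 0 := by exact_mod_cast h
  rw [CharP.cast_eq_zero_iff k ℓ] at h1
  have h2 : (1728 : ℕ) = 2 ^ 6 * 3 ^ 3 := by norm_num
  rw [h2] at h1
  rcases (Nat.Prime.dvd_mul hℓ).1 h1 with h3 | h3
  · have := (Nat.prime_dvd_prime_iff_eq hℓ Nat.prime_two).1 (hℓ.dvd_of_dvd_pow h3)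
    omega
  · have := (Nat.prime_dvd_prime_iff_eq hℓ Nat.prime_three).1 (hℓ.dvd_of_dvd_pow h3)
    omega

theorem res_order_J (k : Type*) [Field k] (N : ℕ) [NeZero N] :
    (qExpand k N (jqModC k)).order = -(N : ℤ) := by
  rw [Fermat.Agent.S28.order_qExpand, Fermat.Agent.S28.order_jqModC, mul_neg, mul_one]

/-- factorisation of a polynomial vanishing at `0` and at `c ≠ 0` -/
theorem res_factor {k : Type*} [Field k] (c : k) (hc : c ≠ 0) (P : k[X]) (h0 : P.eval 0 = 0)
    (h1 : P.eval c = 0) : ∃ P₁ : k[X], P = X * (X - Polynomial.C c) * P₁ := by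
  obtain ⟨Q, hQ⟩ := Polynomial.dvd_iff_isRoot.2 h0
  rw [Polynomial.C_0, sub_zero] at hQ
  have h2 : Q.eval c = 0 := by
    rw [hQ, eval_mul, eval_X] at h1
    exact (mul_eq_zero.1 h1).resolve_left hc
  obtain ⟨P₁, hP₁⟩ := Polynomial.dvd_iff_isRoot.2 h2
  exact ⟨P₁, by rw [hQ, hP₁, mul_assoc]⟩

/-- the residue theorem, generic form -/
theorem res_main (k : Type) [Field k] (ℓ : ℕ) [Fact ℓ.Prime] [CharP k ℓ] [PerfectRing k ℓ]
    (h1728 : (1728 : k) ≠ 0) (N : ℕ) [NeZero N] (hNk : ((N : ℕ) : k) ≠ 0)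
    (hNilp : StmtNilp) (hTN : StmtTN)
    (τ : Fin (dedekindPsi N) → (↥(modularFunctionFieldFullC k N) →ₐ[k] LaurentSeries k))
    (i₀ : Fin (dedekindPsi N)) (hinj : Function.Injective τ) (hinf : τ i₀ = iotaK k N)
    (hjmap : ∀ i, τ i ⟨jqModC k, jqModC_mem_full k N⟩ = qExpand k N (jqModC k))
    (w : ↥(modularFunctionFieldFullC k N)) (hwI : IntJ (jqModC k) (w : LaurentSeries k))
    (hwreg : ∀ i, i ≠ i₀ → ∀ m : ℤ, m < 0 → (τ i w).coeff m = 0)
    (fq : LaurentSeries k) (y y1 y2 : ↥(modularFunctionFieldFullC k N))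
    (hrel : (y : LaurentSeries k) * thetaFun (jqModC k) = fq * jqModC k * (jqModC k - 1728))
    (h2 : (y : LaurentSeries k) ^ 2 = (y2 : LaurentSeries k) * (jqModC k - 1728))
    (h3 : (y : LaurentSeries k) ^ 3 = (y1 : LaurentSeries k) * jqModC k * (jqModC k - 1728))
    (hyI : IntJ (jqModC k) (y : LaurentSeries k))
    (hy1I : IntJ (jqModC k) (y1 : LaurentSeries k))
    (hy2I : IntJ (jqModC k) (y2 : LaurentSeries k))
    (hyord : ∀ i, ∀ m : ℤ, m ≤ -(N : ℤ) → (τ i y).coeff m = 0) :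
    ((w : LaurentSeries k) * fq).coeff 0 = 0 := by
  classical
  have hJo : (qExpand k N (jqModC k)).order = -(N : ℤ) := res_order_J k N
  have hN0 : 0 < N := Nat.pos_of_ne_zero (NeZero.ne N)
  have hJneg : (qExpand k N (jqModC k)).order < 0 := by rw [hJo]; omega
  have hj'coe : ((⟨jqModC k, jqModC_mem_full k N⟩ : ↥(modularFunctionFieldFullC k N)) :
      LaurentSeries k) = jqModC k := rfl
  have hτ1728 : ∀ i, τ i (1728 : ↥(modularFunctionFieldFullC k N)) =
      HahnSeries.C (1728 : k) := by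
    intro i
    rw [map_ofNat, map_ofNat]
  -- integrality of the images
  have hIτ : ∀ (x : ↥(modularFunctionFieldFullC k N)), IntJ (jqModC k) (x : LaurentSeries k) →
      ∀ i, IntJ (qExpand k N (jqModC k)) (τ i x) := by
    intro x hx i
    have := IntJ.map_algHom (modularFunctionFieldFullC k N) (τ i)
      ⟨jqModC k, jqModC_mem_full k N⟩ x hx
    rwa [hjmap i] at this
  -- the trace
  have hzI : IntJ (jqModC k) ((w * y : ↥(modularFunctionFieldFullC k N)) : LaurentSeries k) :=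
    hwI.mul hyI
  obtain ⟨⟨P, hP⟩, -⟩ := hTN k ℓ N hNk τ hinj hjmap (w * y) hzI
  have htr : ∀ P : k[X], aeval (qExpand k N (jqModC k)) P = 0 → P = 0 :=
    aeval_J_eq_zero hJneg
  -- nilpotent trace at `0`
  have hP0 : P.eval 0 = 0 := by
    refine hNilp k (qExpand k N (jqModC k)) htr (dedekindPsi N) (fun i => τ i (w * y))
      (fun i => τ i (w ^ 3 * y1 * (⟨jqModC k, jqModC_mem_full k N⟩ - 1728))) 0 3 (by norm_num)
      ?_ ?_ P hP
    · intro i
      have h3' : (y : ↥(modularFunctionFieldFullC k N)) ^ 3 =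
          y1 * ⟨jqModC k, jqModC_mem_full k N⟩ * (⟨jqModC k, jqModC_mem_full k N⟩ - 1728) :=
        Subtype.ext h3
      show τ i (w * y) ^ 3 = _
      rw [← map_pow, mul_pow, h3', map_zero, sub_zero, ← hjmap i, ← map_mul]
      congr 1
      ring
    · intro i
      refine hIτ _ ?_ i
      exact ((hwI.pow 3).mul hy1I).mul ((intJ_self (jqModC k)).sub (intJ_ofNat (jqModC k) 1728))
  -- nilpotent trace at `1728`
  have hP1 : P.eval 1728 = 0 := by
    refine hNilp k (qExpand k N (jqModC k)) htr (dedekindPsi N) (fun i => τ i (w * y))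
      (fun i => τ i (w ^ 2 * y2)) 1728 2 (by norm_num) ?_ ?_ P hP
    · intro i
      have h2' : (y : ↥(modularFunctionFieldFullC k N)) ^ 2 =
          y2 * (⟨jqModC k, jqModC_mem_full k N⟩ - 1728) := Subtype.ext h2
      show τ i (w * y) ^ 2 = _
      rw [← map_pow, mul_pow, h2', ← hjmap i, ← hτ1728 i, ← map_sub, ← map_mul]
      congr 1
      ring
    · intro i
      refine hIτ _ ?_ i
      exact (hwI.pow 2).mul hy2I
  obtain ⟨P₁, hP₁⟩ := res_factor (1728 : k) h1728 P hP0 hP1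
  -- the residue computation
  have hC1728 : (HahnSeries.C (1728 : k) : LaurentSeries k) = 1728 := map_ofNat _ _
  have key := res_core (k := k) hN0 hJo (1728 : k) i₀ (fun i => τ i w) (fun i => τ i y)
    (fun i hi m hm => hwreg i hi m hm)
    (fun i _ m hm => hyord i m (by omega)) P₁
    (by
      have : ∀ i, τ i w * τ i y = τ i (w * y) := fun i => (map_mul _ _ _).symm
      simp only [this]
      rw [hP, hP₁, map_mul, map_mul, map_sub, aeval_X, aeval_C, algebraMap_eq_C])
    (HahnSeries.C ((N : ℕ) : k) * qExpand k N fq)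
    (by
      have h4 : τ i₀ y = qExpand k N (y : LaurentSeries k) := by
        rw [hinf]
        rfl
      have h5 := congrArg (qExpand k N) hrel
      rw [map_mul, map_mul, map_mul, map_sub, map_ofNat] at h5
      rw [h4, thetaFun_qExpand, hC1728]
      calc qExpand k N (y : LaurentSeries k) *
            (HahnSeries.C ((N : ℕ) : k) * qExpand k N (thetaFun (jqModC k)))
          = HahnSeries.C ((N : ℕ) : k) *
            (qExpand k N (y : LaurentSeries k) * qExpand k N (thetaFun (jqModC k))) := by ring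
        _ = _ := by
          rw [h5]
          ring)
  -- conclusion
  have h6 : τ i₀ w = qExpand k N (w : LaurentSeries k) := by
    rw [hinf]
    rfl
  simp only [h6] at key
  have h7 : qExpand k N (w : LaurentSeries k) * (HahnSeries.C ((N : ℕ) : k) * qExpand k N fq) =
      HahnSeries.C ((N : ℕ) : k) * qExpand k N ((w : LaurentSeries k) * fq) := by
    rw [map_mul]
    ring
  rw [h7, Fermat.Agent.ES.I2aux.res_coeff_C_mul] at key
  have h8 := qExpand_coeff_mul (R := k) (N := N) ((w : LaurentSeries k) * fq) 0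
  rw [mul_zero] at h8
  rw [h8] at key
  exact (mul_eq_zero.1 key).resolve_left hNk

/-- **piece `I2-Res`** -/
theorem stmtResGlue : StmtResGlue := by
  intro hNilp hTN hS2 hTau hMFk N _ ℓ hℓ h5 hℓN A hA w hw f z hz
  haveI : Fact ℓ.Prime := ⟨hℓ⟩
  haveI : CharP (kA A) ℓ := kron_charP_residueField hℓ hA
  haveI : PerfectRing (kA A) ℓ := Fermat.Agent.INJ.nf_perfectRing_residueField A ℓ
  have hNk : ((N : ℕ) : kA A) ≠ 0 := redF_natCast_ne_zero N A ℓ hℓ hℓN hA
  have h1728 : (1728 : kA A) ≠ 0 := res_1728_ne_zero ℓ hℓ h5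
  obtain ⟨τ, i₀, hτ⟩ := hTau N ℓ hℓ hℓN A hA
  obtain ⟨-, y, y1, y2, hrel, h2, h3, hyI, hy1I, hy2I, hyord⟩ :=
    hMFk N ℓ hℓ hℓN A hA τ i₀ hτ f z hz
  obtain ⟨hS2a, hS2b⟩ := hS2 N ℓ hℓ hℓN A hA
  exact res_main (kA A) ℓ h1728 N hNk hNilp hTN τ i₀ hτ.inj hτ.infty hτ.jmap ⟨w, hw.1⟩
    (hS2a w hw) (hS2b τ i₀ hτ w hw) _ y y1 y2 hrel h2 h3 hyI hy1I hy2I hyord

end Main

end Fermat.Agent.ES.I2
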