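import Fermat.Agent.ES.I2.Plan2
import Fermat.Agent.ES.M.CuspInfty
import Fermat.Agent.ES.M.RedF
import Fermat.Agent.ES.LR.Final

/-!
# ES-I2, piece I2-S2: the elements of `W` are integral over `k[j̄]`, and `τ_i W ⊆ k[[Q]]`

* `s2_intJ_of_isIntegral_adjoin` : transitivity of integrality in the explicit form `IntJ`.
* `s2_intJ_of_regOut` : a function regular outside `∞` is `IntJ` over `ℚ̄[j]` (Lemma R).
* `stmtS2_of` : `StmtIR N A → StmtRedF N A → StmtS2 N A`.
* `stmtS2Glue : StmtS2Glue` (`= StmtIRAll → StmtS2All`).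
-/

set_option autoImplicit false
set_option linter.unusedSectionVars false
set_option linter.style.haveILetI false
set_option synthInstance.maxHeartbeats 400000

noncomputable section

namespace Fermat.Agent.ES.I2

open ModularCurve AlgebraicCurve Polynomial
open Fermat.Agent.ES Fermat.Agent.S24 Fermat.Agent.ES.M

/-! ### `IntJ` and integrality -/

section Generic

variable {K : Type*} [Field K]

/-- constants are `IntJ` -/
theorem s2_intJ_algebraMap (x : LaurentSeries K) (c : K) :
    IntJ x (algebraMap K (LaurentSeries K) c) := by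
  refine ⟨X - C (C c), monic_X_sub_C _, ?_⟩
  rw [eval₂_sub, eval₂_X, eval₂_C]
  show _ - Polynomial.aeval x (C c) = 0
  rw [aeval_C, sub_self]

/-- **transitivity**: an element integral over a `K`-subalgebra generated by `IntJ` elements is
`IntJ`. -/
theorem s2_intJ_of_isIntegral_adjoin (x : LaurentSeries K) (S : Set (LaurentSeries K))
    (hS : ∀ s ∈ S, IntJ x s) (w : LaurentSeries K) (hw : IsIntegral (Algebra.adjoin K S) w) :
    IntJ x w := by
  letI alg : Algebra K[X] (LaurentSeries K) := (Polynomial.aeval x).toRingHom.toAlgebra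
  have hC : ∀ z ∈ Algebra.adjoin K S, IsIntegral K[X] z := by
    intro z hz
    induction hz using Algebra.adjoin_induction with
    | mem s hs => exact hS s hs
    | algebraMap c => exact s2_intJ_algebraMap x c
    | add a b _ _ ha hb => exact ha.add hb
    | mul a b _ _ ha hb => exact ha.mul hb
  obtain ⟨p, hp, hpw⟩ := hw
  let φ : Algebra.adjoin K S →+* integralClosure K[X] (LaurentSeries K) :=
    { toFun := fun z => ⟨(z : LaurentSeries K), hC z z.2⟩
      map_one' := rfl
      map_mul' := fun _ _ => rfl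
      map_zero' := rfl
      map_add' := fun _ _ => rfl }
  have h1 : IsIntegral (integralClosure K[X] (LaurentSeries K)) w := by
    refine ⟨p.map φ, hp.map φ, ?_⟩
    rw [eval₂_map]
    exact hpw
  exact isIntegral_trans (R := K[X]) w h1

end Generic

/-! ### The functions regular outside `∞` -/

section Modular

variable (N : ℕ) [NeZero N] (A : ValuationSubring Kb)

/-- a function regular outside the cusp `∞` is integral over `ℚ̄[j]` (Lemma R). -/
theorem s2_intJ_of_regOut (x : FF N) (hx : RegOut N x) : IntJ jBar (x : LaurentSeries Kb) := by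
  have h := Fermat.Agent.ES.LR.lr_isIntegral N x hx.polesAtCusps
  letI := polyAlgebra (K := Kb) (jF N)
  obtain ⟨p, hp, hpx⟩ := h
  refine ⟨p, hp, ?_⟩
  have h1 := congrArg ((modularFunctionFieldBar N).val : FF N → LaurentSeries Kb) hpx
  rw [map_zero] at h1
  rw [← h1]
  have h2 := Polynomial.hom_eval₂ p (algebraMap Kb[X] (FF N))
    ((modularFunctionFieldBar N).val : FF N →+* LaurentSeries Kb) x
  rw [RingHom.coe_coe] at h2
  rw [h2]
  congr 1
  refine Polynomial.ringHom_ext (fun a => ?_) ?_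
  · show Polynomial.aeval jBar (C a) =
      (((Polynomial.aeval (jF N) (C a) : FF N)) : LaurentSeries Kb)
    rw [aeval_C, aeval_C]
    rfl
  · show Polynomial.aeval jBar (X : Kb[X]) =
      (((Polynomial.aeval (jF N) (X : Kb[X]) : FF N)) : LaurentSeries Kb)
    rw [aeval_X, aeval_X]
    rfl

variable {N A}

theorem s2_redR_intJ (hIR : StmtIR N A) {s : LaurentSeries (kA A)} (hs : s ∈ redR N A) :
    IntJ (jqModC (kA A)) s := by
  obtain ⟨Y, hY, hreg, rfl⟩ := hs
  exact hIR Y hY (s2_intJ_of_regOut N ⟨kronIncl A Y, hY⟩ hreg)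

/-- **(S2), first half** -/
theorem s2_intJ_of_inW (hIR : StmtIR N A) (w : LaurentSeries (kA A)) (hw : InW N A w) :
    IntJ (jqModC (kA A)) w :=
  s2_intJ_of_isIntegral_adjoin _ (redR N A) (fun _ hs => s2_redR_intJ hIR hs) w hw.2

end Modular

/-! ### `k[[Q]]` is integrally closed in `k((Q))` -/

section PowerSeries

variable {K : Type*} [Field K]

theorem s2_val_le_one_iff (f : LaurentSeries K) :
    Valued.v f ≤ (1 : WithZero (Multiplicative ℤ)) ↔ ∀ m : ℤ, m < 0 → f.coeff m = 0 := by
  have h := LaurentSeries.valuation_le_iff_coeff_lt_eq_zero K (D := 0) (f := f)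
  simpa using h

/-- a ring homomorphism into `k((Q))` that sends a subring into `k[[Q]]` sends the elements
integral over the subring into `k[[Q]]`. -/
theorem s2_val_le_one_of_isIntegral {T : Type*} [CommRing T] (ψ : T →+* LaurentSeries K)
    (hψ : ∀ z : T, Valued.v (ψ z) ≤ (1 : WithZero (Multiplicative ℤ)))
    (x : LaurentSeries K) (p : Polynomial T) (hp : p.Monic) (hx : p.eval₂ ψ x = 0) :
    Valued.v x ≤ (1 : WithZero (Multiplicative ℤ)) := by
  set v : Valuation (LaurentSeries K) (WithZero (Multiplicative ℤ)) := Valued.v with hv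
  let φ : T →+* v.integer := ψ.codRestrict v.integer (fun z => hψ z)
  have h1 : IsIntegral v.integer x := by
    refine ⟨p.map φ, hp.map φ, ?_⟩
    rw [eval₂_map]
    exact hx
  exact (Valuation.integer.integers v).isIntegral_iff_v_le_one.mp h1

end PowerSeries

section GenericTau

variable {K : Type*} [Field K]

/-- generic form of the second half of (S2). -/
theorem s2_tau_generic (F : IntermediateField K (LaurentSeries K))
    (τ : F →ₐ[K] LaurentSeries K) (S : Set (LaurentSeries K)) (hSF : ∀ s ∈ S, s ∈ F)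
    (hreg : ∀ s (_ : s ∈ S) (hsF : s ∈ F), ∀ m : ℤ, m < 0 → (τ ⟨s, hsF⟩).coeff m = 0)
    (w : LaurentSeries K) (hwF : w ∈ F) (hw : IsIntegral (Algebra.adjoin K S) w)
    (m : ℤ) (hm : m < 0) : (τ ⟨w, hwF⟩).coeff m = 0 := by
  set v : Valuation (LaurentSeries K) (WithZero (Multiplicative ℤ)) := Valued.v with hv
  have hle : Algebra.adjoin K S ≤ F.toSubalgebra := Algebra.adjoin_le hSF
  let incl : Algebra.adjoin K S →+* F :=
    { toFun := fun z => ⟨(z : LaurentSeries K), hle z.2⟩
      map_one' := rfl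
      map_mul' := fun _ _ => rfl
      map_zero' := rfl
      map_add' := fun _ _ => rfl }
  let ψ : Algebra.adjoin K S →+* LaurentSeries K := (τ : F →+* LaurentSeries K).comp incl
  let OF : Subalgebra K F :=
    { carrier := {z | v (τ z) ≤ 1}
      mul_mem' := fun {a b} ha hb => by
        show v (τ (a * b)) ≤ 1
        rw [map_mul, v.map_mul]
        exact mul_le_one' ha hb
      add_mem' := fun {a b} ha hb => by
        show v (τ (a + b)) ≤ 1
        rw [map_add]
        exact (v.map_add _ _).trans (max_le ha hb)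
      algebraMap_mem' := fun c => by
        show v (τ (algebraMap K F c)) ≤ 1
        rw [τ.commutes, hv, s2_val_le_one_iff]
        intro m hm
        rw [algebraMap_eq_hahnC, HahnSeries.C_apply, HahnSeries.coeff_single_of_ne hm.ne] }
  have hOF : Algebra.adjoin K S ≤ OF.map F.val := by
    refine Algebra.adjoin_le ?_
    intro s hs
    refine ⟨⟨s, hSF s hs⟩, ?_, rfl⟩
    show v (τ ⟨s, hSF s hs⟩) ≤ 1
    rw [hv, s2_val_le_one_iff]
    exact hreg s hs (hSF s hs)
  have hψ : ∀ z : Algebra.adjoin K S, v (ψ z) ≤ 1 := by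
    rintro ⟨z, hz⟩
    obtain ⟨z', hz', hzz⟩ := hOF hz
    have h1 : incl ⟨z, hz⟩ = z' := Subtype.ext hzz.symm
    show v (τ (incl ⟨z, hz⟩)) ≤ 1
    rw [h1]
    exact hz'
  obtain ⟨p, hp, hpw⟩ := hw
  have hx : p.eval₂ ψ (τ ⟨w, hwF⟩) = 0 := by
    have h2 : p.eval₂ incl (⟨w, hwF⟩ : F) = 0 := by
      apply Subtype.ext
      have h3 := Polynomial.hom_eval₂ p incl (algebraMap F (LaurentSeries K)) ⟨w, hwF⟩
      exact h3.trans hpw
    have h4 := Polynomial.hom_eval₂ p incl (τ : F →+* LaurentSeries K) ⟨w, hwF⟩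
    rw [h2, map_zero] at h4
    exact h4.symm
  exact (s2_val_le_one_iff _).mp (s2_val_le_one_of_isIntegral ψ hψ _ p hp hx) m hm

end GenericTau

section Modular2

variable {N : ℕ} [NeZero N] {A : ValuationSubring Kb}

/-- **(S2), second half** -/
theorem s2_tau_coeff (hRF : StmtRedF N A)
    (τ : Fin (dedekindPsi N) →
      (↥(modularFunctionFieldFullC (kA A) N) →ₐ[kA A] LaurentSeries (kA A)))
    (i₀ : Fin (dedekindPsi N)) (hτ : IsTau N A τ i₀)
    (w : LaurentSeries (kA A)) (hw : InW N A w) (i : Fin (dedekindPsi N)) (hi : i ≠ i₀)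
    (m : ℤ) (hm : m < 0) : (τ i ⟨w, hw.1⟩).coeff m = 0 := by
  refine s2_tau_generic (modularFunctionFieldFullC (kA A) N) (τ i) (redR N A) ?_ ?_ w hw.1 hw.2
    m hm
  · rintro s ⟨Y, hY, -, rfl⟩
    exact hRF Y hY
  · intro s hs hsF m hm
    exact hτ.reg i hi s hs hsF m hm

/-- `(IR) ⇒ (S2)` at one level -/
theorem stmtS2_of (hIR : StmtIR N A) (hRF : StmtRedF N A) : StmtS2 N A :=
  ⟨fun w hw => s2_intJ_of_inW hIR w hw,
    fun τ i₀ hτ w hw i hi m hm => s2_tau_coeff hRF τ i₀ hτ w hw i hi m hm⟩

end Modular2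

/-- piece `I2-S2` -/
theorem stmtS2Glue : StmtS2Glue := by
  intro hIR N _ ℓ hℓ hℓN A hA
  exact stmtS2_of (hIR N ℓ hℓ hℓN A hA) (Fermat.Agent.ES.M.stmtRedF N A ℓ hℓ hℓN hA)

end Fermat.Agent.ES.I2
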