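import Mathlib

/-!
# ES / I2, piece Tau: the Newton polygon step

`tau_newton` : if `z ∈ K((Q))` satisfies
`z ^ ψ + ∑_{j = 1}^{ψ} (∑_{i < j} a j i • J ^ i) z ^ (ψ - j) = 0` with `ord_Q J ≥ -N`, `N ≥ 1`,
then `ord_Q z > -N`.
-/

set_option autoImplicit false

namespace Fermat.Agent.ES.I2

open WithZero

variable {K : Type*} [Field K]

/-- constants have valuation `≤ 1` -/
theorem tau_valued_C_le_one (a : K) :
    (Valued.v (HahnSeries.C a : LaurentSeries K) : ℤᵐ⁰) ≤ 1 := by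
  have h : (Valued.v (HahnSeries.C a : LaurentSeries K) : ℤᵐ⁰) ≤ exp (-(0 : ℤ)) := by
    rw [LaurentSeries.valuation_le_iff_coeff_lt_eq_zero]
    intro n hn
    rw [HahnSeries.C_apply, HahnSeries.coeff_single_of_ne (by omega)]
  simpa using h

/-- **Newton polygon step.** -/
theorem tau_newton (N : ℕ) (hN : 1 ≤ N) (J z : LaurentSeries K)
    (hJ : ∀ m : ℤ, m < -(N : ℤ) → J.coeff m = 0) (ψ : ℕ) (a : ℕ → ℕ → K)
    (hrel : z ^ ψ + ∑ j ∈ Finset.Icc 1 ψ,
      (∑ i ∈ Finset.range j, HahnSeries.C (a j i) * J ^ i) * z ^ (ψ - j) = 0) :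
    ∀ m : ℤ, m ≤ -(N : ℤ) → z.coeff m = 0 := by
  have hgoal : (Valued.v z : ℤᵐ⁰) ≤ exp (-(-(N : ℤ) + 1)) := by
    by_contra hcon
    rw [not_le] at hcon
    have hz0 : (Valued.v z : ℤᵐ⁰) ≠ 0 := fun h => by
      rw [h] at hcon
      exact not_lt_zero hcon
    obtain ⟨t, ht⟩ : ∃ t : ℤ, (Valued.v z : ℤᵐ⁰) = exp t := ⟨log _, (exp_log hz0).symm⟩
    rw [ht, exp_lt_exp] at hcon
    have hJv : (Valued.v J : ℤᵐ⁰) ≤ Valued.v z := by
      have h1 : (Valued.v J : ℤᵐ⁰) ≤ exp (-(-(N : ℤ))) := by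
        rw [LaurentSeries.valuation_le_iff_coeff_lt_eq_zero]
        exact hJ
      refine h1.trans ?_
      rw [ht, exp_le_exp]
      omega
    have hz1 : (1 : ℤᵐ⁰) < Valued.v z := by
      rw [ht, ← exp_zero, exp_lt_exp]
      omega
    have hzpos : (0 : ℤᵐ⁰) < Valued.v z := lt_trans zero_lt_one hz1
    have hψ0 : (Valued.v z : ℤᵐ⁰) ^ ψ ≠ 0 := pow_ne_zero _ hz0
    have hterm : ∀ j ∈ Finset.Icc 1 ψ, ∀ i ∈ Finset.range j,
        (Valued.v (HahnSeries.C (a j i) * J ^ i * z ^ (ψ - j)) : ℤᵐ⁰) < Valued.v z ^ ψ := by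
      intro j hj i hi
      rw [Finset.mem_Icc] at hj
      rw [Finset.mem_range] at hi
      rw [map_mul, map_mul, map_pow, map_pow]
      calc (Valued.v (HahnSeries.C (a j i) : LaurentSeries K) : ℤᵐ⁰) * Valued.v J ^ i *
            Valued.v z ^ (ψ - j)
          ≤ 1 * Valued.v z ^ i * Valued.v z ^ (ψ - j) := by
            gcongr
            exact tau_valued_C_le_one _
        _ = Valued.v z ^ (i + (ψ - j)) := by rw [one_mul, pow_add]
        _ < Valued.v z ^ ψ := pow_lt_pow_right₀ hz1 (by omega)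
    have hsum : (Valued.v (∑ j ∈ Finset.Icc 1 ψ,
        (∑ i ∈ Finset.range j, HahnSeries.C (a j i) * J ^ i) * z ^ (ψ - j)) : ℤᵐ⁰) <
          Valued.v z ^ ψ := by
      refine Valuation.map_sum_lt _ hψ0 fun j hj => ?_
      rw [Finset.sum_mul]
      exact Valuation.map_sum_lt _ hψ0 fun i hi => hterm j hj i hi
    have h2 : z ^ ψ = -∑ j ∈ Finset.Icc 1 ψ,
        (∑ i ∈ Finset.range j, HahnSeries.C (a j i) * J ^ i) * z ^ (ψ - j) :=
      eq_neg_of_add_eq_zero_left hrel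
    have h3 := congrArg (fun x : LaurentSeries K => (Valued.v x : ℤᵐ⁰)) h2
    simp only [map_pow, Valuation.map_neg] at h3
    rw [← h3] at hsum
    exact lt_irrefl _ hsum
  rw [LaurentSeries.valuation_le_iff_coeff_lt_eq_zero] at hgoal
  intro m hm
  exact hgoal m (by omega)

end Fermat.Agent.ES.I2
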