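import Fermat.Agent.ES.I2.Plan2
import Fermat.Agent.ES.I2.TauNewton
import Fermat.Agent.ES.LR.Final
import Fermat.Agent.ES.M.CuspInfty
import Fermat.Agent.ES.GaloisHecke

/-!
# ES / I2, piece Tau: the reduced embeddings `τ_i = R σ_i : F_k → k((Q))`

`stmtTauGlue : StmtTauGlue` (= `StmtEAll → StmtRegAll → StmtIntAll → StmtRedAll → StmtTauAll`).
-/

set_option autoImplicit false

noncomputable section

namespace Fermat.Agent.ES.I2

open ModularCurve AlgebraicCurve Fermat.Agent.ES Fermat.Agent.S24 Fermat.Agent.ES.M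

section Aux

variable (N : ℕ) [NeZero N]

/-- poles only at cusps ⇒ integral over `ℚ̄[j]`, in the explicit form -/
theorem tau_intJ_of_polesAtCusps (x : FF N) (hx : PolesAtCusps N x) :
    IntJ jBar (x : LaurentSeries Kb) := by
  let _ := polyAlgebra (K := Kb) (jF N)
  obtain ⟨p, hp, hpz⟩ := Fermat.Agent.ES.LR.lr_isIntegral N x hx
  have hcomp : (modularFunctionFieldBar N).val.toRingHom.comp (algebraMap (Polynomial Kb) (FF N)) =
      (Polynomial.aeval jBar).toRingHom := by
    have h1 : (Polynomial.aeval (R := Kb) jBar) =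
        (modularFunctionFieldBar N).val.comp (Polynomial.aeval (jF N)) :=
      Polynomial.aeval_algHom (modularFunctionFieldBar N).val (jF N)
    rw [h1]
    rfl
  refine ⟨p, hp, ?_⟩
  have h1 := Polynomial.hom_eval₂ p (algebraMap (Polynomial Kb) (FF N))
    (modularFunctionFieldBar N).val.toRingHom x
  rw [hpz, map_zero, hcomp] at h1
  exact h1.symm

omit [NeZero N] in
/-- the polynomial of the cuspidal norm relation -/
def tauPoly (ψ : ℕ) (a : ℕ → ℕ → Kb) : Polynomial (Polynomial Kb) :=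
  Polynomial.X ^ ψ + ∑ j ∈ Finset.Icc 1 ψ,
    Polynomial.C (∑ i ∈ Finset.range j, Polynomial.C (a j i) * Polynomial.X ^ i) *
      Polynomial.X ^ (ψ - j)

theorem tauPoly_monic (ψ : ℕ) (a : ℕ → ℕ → Kb) : (tauPoly ψ a).Monic := by
  classical
  refine Polynomial.monic_X_pow_add ?_
  refine lt_of_le_of_lt (Polynomial.degree_sum_le _ _) ?_
  refine (Finset.sup_lt_iff (WithBot.bot_lt_coe ψ)).2 ?_
  intro j hj
  rw [Finset.mem_Icc] at hj
  refine lt_of_le_of_lt (Polynomial.degree_C_mul_X_pow_le _ _) ?_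
  exact WithBot.coe_lt_coe.2 (by omega : ψ - j < ψ)

theorem tau_eval₂_tauPoly (ψ : ℕ) (a : ℕ → ℕ → Kb) (J z : LaurentSeries Kb) :
    (tauPoly ψ a).eval₂ (Polynomial.aeval J).toRingHom z =
      z ^ ψ + ∑ j ∈ Finset.Icc 1 ψ,
        (∑ i ∈ Finset.range j, HahnSeries.C (a j i) * J ^ i) * z ^ (ψ - j) := by
  rw [tauPoly, Polynomial.eval₂_add, Polynomial.eval₂_X_pow, Polynomial.eval₂_finsetSum]
  congr 1
  refine Finset.sum_congr rfl fun j _ => ?_
  rw [Polynomial.eval₂_mul, Polynomial.eval₂_C, Polynomial.eval₂_X_pow]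
  congr 1
  show Polynomial.aeval J _ = _
  rw [map_sum]
  refine Finset.sum_congr rfl fun i _ => ?_
  rw [map_mul, Polynomial.aeval_C, map_pow, Polynomial.aeval_X, algebraMap_eq_hahnC]

omit [NeZero N] in
/-- the norm relation of a cusp form is a monic relation over `ℚ̄[j]` -/
theorem tau_intJ_of_cuspRel {x : LaurentSeries Kb} (hx : CuspRel N x) : IntJ jBar x := by
  obtain ⟨a, ha⟩ := hx
  exact ⟨tauPoly (dedekindPsi N) a, tauPoly_monic _ a, (tau_eval₂_tauPoly _ a jBar x).trans ha⟩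

/-- an algebra embedding of `F_N` transports polynomial relations over `ℚ̄[j]` -/
theorem tau_eval₂_algHom (σ : FF N →ₐ[Kb] LaurentSeries Kb) (x : FF N)
    (p : Polynomial (Polynomial Kb))
    (h : p.eval₂ (Polynomial.aeval jBar).toRingHom (x : LaurentSeries Kb) = 0) :
    p.eval₂ (Polynomial.aeval (σ (jF N))).toRingHom (σ x) = 0 := by
  have hval : ∀ (φ : FF N →ₐ[Kb] LaurentSeries Kb),
      p.eval₂ (Polynomial.aeval (φ (jF N))).toRingHom (φ x) =
        φ (p.eval₂ (Polynomial.aeval (jF N)).toRingHom x) := by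
    intro φ
    have h1 := Polynomial.hom_eval₂ p (Polynomial.aeval (R := Kb) (jF N)).toRingHom
      φ.toRingHom x
    have h2 : φ.toRingHom.comp (Polynomial.aeval (R := Kb) (jF N)).toRingHom =
        (Polynomial.aeval (φ (jF N))).toRingHom := by
      have h3 : (Polynomial.aeval (R := Kb) (φ (jF N))) = φ.comp (Polynomial.aeval (jF N)) :=
        Polynomial.aeval_algHom φ (jF N)
      rw [h3]
      rfl
    rw [h2] at h1
    exact h1.symm
  have h0 : p.eval₂ (Polynomial.aeval (jF N)).toRingHom x = 0 := by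
    have h1 := hval (modularFunctionFieldBar N).val
    have h2 : (modularFunctionFieldBar N).val (jF N) = jBar := rfl
    have h3 : (modularFunctionFieldBar N).val x = (x : LaurentSeries Kb) := rfl
    rw [h2, h3, h] at h1
    exact (modularFunctionFieldBar N).val.injective (h1.symm.trans (map_zero _).symm)
  rw [hval σ, h0, map_zero]

/-- `σ j = j(Q^N)` for an embedding with a type -/
theorem tau_sigma_jF {σ : FF N →ₐ[Kb] LaurentSeries Kb} (hσ : HasType N σ) :
    σ (jF N) = qExpand Kb N jBar := by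
  obtain ⟨a, δ, m, c, h1, h2, h3, h4⟩ := hσ 1 (one_dvd N)
  have ha : a = 1 := Nat.eq_one_of_mul_eq_one_right h1
  have hδ : δ = 1 := Nat.eq_one_of_mul_eq_one_left h1
  subst ha hδ
  rw [mul_one, mul_one] at h2
  subst h2
  rw [pow_one] at h3
  subst h3
  rw [jdF_one] at h4
  rw [h4, substQ_eq, kronRot_one]

omit [NeZero N] in
/-- `ord_Q j(Q^N) = -N` -/
theorem tau_qExpand_jBar_coeff [NeZero N] (m : ℤ) (hm : m < -(N : ℤ)) :
    (qExpand Kb N jBar).coeff m = 0 := by
  by_cases hdvd : (N : ℤ) ∣ m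
  · obtain ⟨t, rfl⟩ := hdvd
    rw [qExpand_coeff_mul]
    apply jBar_coeff_of_lt
    have hN : (0 : ℤ) < N := by exact_mod_cast Nat.pos_of_ne_zero (NeZero.ne N)
    by_contra hcon
    rw [not_lt] at hcon
    have : -(N : ℤ) ≤ (N : ℤ) * t := by nlinarith
    omega
  · exact qExpand_coeff_of_not_dvd N _ hdvd

end Aux

section Models

variable (N : ℕ) [NeZero N] (A : ValuationSubring Kb)

/-- `j(q^d)` with coefficients in `A` -/
def tauJd (d : ℕ) [NeZero d] : LaurentSeries A :=
  coeffMap (Int.castRingHom A) (qExpand ℤ d (jqModC ℤ))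

theorem kronIncl_tauJd (d : ℕ) [NeZero d] : kronIncl A (tauJd A d) = jdBar d := by
  have h1 : kronIncl A (tauJd A d) =
      coeffMap (A.subtype.comp (Int.castRingHom A)) (qExpand ℤ d (jqModC ℤ)) := by
    rw [tauJd]
    exact (coeffMap_coeffMap _ _ _)
  have h2 : jdBar d = coeffMap (algebraMap ℚ Kb) (qExpand ℚ d (jqModC ℚ)) := rfl
  rw [h1, h2, RingHom.ext_int (A.subtype.comp (Int.castRingHom A)) (Int.castRingHom Kb),
    coeffMap_qExpand_comm, coeffMap_jqModC, coeffMap_qExpand_comm, coeffMap_jqModC]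

theorem kronRed_tauJd (d : ℕ) [NeZero d] :
    kronRed A (tauJd A d) = qExpand (kA A) d (jqModC (kA A)) := by
  have h1 : kronRed A (tauJd A d) =
      coeffMap ((IsLocalRing.residue A).comp (Int.castRingHom A)) (qExpand ℤ d (jqModC ℤ)) := by
    rw [tauJd]
    exact (coeffMap_coeffMap _ _ _)
  rw [h1, coeffMap_qExpand_comm, coeffMap_jqModC]

theorem kronIncl_qExpand (n : ℕ) [NeZero n] (Y : LaurentSeries A) :
    kronIncl A (qExpand A n Y) = qExpand Kb n (kronIncl A Y) :=
  coeffMap_qExpand_comm _ _ _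

theorem kronRed_qExpand (n : ℕ) [NeZero n] (Y : LaurentSeries A) :
    kronRed A (qExpand A n Y) = qExpand (kA A) n (kronRed A Y) :=
  coeffMap_qExpand_comm _ _ _

omit [NeZero N] in
theorem tau_coeff_eq_zero_of_kronIncl {Z : LaurentSeries A} {m : ℤ}
    (h : (kronIncl A Z).coeff m = 0) : (kronRed A Z).coeff m = 0 := by
  rw [coeffMap_coeff] at h ⊢
  have : Z.coeff m = 0 := Subtype.ext h
  rw [this, map_zero]

end Models

/-- **piece I2-Tau** -/
theorem stmtTauGlue : StmtTauGlue := by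
  intro hE hReg hInt hRed N _ ℓ hℓ hℓN A hA
  obtain ⟨σ, hσinj, hσtype, i₀, hi₀⟩ := hE N
  obtain ⟨R, hRcompat, hRinj⟩ := hRed N ℓ hℓ hℓN A hA
  have hInt' := hInt N ℓ hℓ hℓN A hA
  have hReg' := hReg N
  refine ⟨fun i => R (σ i), i₀, ⟨?_, ?_, ?_, ?_, ?_⟩⟩
  · intro i i' h
    exact hσinj (hRinj _ _ (hσtype i) (hσtype i') h)
  · -- `τ i₀` is the expansion at `∞`
    refine IntermediateField.algHom_ext_of_eq_adjoin (kA A) (rfl :
      modularFunctionFieldFullC (kA A) N = IntermediateField.adjoin (kA A)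
        (divisorExpansionsC (kA A) N)) ?_
    rintro x ⟨d, hdne, hd, rfl⟩
    have := hdne
    have hY : kronIncl A (tauJd A d) ∈ modularFunctionFieldBar N := by
      rw [kronIncl_tauJd]
      exact jdBar_mem N d hd
    have hYk : kronRed A (tauJd A d) ∈ modularFunctionFieldFullC (kA A) N := by
      rw [kronRed_tauJd]
      exact jqModCd_mem_full _ N hd
    have h1 := hRcompat (σ i₀) (hσtype i₀) (tauJd A d) (qExpand A N (tauJd A d)) hY hYk (by
      rw [hi₀, iotaN_apply, kronIncl_qExpand])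
    have h2 : (⟨kronRed A (tauJd A d), hYk⟩ : ↥(modularFunctionFieldFullC (kA A) N)) =
        ⟨qExpand (kA A) d (jqModC (kA A)), jqModCd_mem_full _ N hd⟩ :=
      Subtype.ext (kronRed_tauJd A d)
    rw [h2] at h1
    show R (σ i₀) ⟨qExpand (kA A) d (jqModC (kA A)), _⟩ = iotaK (kA A) N ⟨_, _⟩
    rw [h1, iotaK_apply, kronRed_qExpand, kronRed_tauJd]
  · -- `τ i j̄ = j̄(Q^N)`
    intro i
    have hY : kronIncl A (tauJd A 1) ∈ modularFunctionFieldBar N := by
      rw [kronIncl_tauJd]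
      exact jdBar_mem N 1 (one_dvd N)
    have hYk : kronRed A (tauJd A 1) ∈ modularFunctionFieldFullC (kA A) N := by
      rw [kronRed_tauJd]
      exact jqModCd_mem_full _ N (one_dvd N)
    have hj : (⟨kronIncl A (tauJd A 1), hY⟩ : FF N) = jF N := by
      rw [← jdF_one]
      exact Subtype.ext (kronIncl_tauJd A 1)
    have h1 := hRcompat (σ i) (hσtype i) (tauJd A 1) (qExpand A N (tauJd A 1)) hY hYk (by
      rw [hj, tau_sigma_jF N (hσtype i), kronIncl_qExpand, kronIncl_tauJd]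
      have : jdBar 1 = jBar := by
        show coeffEmb Kb (qExpand ℚ 1 jq) = coeffEmb Kb jq
        rw [qExpand_one_apply]
      rw [this])
    have h2 : (⟨kronRed A (tauJd A 1), hYk⟩ : ↥(modularFunctionFieldFullC (kA A) N)) =
        ⟨jqModC (kA A), jqModC_mem_full (kA A) N⟩ :=
      Subtype.ext ((kronRed_tauJd A 1).trans (qExpand_one_apply _))
    rw [h2] at h1
    rw [h1, kronRed_qExpand, kronRed_tauJd, qExpand_one_apply]
  · -- regularity at the other cusps
    intro i hi s hs hsF m hm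
    obtain ⟨Y, hY, hreg, rfl⟩ := hs
    have hIntJ := tau_intJ_of_polesAtCusps N ⟨kronIncl A Y, hY⟩ hreg.polesAtCusps
    obtain ⟨Z, hZ⟩ := (hInt' (σ i) (hσtype i) Y hY hIntJ).exists_lift
    have hne : σ i ≠ iotaN N := fun h => hi (hσinj (h.trans hi₀.symm))
    rw [hRcompat (σ i) (hσtype i) Y Z hY hsF hZ.symm]
    apply tau_coeff_eq_zero_of_kronIncl
    rw [hZ]
    exact hReg' (σ i) (hσtype i) hne ⟨kronIncl A Y, hY⟩ hreg m hm
  · -- the cuspidal norm relation
    intro i Y hY hYk hcusp m hm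
    have hIntJ := tau_intJ_of_cuspRel N hcusp
    obtain ⟨Z, hZ⟩ := (hInt' (σ i) (hσtype i) Y hY hIntJ).exists_lift
    rw [hRcompat (σ i) (hσtype i) Y Z hY hYk hZ.symm]
    apply tau_coeff_eq_zero_of_kronIncl
    rw [hZ]
    obtain ⟨a, ha⟩ := hcusp
    have hrel := tau_eval₂_algHom N (σ i) ⟨kronIncl A Y, hY⟩ (tauPoly (dedekindPsi N) a)
      ((tau_eval₂_tauPoly _ a jBar _).trans ha)
    rw [tau_eval₂_tauPoly, tau_sigma_jF N (hσtype i)] at hrel
    exact tau_newton N (Nat.pos_of_ne_zero (NeZero.ne N)) (qExpand Kb N jBar)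
      (σ i ⟨kronIncl A Y, hY⟩) (tau_qExpand_jBar_coeff N) (dedekindPsi N) a hrel m hm

end Fermat.Agent.ES.I2
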