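import Fermat.Agent.ES.I2.Plan

/-!
# ES / I2 — interface, part 2: the two derived statements consumed by the assembly

Plan: `NOTES/ES-I2.md`.  The assembly (`I2-Z`) works entirely in characteristic `ℓ`; it consumes

* `StmtIR` : reduction preserves integrality over the `j`-line
  (from `StmtE` + `StmtInt`: the minimal polynomial of `Y` over `ℚ̄(j)` has its roots among the
  `σ_i Y`, all `A`-integral, so its coefficients are polynomials in `j` with coefficients in `A`);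
* `StmtTau` : the reduced embeddings `τ_i = R σ_i : F_k → k((Q))`
  (from `StmtE` + `StmtReg` + `StmtInt` + `StmtRed` + `(RedF)` + Lemma R);
* `StmtMF`, `StmtB`, and the linear count `I2aux.i2_count`.
-/

set_option autoImplicit false

noncomputable section

namespace Fermat.Agent.ES.I2

open ModularCurve AlgebraicCurve HahnSeries Fermat.Agent.ES Fermat.Agent.S24 Fermat.Agent.ES.M

/-- **(IR)** reduction preserves integrality over the `j`-line: if `Y ∈ A((q)) ∩ F` is integral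
over `ℚ̄[j]`, then `Ȳ` is integral over `k[j̄]`. -/
def StmtIR (N : ℕ) [NeZero N] (A : ValuationSubring Kb) : Prop :=
  ∀ Y : LaurentSeries A, kronIncl A Y ∈ modularFunctionFieldBar N →
    IntJ jBar (kronIncl A Y) → IntJ (jqModC (kA A)) (kronRed A Y)

/-- **(Tau)** the reduced embeddings `τ_i : F_k → k((Q))`, `i < ψ(N)`:
pairwise distinct; `τ_{i₀}` is the `q`-expansion at `∞` (`q ↦ Q^N`); all of them send `j̄` to
`j̄(Q^N)`; for `i ≠ i₀` they send the reductions of the functions regular outside `∞` into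
`k[[Q]]`; and they send the reduction of an `A`-integral `Y ∈ F` with a cusp-form norm relation
(`CuspRel`) to a series of `Q`-order `> -N`. -/
structure IsTau (N : ℕ) [NeZero N] (A : ValuationSubring Kb)
    (τ : Fin (dedekindPsi N) →
      (↥(modularFunctionFieldFullC (kA A) N) →ₐ[kA A] LaurentSeries (kA A)))
    (i₀ : Fin (dedekindPsi N)) : Prop where
  inj : Function.Injective τ
  infty : τ i₀ = iotaK (kA A) N
  jmap : ∀ i, τ i ⟨jqModC (kA A), jqModC_mem_full (kA A) N⟩ = qExpand (kA A) N (jqModC (kA A))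
  reg : ∀ i, i ≠ i₀ → ∀ s (_ : s ∈ redR N A) (hsF : s ∈ modularFunctionFieldFullC (kA A) N),
      ∀ m : ℤ, m < 0 → (τ i ⟨s, hsF⟩).coeff m = 0
  cusp : ∀ i, ∀ (Y : LaurentSeries A) (_ : kronIncl A Y ∈ modularFunctionFieldBar N)
      (hYk : kronRed A Y ∈ modularFunctionFieldFullC (kA A) N), CuspRel N (kronIncl A Y) →
      ∀ m : ℤ, m ≤ -(N : ℤ) → (τ i ⟨kronRed A Y, hYk⟩).coeff m = 0

/-- **(Tau)**: reduced embeddings exist -/
def StmtTau (N : ℕ) [NeZero N] (A : ValuationSubring Kb) : Prop :=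
  ∃ (τ : Fin (dedekindPsi N) →
      (↥(modularFunctionFieldFullC (kA A) N) →ₐ[kA A] LaurentSeries (kA A)))
    (i₀ : Fin (dedekindPsi N)), IsTau N A τ i₀

def StmtIRAll : Prop :=
  ∀ (N : ℕ) [NeZero N] (ℓ : ℕ), ℓ.Prime → ¬ ℓ ∣ N →
    ∀ A : ValuationSubring Kb, A.LiesOverPrime ℓ → StmtIR N A

def StmtTauAll : Prop :=
  ∀ (N : ℕ) [NeZero N] (ℓ : ℕ), ℓ.Prime → ¬ ℓ ∣ N →
    ∀ A : ValuationSubring Kb, A.LiesOverPrime ℓ → StmtTau N A

/-- piece `I2-IR` -/
def StmtIRGlue : Prop := StmtEAll → StmtIntAll → StmtIRAll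

/-- piece `I2-Tau` -/
def StmtTauGlue : Prop := StmtEAll → StmtRegAll → StmtIntAll → StmtRedAll → StmtTauAll

/-- **(TN)** trace and norm over the `j`-line through a full family of embeddings: for `z ∈ F_k`
integral over `k[j̄]`, the sum and the product of the `τ_i z` are polynomials in `J = j̄(Q^N)`.
(`[F_k : k(j̄)] = ψ(N)` by S28, separable by INJ/GaussSep; `ES/I2/Embed.lean`; the trace and the
norm of an integral element are integral, and `k[j̄]` is integrally closed.) -/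
def StmtTN : Prop :=
  ∀ (k : Type) [Field k] (ℓ : ℕ) [Fact ℓ.Prime] [CharP k ℓ] [PerfectRing k ℓ]
    (N : ℕ) [NeZero N], (N : k) ≠ 0 →
    ∀ τ : Fin (dedekindPsi N) → (↥(modularFunctionFieldFullC k N) →ₐ[k] LaurentSeries k),
      Function.Injective τ →
      (∀ i, τ i ⟨jqModC k, jqModC_mem_full k N⟩ = qExpand k N (jqModC k)) →
      ∀ z : ↥(modularFunctionFieldFullC k N), IntJ (jqModC k) (z : LaurentSeries k) →
        (∃ P : Polynomial k, ∑ i, τ i z = Polynomial.aeval (qExpand k N (jqModC k)) P) ∧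
        (∃ P : Polynomial k, ∏ i, τ i z = Polynomial.aeval (qExpand k N (jqModC k)) P)

/-- **(MFk)** the functions of `StmtMF` in characteristic `ℓ`: for a cusp form `f` with integral
`q`-expansion `z`, the reductions `y = Ȳt`, `y1 = Ȳ1`, `y2 = Ȳ2 ∈ F_k`, their relations, their
integrality over `k[j̄]`, and the `Q`-order `> -N` of the `τ_i y`. -/
def StmtMFk (N : ℕ) [NeZero N] (A : ValuationSubring Kb) : Prop :=
  ∀ (τ : Fin (dedekindPsi N) →
      (↥(modularFunctionFieldFullC (kA A) N) →ₐ[kA A] LaurentSeries (kA A)))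
    (i₀ : Fin (dedekindPsi N)), IsTau N A τ i₀ →
    ∀ (f : CuspForm (CongruenceSubgroup.Gamma0 N) 2) (z : ℕ → ℤ),
      (∀ n, ModularFormClass.qCoeff f n = (z n : ℂ)) →
      (∀ m : ℤ, m ≤ 0 → (coeffMap (Int.castRingHom (kA A)) (fqZ z)).coeff m = 0) ∧
      ∃ y y1 y2 : ↥(modularFunctionFieldFullC (kA A) N),
        (y : LaurentSeries (kA A)) * Fermat.Agent.S28.Deriv.thetaFun (jqModC (kA A)) =
            coeffMap (Int.castRingHom (kA A)) (fqZ z) * jqModC (kA A) * (jqModC (kA A) - 1728) ∧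
        (y : LaurentSeries (kA A)) ^ 2 = (y2 : LaurentSeries (kA A)) * (jqModC (kA A) - 1728) ∧
        (y : LaurentSeries (kA A)) ^ 3 =
            (y1 : LaurentSeries (kA A)) * jqModC (kA A) * (jqModC (kA A) - 1728) ∧
        IntJ (jqModC (kA A)) (y : LaurentSeries (kA A)) ∧
        IntJ (jqModC (kA A)) (y1 : LaurentSeries (kA A)) ∧
        IntJ (jqModC (kA A)) (y2 : LaurentSeries (kA A)) ∧
        ∀ i, ∀ m : ℤ, m ≤ -(N : ℤ) → (τ i y).coeff m = 0

def StmtMFkAll : Prop :=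
  ∀ (N : ℕ) [NeZero N] (ℓ : ℕ), ℓ.Prime → ¬ ℓ ∣ N →
    ∀ A : ValuationSubring Kb, A.LiesOverPrime ℓ → StmtMFk N A

/-- piece `I2-MFk` -/
def StmtMFkGlue : Prop := StmtIRAll → StmtMFAll → StmtMFkAll

/-- **(S2)** the elements of `W` (integral over `k[redR]`) are integral over `k[j̄]`, and their
images under the `τ_i`, `i ≠ i₀`, lie in `k[[Q]]`.
(`redR`: `RegOut ⇒ PolesAtCusps ⇒` integral over `ℚ̄[j]` (Lemma R, `lr_isIntegral`) `⇒ StmtIR`;
then transitivity of integrality, resp. `k[[Q]]` integrally closed in `k((Q))` and `IsTau.reg`.) -/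
def StmtS2 (N : ℕ) [NeZero N] (A : ValuationSubring Kb) : Prop :=
  (∀ w : LaurentSeries (kA A), InW N A w → IntJ (jqModC (kA A)) w) ∧
  ∀ (τ : Fin (dedekindPsi N) →
      (↥(modularFunctionFieldFullC (kA A) N) →ₐ[kA A] LaurentSeries (kA A)))
    (i₀ : Fin (dedekindPsi N)), IsTau N A τ i₀ →
    ∀ (w : LaurentSeries (kA A)) (hw : InW N A w), ∀ i, i ≠ i₀ →
      ∀ m : ℤ, m < 0 → (τ i ⟨w, hw.1⟩).coeff m = 0

def StmtS2All : Prop :=
  ∀ (N : ℕ) [NeZero N] (ℓ : ℕ), ℓ.Prime → ¬ ℓ ∣ N →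
    ∀ A : ValuationSubring Kb, A.LiesOverPrime ℓ → StmtS2 N A

/-- piece `I2-S2` -/
def StmtS2Glue : Prop := StmtIRAll → StmtS2All

/-- **(Nilp)** nilpotent trace, abstract form in `Ω = k((Q))`: if `Z_i ^ M = (J - c) U_i` with
`U_i` integral over `k[J]` (`J` transcendental over `k`) and `Σ Z_i = P(J)`, then `P(c) = 0`.
(In the integral closure `B` of `k[J]` in `Ω`: `Z_i ∈ rad((J - c) B)`, hence
`P(c) ∈ rad((J - c) B)`; if `P(c) ≠ 0` then `J - c` is a unit of `B`, so `X - c` is a unit of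
`k[X]` (`Algebra.IsIntegral.isLocalHom`), absurd.) -/
def StmtNilp : Prop :=
  ∀ (k : Type) [Field k] (J : LaurentSeries k),
    (∀ P : Polynomial k, Polynomial.aeval J P = 0 → P = 0) →
    ∀ (n : ℕ) (Z U : Fin n → LaurentSeries k) (c : k) (M : ℕ), 0 < M →
      (∀ i, Z i ^ M = (J - HahnSeries.C c) * U i) → (∀ i, IntJ J (U i)) →
      ∀ P : Polynomial k, ∑ i, Z i = Polynomial.aeval J P → P.eval c = 0

/-- **(Const)** `W ∩ q k[[q]] = 0`: an element of `W` vanishing at `q = 0` is zero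
(norm argument: `ES/I2/Core.lean` `const_core` with `StmtTN`, `StmtS2`, `IsTau`). -/
def StmtConst (N : ℕ) [NeZero N] (A : ValuationSubring Kb) : Prop :=
  ∀ w : LaurentSeries (kA A), InW N A w → (∀ m : ℤ, m ≤ 0 → w.coeff m = 0) → w = 0

def StmtConstAll : Prop :=
  ∀ (N : ℕ) [NeZero N] (ℓ : ℕ), ℓ.Prime → ¬ ℓ ∣ N →
    ∀ A : ValuationSubring Kb, A.LiesOverPrime ℓ → StmtConst N A

/-- piece `I2-Const` -/
def StmtConstGlue : Prop := StmtTN → StmtS2All → StmtTauAll → StmtConstAll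

/-- **(Res)** the residue theorem on `W`: `a₀ (w f̄) = 0` for `w ∈ W` and `f` a cusp form of
weight `2` with integral `q`-expansion (`ℓ ≥ 5`). -/
def StmtRes (N : ℕ) [NeZero N] (A : ValuationSubring Kb) : Prop :=
  ∀ w : LaurentSeries (kA A), InW N A w →
    ∀ (f : CuspForm (CongruenceSubgroup.Gamma0 N) 2) (z : ℕ → ℤ),
      (∀ n, ModularFormClass.qCoeff f n = (z n : ℂ)) →
      (w * coeffMap (Int.castRingHom (kA A)) (fqZ z)).coeff 0 = 0

def StmtResAll : Prop :=
  ∀ (N : ℕ) [NeZero N] (ℓ : ℕ), ℓ.Prime → 5 ≤ ℓ → ¬ ℓ ∣ N →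
    ∀ A : ValuationSubring Kb, A.LiesOverPrime ℓ → StmtRes N A

/-- piece `I2-Res` -/
def StmtResGlue : Prop :=
  StmtNilp → StmtTN → StmtS2All → StmtTauAll → StmtMFkAll → StmtResAll

/-- piece `I2-Count`: the final count (`ES/I2aux/Count.lean` `i2_count` with `W := Wn N A`,
`F t := coeffMap _ (fqZ (z t))` from `StmtB`; `hF0` from `StmtMFk`, `hres` from `StmtRes`,
`hconst` from `StmtConst`). -/
def StmtCountGlue : Prop :=
  StmtTauAll → StmtMFkAll → StmtConstAll → StmtResAll → StmtBAll → StmtI2All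

/-- the assembly proper (`I2-Z`), in characteristic `ℓ ≥ 5` -/
def StmtI2Core : Prop :=
  StmtNilp → StmtTN → StmtS2All → StmtTauAll → StmtMFkAll → StmtBAll → StmtI2All

end Fermat.Agent.ES.I2
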