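/-
ES / I2, piece `I2-TN` (helper83): trace and norm over the `j`-line through a full family of
embeddings.

`stmtTN : StmtTN` (`ES/I2/Plan2.lean`): `k` perfect of characteristic `ℓ`, `(N : k) ≠ 0`,
`τ i : F_k → k((Q))`, `i < ψ(N)`, pairwise distinct `k`-algebra maps with `τ i j̄ = J = j̄(Q^N)`;
for `z ∈ F_k` integral over `k[j̄]` the sum and the product of the `τ i z` are polynomials in `J`.

Proof: `K₀ = k(j̄)`, `[F_k : K₀] = ψ(N)` (S28), separable (`INJ.isSeparable_of_theta`); the `τ i`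
are all the `K₀`-embeddings of `F_k` into `k((Q))` (a `K₀`-algebra through `q ↦ Q^N`), so
`∑ τ i z = Tr z`, `∏ τ i z = Nm z` (`ES/I2/Embed.lean`), which are integral over `k[j̄]`, hence in
`k[j̄]` (`k[X]` is integrally closed, `K₀ = Frac k[j̄]`).
-/
import Fermat.Agent.ES.I2.Plan2
import Fermat.Agent.ES.I2.Embed
import Fermat.Agent.S24.PolyClosure
import Fermat.Agent.S28.PrimeHypMain
import Fermat.Agent.S28.Red
import Fermat.Agent.INJ.GaussSep

set_option autoImplicit false
set_option linter.style.haveILetI false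

noncomputable section

namespace Fermat.Agent.ES.I2

open ModularCurve IntermediateField Polynomial Fermat.Agent.S28 Fermat.Agent.S24

/-- **abstract form**: a full family of embeddings over `K`, and an element integral over an
integrally closed `R` with `Frac R = K`. -/
theorem tn_abstract {R K L Ω : Type*} [CommRing R] [IsDomain R] [IsIntegrallyClosed R]
    [Field K] [Field L] [Field Ω] [Algebra R K] [IsFractionRing R K] [Algebra K L] [Algebra R L]
    [IsScalarTower R K L] [FiniteDimensional K L] [Algebra.IsSeparable K L]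
    {I : Type*} [Fintype I] (hcard : Fintype.card I = Module.finrank K L)
    (φ : K →+* Ω) (τ : I → (L →+* Ω)) (hτ : Function.Injective τ)
    (hcomp : ∀ i x, τ i (algebraMap K L x) = φ x) (z : L) (hz : IsIntegral R z) :
    (∃ r : R, ∑ i, τ i z = φ (algebraMap R K r)) ∧
      (∃ r : R, ∏ i, τ i z = φ (algebraMap R K r)) := by
  letI : Algebra K Ω := φ.toAlgebra
  let σ : I → (L →ₐ[K] Ω) := fun i => { τ i with commutes' := fun x => hcomp i x }
  have hσ : Function.Injective σ := by
    intro i j hij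
    apply hτ
    ext x
    exact congrArg (fun f : L →ₐ[K] Ω => f x) hij
  have h1 := trace_eq_sum_of_embeddings hcard σ hσ z
  have h2 := norm_eq_prod_of_embeddings hcard σ hσ z
  obtain ⟨r, hr⟩ := IsIntegrallyClosed.isIntegral_iff.mp
    (Algebra.isIntegral_trace (R := R) (L := K) hz)
  obtain ⟨s, hs⟩ := IsIntegrallyClosed.isIntegral_iff.mp
    (Algebra.isIntegral_norm K hz)
  refine ⟨⟨r, ?_⟩, ⟨s, ?_⟩⟩
  · rw [hr]
    exact h1.symm
  · rw [hs]
    exact h2.symm

section Concrete

variable (k : Type) [Field k] (N : ℕ) [NeZero N]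

/-- `θ j ≠ 0` in every characteristic (the coefficient of `q⁻¹` is `-1`). -/
theorem tn_thetaFun_jqModC_ne_zero : Deriv.thetaFun (jqModC k) ≠ 0 := by
  intro h0
  have h1 := congrArg (fun z : LaurentSeries k => z.coeff (-1)) h0
  simp only [Deriv.thetaFun_coeff, HahnSeries.coeff_zero, coeff_jqModC_neg_one] at h1
  simp at h1

omit [NeZero N] in
theorem tn_le : k⟮jqModC k⟯ ≤ modularFunctionFieldFullC k N := UB.K0_le_full k N

/-- `F_k` as an extension of `K₀ = k(j̄)`. -/
abbrev tnL : IntermediateField k⟮jqModC k⟯ (LaurentSeries k) := extendScalars (tn_le k N)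

/-- the identification `tnL → F_k` -/
def tnToFull : ↥(tnL k N) →+* ↥(modularFunctionFieldFullC k N) where
  toFun x := ⟨x.1, x.2⟩
  map_one' := rfl
  map_mul' _ _ := rfl
  map_zero' := rfl
  map_add' _ _ := rfl

omit [NeZero N] in
@[simp] theorem tnToFull_coe (x : ↥(tnL k N)) :
    ((tnToFull k N x : ↥(modularFunctionFieldFullC k N)) : LaurentSeries k) = x.1 := rfl

omit [NeZero N] in
/-- a `k`-algebra map on `F_k` which sends `j̄` to `J = j̄(Q^N)` is `q ↦ Q^N` on `k(j̄)`. -/
theorem tn_comp {M : ℕ} [NeZero M]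
    (τ : ↥(modularFunctionFieldFullC k N) →ₐ[k] LaurentSeries k)
    (hj : τ ⟨jqModC k, jqModC_mem_full k N⟩ = qExpand k M (jqModC k))
    (x : ↥(k⟮jqModC k⟯)) :
    τ ⟨x.1, tn_le k N x.2⟩ = qExpand k M (x : LaurentSeries k) := by
  have h : τ.comp (IntermediateField.inclusion (tn_le k N)) =
      (qExpandAlgHomC k M).comp (k⟮jqModC k⟯).val := by
    apply IntermediateField.adjoin_algHom_ext
    intro y hy
    rw [Set.mem_singleton_iff] at hy
    subst hy
    exact hj
  exact congrArg (fun f : ↥(k⟮jqModC k⟯) →ₐ[k] LaurentSeries k => f x) h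

/-- `F_k / k(j̄)` is finite of degree `ψ(N)`. -/
theorem tn_finite : FiniteDimensional ↥(k⟮jqModC k⟯) ↥(tnL k N) :=
  (UB.finrank_full_le k (NeZero.ne N) (fun r hr _ => @ub_modEq k _ r ⟨hr.ne_zero⟩ hr)).1

theorem tn_finrank (hN : (N : k) ≠ 0) :
    Module.finrank ↥(k⟮jqModC k⟯) ↥(tnL k N) = dedekindPsi N := by
  rw [← relfinrank_full_eq_dedekindPsi k N hN]
  exact (relfinrank_eq_finrank_of_le (tn_le k N)).symm

/-- `F_k / k(j̄)` is separable (`k` perfect). -/
theorem tn_separable (ℓ : ℕ) [Fact ℓ.Prime] [CharP k ℓ] [PerfectRing k ℓ] :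
    Algebra.IsSeparable ↥(k⟮jqModC k⟯) ↥(tnL k N) := by
  have := tn_finite k N
  refine ⟨fun x => ?_⟩
  have hx : IsIntegral ↥(k⟮jqModC k⟯) x := IsIntegral.of_finite _ x
  have hx' : IsIntegral ↥(k⟮jqModC k⟯) (x : LaurentSeries k) := by
    have := hx.map (tnL k N).val
    exact this
  have h := Fermat.Agent.INJ.isSeparable_of_theta ℓ (red_transcendental_jqModC k)
    (tn_thetaFun_jqModC_ne_zero k) hx'
  show (minpoly ↥(k⟮jqModC k⟯) x).Separable
  rw [IntermediateField.minpoly_eq]
  exact h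

end Concrete

/-- **(TN)**: trace and norm through a full family of embeddings. -/
theorem stmtTN : StmtTN := by
  intro k _ ℓ _ _ _ N _ hN τ hτ hj z hz
  have htr : Transcendental k (jqModC k) := red_transcendental_jqModC k
  letI algRK : Algebra k[X] ↥(k⟮jqModC k⟯) := polyAlgebraAdjoin (K := k) (jqModC k)
  haveI : IsFractionRing k[X] ↥(k⟮jqModC k⟯) :=
    polyAlgebraAdjoin_isFractionRing (K := k) (jqModC k) htr
  letI algRL : Algebra k[X] ↥(tnL k N) :=
    ((algebraMap ↥(k⟮jqModC k⟯) ↥(tnL k N)).comp (algebraMap k[X] ↥(k⟮jqModC k⟯))).toAlgebra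
  haveI : IsScalarTower k[X] ↥(k⟮jqModC k⟯) ↥(tnL k N) :=
    IsScalarTower.of_algebraMap_eq (fun _ => rfl)
  haveI := tn_finite k N
  haveI := tn_separable k N ℓ
  have hcard : Fintype.card (Fin (dedekindPsi N)) = Module.finrank ↥(k⟮jqModC k⟯) ↥(tnL k N) := by
    rw [Fintype.card_fin, tn_finrank k N hN]
  -- the data of the abstract form
  let φ : ↥(k⟮jqModC k⟯) →+* LaurentSeries k :=
    (qExpand k N).comp (k⟮jqModC k⟯).val.toRingHom
  let τ' : Fin (dedekindPsi N) → (↥(tnL k N) →+* LaurentSeries k) :=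
    fun i => (τ i).toRingHom.comp (tnToFull k N)
  have hτ' : Function.Injective τ' := by
    intro i i' h
    apply hτ
    apply AlgHom.ext
    intro y
    have := congrArg (fun f : ↥(tnL k N) →+* LaurentSeries k => f ⟨y.1, y.2⟩) h
    exact this
  have hcomp : ∀ i (x : ↥(k⟮jqModC k⟯)), τ' i (algebraMap ↥(k⟮jqModC k⟯) ↥(tnL k N) x) = φ x :=
    fun i x => tn_comp k N (τ i) (hj i) x
  let z' : ↥(tnL k N) := ⟨z.1, z.2⟩
  have hcoe : ∀ p : k[X], ((algebraMap k[X] ↥(tnL k N) p : ↥(tnL k N)) : LaurentSeries k) =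
      Polynomial.aeval (jqModC k) p := by
    intro p
    show ((Polynomial.aeval (AdjoinSimple.gen k (jqModC k)) p : ↥(k⟮jqModC k⟯)) :
      LaurentSeries k) = _
    rw [← IntermediateField.coe_val, ← Polynomial.aeval_algHom_apply]
    simp
  have hz' : IsIntegral k[X] z' := by
    obtain ⟨p, hp, hpz⟩ := hz
    refine ⟨p, hp, ?_⟩
    apply Subtype.val_injective
    have h1 := Polynomial.hom_eval₂ p (algebraMap k[X] ↥(tnL k N))
      ((tnL k N).val.toRingHom) z'
    have h2 : ((tnL k N).val.toRingHom).comp (algebraMap k[X] ↥(tnL k N)) =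
        (Polynomial.aeval (jqModC k)).toRingHom := RingHom.ext hcoe
    rw [h2] at h1
    exact h1.trans hpz
  obtain ⟨⟨r, hr⟩, ⟨s, hs⟩⟩ := tn_abstract hcard φ τ' hτ' hcomp z' hz'
  have hφ : ∀ p : k[X], φ (algebraMap k[X] ↥(k⟮jqModC k⟯) p) =
      Polynomial.aeval (qExpand k N (jqModC k)) p := by
    intro p
    show qExpand k N ((Polynomial.aeval (AdjoinSimple.gen k (jqModC k)) p : ↥(k⟮jqModC k⟯)) :
      LaurentSeries k) = _
    rw [← IntermediateField.coe_val, ← Polynomial.aeval_algHom_apply]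
    have : Polynomial.aeval (qExpand k N (jqModC k)) p =
        qExpandAlgHomC k N (Polynomial.aeval (jqModC k) p) := by
      rw [← Polynomial.aeval_algHom_apply]
      rfl
    rw [this]
    simp
  refine ⟨⟨r, ?_⟩, ⟨s, ?_⟩⟩
  · rw [← hφ, ← hr]
    rfl
  · rw [← hφ, ← hs]
    rfl

end Fermat.Agent.ES.I2
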