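import Fermat.Agent.ES.I2.E
import Fermat.Agent.ES.I2.Reg
import Fermat.Agent.ES.I2.Int
import Fermat.Agent.ES.I2.Red
import Fermat.Agent.ES.I2.MF
import Fermat.Agent.ES.I2.B
import Fermat.Agent.ES.I2.IR
import Fermat.Agent.ES.I2.Tau
import Fermat.Agent.ES.I2.TraceNorm
import Fermat.Agent.ES.I2.MFk
import Fermat.Agent.ES.I2.S2
import Fermat.Agent.ES.I2.Nilp
import Fermat.Agent.ES.I2.Const
import Fermat.Agent.ES.I2.Res
import Fermat.Agent.ES.I2.Count

/-!
# ES / I2 — the final assembly: `StmtI2All`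

`dim_k W_n ≤ n + 1 - g` in characteristic `ℓ ≥ 5`, `ℓ ∤ N` (good reduction of `X₀(N)`: the genus
does not drop).  Plan: `NOTES/ES-I2.md`.
-/

set_option autoImplicit false

namespace Fermat.Agent.ES.I2

open Fermat.Agent.ES.M

theorem stmtIRAll : StmtIRAll := stmtIRGlue stmtEAll stmtIntAll

theorem stmtTauAll : StmtTauAll := stmtTauGlue stmtEAll stmtRegAll stmtIntAll stmtRedAll

theorem stmtMFkAll : StmtMFkAll := stmtMFkGlue stmtIRAll stmtMFAll

theorem stmtS2All : StmtS2All := stmtS2Glue stmtIRAll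

theorem stmtConstAll : StmtConstAll := stmtConstGlue stmtTN stmtS2All stmtTauAll

theorem stmtResAll : StmtResAll := stmtResGlue stmtNilp stmtTN stmtS2All stmtTauAll stmtMFkAll

/-- **(I2)**: `dim W_n ≤ n + 1 - g` for `ℓ ≥ 5`, `ℓ ∤ N`. -/
theorem stmtI2All : StmtI2All :=
  stmtCountGlue stmtTauAll stmtMFkAll stmtConstAll stmtResAll stmtBAll

theorem stmtI2Core : StmtI2Core := fun _ _ _ _ _ _ => stmtI2All

end Fermat.Agent.ES.I2
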