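import Mathlib
import Fermat.Prelude.Def_ModularCurve_LaurentCoeff

/-!
# ES / I2 — abstract core, part 1: regular series, integrality transfer

`k` a field, `Ω = k((Q))`.

* `IsReg z` : `z` has no negative coefficients (`z ∈ k[[Q]]`); `IsPos z` : `z ∈ Q k[[Q]]`.
* `isReg_of_monic_root` : `k[[Q]]` is integrally closed in `k((Q))`.
* `isReg_of_isIntegral` : if a `k`-algebra map `τ : F → k((Q))` sends a set `S ⊆ F` into `k[[Q]]`,
  it sends every element of `F` integral over `k[S]` into `k[[Q]]`.
* `isIntegral_adjoin_singleton_of_isIntegral` : if the elements of `S` are integral over `k[x]`,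
  so is every element integral over `k[S]`.
-/

set_option autoImplicit false

noncomputable section

namespace Fermat.Agent.ES.I2

open Polynomial

variable {k : Type*} [Field k]

/-- no negative coefficients -/
def IsReg (z : LaurentSeries k) : Prop := ∀ m : ℤ, m < 0 → z.coeff m = 0

/-- positive order -/
def IsPos (z : LaurentSeries k) : Prop := ∀ m : ℤ, m ≤ 0 → z.coeff m = 0

theorem IsPos.isReg {z : LaurentSeries k} (h : IsPos z) : IsReg z := fun m hm => h m hm.le

theorem IsPos.coeff_zero {z : LaurentSeries k} (h : IsPos z) : z.coeff 0 = 0 := h 0 le_rfl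

theorem isReg_iff {z : LaurentSeries k} :
    IsReg z ↔ ∃ p : PowerSeries k, HahnSeries.ofPowerSeries ℤ k p = z := by
  constructor
  · intro h
    refine ⟨PowerSeries.mk fun n => z.coeff n, ?_⟩
    ext m
    rw [PowerSeries.coeff_coe]
    split_ifs with hm
    · exact (h m hm).symm
    · rw [PowerSeries.coeff_mk]
      congr 1
      omega
  · rintro ⟨p, rfl⟩ m hm
    rw [PowerSeries.coeff_coe, if_pos hm]

theorem isPos_iff {z : LaurentSeries k} :
    IsPos z ↔ ∃ p : PowerSeries k, HahnSeries.ofPowerSeries ℤ k (PowerSeries.X * p) = z := by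
  constructor
  · intro h
    refine ⟨PowerSeries.mk fun n => z.coeff (n + 1), ?_⟩
    ext m
    rw [PowerSeries.coeff_coe]
    split_ifs with hm
    · exact (h m hm.le).symm
    · rcases Nat.eq_zero_or_pos m.natAbs with h0 | h0
      · have hm0 : m = 0 := by omega
        rw [h0, PowerSeries.coeff_zero_X_mul, hm0]
        exact (h 0 le_rfl).symm
      · obtain ⟨n, hn⟩ : ∃ n, m.natAbs = n + 1 := ⟨m.natAbs - 1, by omega⟩
        rw [hn, PowerSeries.coeff_succ_X_mul, PowerSeries.coeff_mk]
        congr 1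
        omega
  · rintro ⟨p, rfl⟩ m hm
    rw [PowerSeries.coeff_coe]
    split_ifs with hm'
    · rfl
    · have hm0 : m = 0 := by omega
      rw [hm0]
      simp

theorem isReg_zero : IsReg (0 : LaurentSeries k) := fun _ _ => rfl

theorem isReg_one : IsReg (1 : LaurentSeries k) := isReg_iff.2 ⟨1, map_one _⟩

theorem IsReg.add {a b : LaurentSeries k} (ha : IsReg a) (hb : IsReg b) : IsReg (a + b) := by
  obtain ⟨p, rfl⟩ := isReg_iff.1 ha
  obtain ⟨q, rfl⟩ := isReg_iff.1 hb
  exact isReg_iff.2 ⟨p + q, map_add _ _ _⟩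

theorem IsReg.neg {a : LaurentSeries k} (ha : IsReg a) : IsReg (-a) := by
  obtain ⟨p, rfl⟩ := isReg_iff.1 ha
  exact isReg_iff.2 ⟨-p, map_neg _ _⟩

theorem IsReg.sub {a b : LaurentSeries k} (ha : IsReg a) (hb : IsReg b) : IsReg (a - b) := by
  rw [sub_eq_add_neg]
  exact ha.add hb.neg

theorem IsReg.mul {a b : LaurentSeries k} (ha : IsReg a) (hb : IsReg b) : IsReg (a * b) := by
  obtain ⟨p, rfl⟩ := isReg_iff.1 ha
  obtain ⟨q, rfl⟩ := isReg_iff.1 hb
  exact isReg_iff.2 ⟨p * q, map_mul _ _ _⟩

theorem isReg_C (c : k) : IsReg (HahnSeries.C c : LaurentSeries k) := by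
  intro m hm
  rw [HahnSeries.C_apply, HahnSeries.coeff_single_of_ne hm.ne]

theorem isReg_algebraMap (c : k) : IsReg (algebraMap k (LaurentSeries k) c) := by
  rw [LaurentSeries.algebraMap_apply]
  exact isReg_C c

theorem IsPos.mul_isReg {a b : LaurentSeries k} (ha : IsPos a) (hb : IsReg b) : IsPos (a * b) := by
  obtain ⟨p, rfl⟩ := isPos_iff.1 ha
  obtain ⟨q, rfl⟩ := isReg_iff.1 hb
  exact isPos_iff.2 ⟨p * q, by rw [← map_mul, mul_assoc]⟩

theorem IsReg.mul_isPos {a b : LaurentSeries k} (ha : IsReg a) (hb : IsPos b) : IsPos (a * b) := by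
  rw [mul_comm]
  exact hb.mul_isReg ha

theorem isPos_zero : IsPos (0 : LaurentSeries k) := fun _ _ => rfl

theorem IsPos.add {a b : LaurentSeries k} (ha : IsPos a) (hb : IsPos b) : IsPos (a + b) := by
  intro m hm
  rw [HahnSeries.coeff_add, ha m hm, hb m hm, add_zero]

theorem IsPos.neg {a : LaurentSeries k} (ha : IsPos a) : IsPos (-a) := by
  intro m hm
  rw [HahnSeries.coeff_neg, ha m hm, neg_zero]

theorem IsPos.sub {a b : LaurentSeries k} (ha : IsPos a) (hb : IsPos b) : IsPos (a - b) := by
  rw [sub_eq_add_neg]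
  exact ha.add hb.neg

theorem isPos_sum {ι : Type*} (s : Finset ι) (f : ι → LaurentSeries k)
    (h : ∀ i ∈ s, IsPos (f i)) : IsPos (∑ i ∈ s, f i) := by
  classical
  induction s using Finset.induction_on with
  | empty => simpa using isPos_zero
  | insert a s ha ih =>
    rw [Finset.sum_insert ha]
    exact (h a (Finset.mem_insert_self a s)).add
      (ih fun i hi => h i (Finset.mem_insert_of_mem hi))

theorem isReg_prod {ι : Type*} (s : Finset ι) (f : ι → LaurentSeries k)
    (h : ∀ i ∈ s, IsReg (f i)) : IsReg (∏ i ∈ s, f i) := by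
  classical
  induction s using Finset.induction_on with
  | empty => simpa using isReg_one
  | insert a s ha ih =>
    rw [Finset.prod_insert ha]
    exact (h a (Finset.mem_insert_self a s)).mul
      (ih fun i hi => h i (Finset.mem_insert_of_mem hi))

/-- a product of regular series, one of which has positive order, has positive order -/
theorem isPos_prod {ι : Type*} (s : Finset ι) (f : ι → LaurentSeries k)
    (h : ∀ i ∈ s, IsReg (f i)) {i₀ : ι} (hi₀ : i₀ ∈ s) (h₀ : IsPos (f i₀)) :
    IsPos (∏ i ∈ s, f i) := by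
  classical
  rw [← Finset.mul_prod_erase s f hi₀]
  exact h₀.mul_isReg (isReg_prod _ _ fun i hi => h i (Finset.mem_of_mem_erase hi))

/-- the subring `k[[Q]]` of `k((Q))` -/
def regSubring (k : Type*) [Field k] : Subring (LaurentSeries k) where
  carrier := {z | IsReg z}
  mul_mem' := fun ha hb => ha.mul hb
  one_mem' := isReg_one
  add_mem' := fun ha hb => ha.add hb
  zero_mem' := isReg_zero
  neg_mem' := fun ha => ha.neg

theorem mem_regSubring {z : LaurentSeries k} : z ∈ regSubring k ↔ IsReg z := Iff.rfl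

/-- **`k[[Q]]` is integrally closed in `k((Q))`.** -/
theorem isReg_of_monic_root (p : (LaurentSeries k)[X]) (hp : p.Monic)
    (hc : ∀ n, IsReg (p.coeff n)) (z : LaurentSeries k) (hz : p.eval z = 0) : IsReg z := by
  have hl : p ∈ Polynomial.lifts (algebraMap (PowerSeries k) (LaurentSeries k)) := by
    rw [Polynomial.lifts_iff_coeff_lifts]
    intro n
    obtain ⟨q, hq⟩ := isReg_iff.1 (hc n)
    exact ⟨q, by rw [← hq, LaurentSeries.coe_algebraMap]⟩
  obtain ⟨q, hq, -, hqm⟩ := Polynomial.lifts_and_degree_eq_and_monic hl hp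
  have hint : IsIntegral (PowerSeries k) z := by
    refine ⟨q, hqm, ?_⟩
    rw [← Polynomial.eval_map, hq]
    exact hz
  obtain ⟨y, hy⟩ := IsIntegrallyClosed.isIntegral_iff.1 hint
  rw [LaurentSeries.coe_algebraMap] at hy
  exact isReg_iff.2 ⟨y, hy⟩

/-- integral over a subring of `k[[Q]]` ⟹ in `k[[Q]]` -/
theorem isReg_of_isIntegral_subring (O : Subring (LaurentSeries k)) (hO : ∀ z ∈ O, IsReg z)
    {z : LaurentSeries k} (hz : IsIntegral O z) : IsReg z := by
  obtain ⟨q, hqm, hq⟩ := hz
  refine isReg_of_monic_root (q.map O.subtype) (hqm.map _) (fun n => ?_) z ?_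
  · rw [Polynomial.coeff_map]
    exact hO _ (q.coeff n).2
  · rw [Polynomial.eval_map]
    exact hq

end Fermat.Agent.ES.I2
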