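import Fermat.Agent.ES.I2.Plan
import Fermat.Agent.S28.UpperBound
import Fermat.Agent.S28.PrimeHypMain

/-!
# ES / I2, piece E, part 1: the roots of the modular equation after a substitution

* `i2e_charpoly_map` (S2): `(charpolyσ p y).map (qExpand p) = ∏_{b<p} (X - y(ζ^b q))`.
* `substQ` calculus: `i2e_substQ_qExpand`, `i2e_substQ_factor`, `i2e_substQ_kronRot`.
* `i2e_modEq_roots`: for the modular equation `Φ` of prime level `p` and `s = substQ c m`, `p ∣ m`:
  `Φ(X, s j)` is the product of `X - j(c^p Q^(pm))` and the `X - j(ζ^b c' Q^(m/p))`, `c'^p = c`.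
-/

set_option autoImplicit false

noncomputable section

namespace Fermat.Agent.ES.I2

open ModularCurve HahnSeries Polynomial Fermat.Agent.ES Fermat.Agent.S28

section S2

variable {K : Type*} [Field K] {p : ℕ} [NeZero p]

/-- a series fixed by the rotation by a primitive `p`-th root of unity is a series in `q^p` -/
theorem i2e_mem_range_of_rot_fixed (ζ : Kˣ) (hζ : IsPrimitiveRoot ζ p) (f : LaurentSeries K)
    (hf : kronRot ζ f = f) : f ∈ (qExpand K p).range := by
  refine ⟨kronCompress p f, qExpand_kronCompress p f fun n hn => ?_⟩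
  have h := congrArg (fun g : LaurentSeries K => g.coeff n) hf
  simp only [kronRot_coeff] at h
  by_contra hne
  have h1 : ((ζ ^ n : Kˣ) : K) = 1 := mul_right_cancel₀ hne (h.trans (one_mul _).symm)
  exact hn ((hζ.zpow_eq_one_iff_dvd n).mp (Units.ext h1))

/-- `∏_{b<p} (X - y(ζ^b q))` -/
def i2eProd (p : ℕ) (ζ : Kˣ) (y : LaurentSeries K) : Polynomial (LaurentSeries K) :=
  ∏ b ∈ Finset.range p, (Polynomial.X - Polynomial.C (kronRot (ζ ^ b) y))

theorem i2eProd_monic (p : ℕ) (ζ : Kˣ) (y : LaurentSeries K) : (i2eProd p ζ y).Monic :=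
  monic_prod_of_monic _ _ fun _ _ => monic_X_sub_C _

theorem i2eProd_natDegree (p : ℕ) (ζ : Kˣ) (y : LaurentSeries K) :
    (i2eProd p ζ y).natDegree = p := by
  rw [i2eProd, natDegree_prod_of_monic _ _ fun b _ => monic_X_sub_C _]
  simp

theorem i2eProd_map_rot (p : ℕ) (ζ : Kˣ) (hζ : ζ ^ p = 1) (y : LaurentSeries K) :
    (i2eProd p ζ y).map (kronRot ζ) = i2eProd p ζ y := by
  rcases p with _ | m
  · simp [i2eProd]
  · have h1 : (i2eProd (m + 1) ζ y).map (kronRot ζ)
        = ∏ b ∈ Finset.range (m + 1), (Polynomial.X - Polynomial.C (kronRot (ζ ^ (b + 1)) y)) := by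
      simp only [i2eProd, Polynomial.map_prod, Polynomial.map_sub, Polynomial.map_X,
        Polynomial.map_C, kronRot_kronRot]
      refine Finset.prod_congr rfl fun b _ => ?_
      rw [pow_succ']
    rw [h1, Finset.prod_range_succ, hζ]
    simp only [i2eProd]
    rw [Finset.prod_range_succ', pow_zero]

theorem i2eProd_eval_self (p : ℕ) [NeZero p] (ζ : Kˣ) (y : LaurentSeries K) :
    (i2eProd p ζ y).eval y = 0 := by
  rw [i2eProd, eval_prod]
  refine Finset.prod_eq_zero (Finset.mem_range.mpr (Nat.pos_of_ne_zero (NeZero.ne p))) ?_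
  simp

/-- **(S2)** the characteristic polynomial of `y` over `K((q^p))` splits over `K((q))`. -/
theorem i2e_charpoly_map (ζ : Kˣ) (hζ : IsPrimitiveRoot ζ p) {y : LaurentSeries K} (hy : y ≠ 0)
    (hcop : IsCoprime y.order (p : ℤ)) :
    (charpolyσ p y).map (qExpand K p) = i2eProd p ζ y := by
  have hmem : i2eProd p ζ y ∈ (Polynomial.mapRingHom (qExpand K p)).range := by
    rw [Polynomial.mem_map_range]
    intro n
    refine i2e_mem_range_of_rot_fixed ζ hζ _ ?_
    have := congrArg (fun P : Polynomial (LaurentSeries K) => P.coeff n)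
      (i2eProd_map_rot p ζ hζ.pow_eq_one y)
    simpa [Polynomial.coeff_map] using this
  obtain ⟨Q, hQ⟩ := hmem
  rw [Polynomial.coe_mapRingHom] at hQ
  have hinj : Function.Injective (qExpand K p) := qExpand_injective p
  have hQm : Q.Monic := Polynomial.monic_of_injective hinj (by rw [hQ]; exact i2eProd_monic p ζ y)
  have hQd : Q.natDegree = p := by
    rw [← Polynomial.natDegree_map_eq_of_injective hinj, hQ, i2eProd_natDegree]
  have hQe : Q.eval₂ (qExpand K p) y = 0 := by
    rw [Polynomial.eval₂_eq_eval_map, hQ, i2eProd_eval_self]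
  rw [← eq_charpolyσ_of_monic hy hcop hQm hQd hQe, hQ]

end S2

section Subst

variable {K : Type*} [Field K]

theorem i2e_kronRot_C (c : Kˣ) (a : K) :
    kronRot c (HahnSeries.C a : LaurentSeries K) = HahnSeries.C a := by
  ext n
  rw [kronRot_coeff, HahnSeries.C_apply, HahnSeries.coeff_single]
  split_ifs with h
  · subst h
    simp
  · simp

theorem i2e_substQ_C (c : Kˣ) (m : ℕ) (a : K) :
    substQ c m (HahnSeries.C a : LaurentSeries K) = HahnSeries.C a := by
  rcases Nat.eq_zero_or_pos m with rfl | hm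
  · simp [substQ]
  · have : NeZero m := ⟨hm.ne'⟩
    rw [substQ_eq, i2e_kronRot_C, qExpand_C]

/-- `f(q^p)` at `q = c Q^m` is `f(c^p Q^(pm))` -/
theorem i2e_substQ_qExpand (c : Kˣ) (m p : ℕ) [NeZero m] [NeZero p] (f : LaurentSeries K) :
    substQ c m (qExpand K p f) = substQ (c ^ p) (p * m) f := by
  have : NeZero (p * m) := ⟨Nat.mul_ne_zero (NeZero.ne p) (NeZero.ne m)⟩
  have : NeZero (m * p) := ⟨Nat.mul_ne_zero (NeZero.ne m) (NeZero.ne p)⟩
  rw [substQ_eq, substQ_eq, qExpand_kronRot_pow, qExpand_qExpand]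
  exact qExpand_congr (Nat.mul_comm m p) _

/-- `f(u q)` at `q = c Q^m` is `f(c u Q^m)` -/
theorem i2e_substQ_kronRot (c u : Kˣ) (m : ℕ) [NeZero m] (f : LaurentSeries K) :
    substQ c m (kronRot u f) = substQ (c * u) m f := by
  rw [substQ_eq, substQ_eq, kronRot_kronRot]

theorem i2e_substQ_one (N : ℕ) [NeZero N] (f : LaurentSeries K) :
    substQ (1 : Kˣ) N f = qExpand K N f := by
  rw [substQ_eq, kronRot_one]

end Subst

section Roots

variable {K : Type*} [Field K] {p : ℕ} [NeZero p]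

/-- the modular equation `Φ(X, j(q^p))` splits over `K((q))` -/
theorem i2e_modEq_split (hp : p.Prime) (ζ : Kˣ) (hζ : IsPrimitiveRoot ζ p)
    {Φ : Polynomial (Polynomial K)} (hΦm : Φ.Monic) (hΦd : Φ.natDegree = p + 1)
    (h1 : Φ.eval₂ (Polynomial.aeval (jqModC K)).toRingHom (qExpand K p (jqModC K)) = 0)
    (h2 : Φ.eval₂ (Polynomial.aeval (qExpand K p (jqModC K))).toRingHom (jqModC K) = 0) :
    Φ.map (Polynomial.aeval (R := K) (qExpand K p (jqModC K))).toRingHom =
      (Polynomial.X - Polynomial.C (qExpand K p (qExpand K p (jqModC K)))) *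
        i2eProd p ζ (jqModC K) := by
  have hy : jqModC K ≠ 0 := jqModC_ne_zero_of_nontrivial K
  have hcop : IsCoprime (jqModC K).order (p : ℤ) := by
    rw [UB.jqModC_order]
    exact (isCoprime_one_left).neg_left
  have h := UB.map_aeval_eq_factor hp hΦm hΦd hy hcop h1 h2
  have h' := congrArg (Polynomial.map (qExpand K p)) h
  rw [Polynomial.map_map, UB.qExpand_comp_aeval, Polynomial.map_mul, Polynomial.map_sub,
    Polynomial.map_X, Polynomial.map_C, i2e_charpoly_map ζ hζ hy hcop] at h'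
  exact h'

/-- the roots of `Φ(X, s(j(q^p)))` for a ring homomorphism `s` into a domain -/
theorem i2e_modEq_roots (hp : p.Prime) (ζ : Kˣ) (hζ : IsPrimitiveRoot ζ p)
    {Φ : Polynomial (Polynomial K)} (hΦm : Φ.Monic) (hΦd : Φ.natDegree = p + 1)
    (h1 : Φ.eval₂ (Polynomial.aeval (jqModC K)).toRingHom (qExpand K p (jqModC K)) = 0)
    (h2 : Φ.eval₂ (Polynomial.aeval (qExpand K p (jqModC K))).toRingHom (jqModC K) = 0)
    {Ω : Type*} [CommRing Ω] [IsDomain Ω] (s : LaurentSeries K →+* Ω) (x : Ω)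
    (hx : Φ.eval₂ (s.comp (Polynomial.aeval (R := K) (qExpand K p (jqModC K))).toRingHom) x = 0) :
    x = s (qExpand K p (qExpand K p (jqModC K))) ∨
      ∃ b ∈ Finset.range p, x = s (kronRot (ζ ^ b) (jqModC K)) := by
  rw [← Polynomial.eval₂_map, i2e_modEq_split hp ζ hζ hΦm hΦd h1 h2, Polynomial.eval₂_mul,
    Polynomial.eval₂_sub, Polynomial.eval₂_X, Polynomial.eval₂_C, i2eProd,
    Polynomial.eval₂_finsetProd] at hx
  rcases mul_eq_zero.mp hx with h | h
  · exact Or.inl (sub_eq_zero.mp h)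
  · obtain ⟨b, hb, hb0⟩ := Finset.prod_eq_zero_iff.mp h
    rw [Polynomial.eval₂_sub, Polynomial.eval₂_X, Polynomial.eval₂_C] at hb0
    exact Or.inr ⟨b, hb, sub_eq_zero.mp hb0⟩

end Roots

end Fermat.Agent.ES.I2
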