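import Fermat.Agent.S16.LevelOne
import Fermat.Agent.S16.Serre
import Fermat.Agent.S28.CPrimeLaurent
import Fermat.Agent.S23.MFClosure

/-!
# ES / I2-MF, analytic part: Ramanujan's identity for `E₄` and `D J = -E₄² E₆ / Δ`

* `mf_serre_E4` : `∂₄ E₄ = -(1/3) E₆` (Serre derivative; Sturm bound in weight `6`).
* `mf_hTwo_eq` : `Δ² · D J = -Δ E₄² E₆`.
-/

set_option autoImplicit false

noncomputable section

namespace Fermat.Agent.ES.I2

open CongruenceSubgroup UpperHalfPlane ModularForm ModularFormClass Derivative EisensteinSeries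
open Fermat.Agent.S23 Fermat.Agent.S24 Fermat.Agent.S28 Fermat.Agent.S16
open scoped MatrixGroups ModularForm Manifold

local notation "Δ" => ModularForm.discriminant

theorem mf_isMF_E4 : IsMF 𝒮ℒ 4 (E₄ : ℍ → ℂ) := ⟨E₄, rfl⟩

theorem mf_isMF_E6 : IsMF 𝒮ℒ 6 (E₆ : ℍ → ℂ) := ⟨E₆, rfl⟩

/-- the weight `6` form `∂₄ E₄ + (1/3) E₆`. -/
def mfF6 : ℍ → ℂ := serreDerivative (4 : ℤ) (E₄ : ℍ → ℂ) + (1 / 3 : ℂ) • (E₆ : ℍ → ℂ)

theorem mf_isMF_F6 : IsMF 𝒮ℒ 6 mfF6 := by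
  have h1 : IsMF 𝒮ℒ 6 (serreDerivative (4 : ℤ) (E₄ : ℍ → ℂ)) :=
    (Fermat.Agent.S28.CPrime.isMF_serreDerivative mf_isMF_E4).of_weight_eq (by norm_num)
  exact h1.add (mf_isMF_E6.const_smul _)

theorem mf_qExp_F6 :
    qExpansion 1 mfF6 = theta e4 - PowerSeries.C ((4 : ℂ) / 12) * (e2 * e4) +
      PowerSeries.C (1 / 3 : ℂ) * e6 := by
  have h4 : IsHPB (E₄ : ℍ → ℂ) := (IsMF.of_levelOne (N := 1) mf_isMF_E4).isHPB
  have h1 : IsMF (G0 1) 6 (serreDerivative (4 : ℤ) (E₄ : ℍ → ℂ)) :=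
    IsMF.of_levelOne ((Fermat.Agent.S28.CPrime.isMF_serreDerivative mf_isMF_E4).of_weight_eq
      (by norm_num))
  have h6 : IsMF (G0 1) 6 (E₆ : ℍ → ℂ) := IsMF.of_levelOne mf_isMF_E6
  rw [mfF6, IsMF.qExpansion_add h1 (h6.const_smul _), IsMF.qExpansion_smul _ h6,
    Serre.qExpansion_serreDerivative h4, ← l1_e4_eq, ← l1_e6_eq, PowerSeries.smul_eq_C_mul]
  norm_num

theorem mf_F6_eq_zero : mfF6 = 0 := by
  have hF := mf_isMF_F6
  apply IsMF.eq_zero_of_qExpansion_eq_zero (IsMF.of_levelOne (N := 1) hF)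
  obtain ⟨F, hFe⟩ := hF
  have hmem : qExpansion 1 mfF6 ∈ LevelOne 6 := ⟨F, by rw [hFe]⟩
  apply l1_sturm hmem
  intro n hn
  have hn0 : n = 0 := by omega
  subst hn0
  rw [mf_qExp_F6]
  simp only [map_add, map_sub, PowerSeries.coeff_zero_eq_constantCoeff, map_mul,
    PowerSeries.constantCoeff_C]
  simp only [← PowerSeries.coeff_zero_eq_constantCoeff, theta, e2, e4, e6, PowerSeries.coeff_mk]
  norm_num

/-- Ramanujan: `∂₄ E₄ = -(1/3) E₆`. -/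
theorem mf_serre_E4 (z : ℍ) : serreDerivative (4 : ℤ) (E₄ : ℍ → ℂ) z = -(1 / 3 : ℂ) * E₆ z := by
  have h := congrFun mf_F6_eq_zero z
  simp only [mfF6, Pi.add_apply, Pi.smul_apply, smul_eq_mul, Pi.zero_apply] at h
  linear_combination h

/-- Ramanujan: `D E₄ = (E₂ E₄ - E₆)/3`. -/
theorem mf_D_E4 (z : ℍ) : D (E₄ : ℍ → ℂ) z = (E2 z * E₄ z - E₆ z) / 3 := by
  have h := mf_serre_E4 z
  rw [serreDerivative_apply] at h
  push_cast at h
  linear_combination h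

/-- `Δ² · D J = -Δ E₄² E₆`. -/
theorem mf_hTwo_eq (z : ℍ) : Fermat.Agent.S28.CPrime.hTwo z = -(Δ z * E₄ z ^ 2 * E₆ z) := by
  have h4 : MDiff (⇑E₄) := E₄.holo'
  have hD3 : D (fun z : ℍ => E₄ z ^ 3) z = 3 * E₄ z ^ 2 * D (E₄ : ℍ → ℂ) z := by
    have := congrFun (normalizedDerivOfComplex_pow (⇑E₄) 3 h4) z
    simp only [Pi.mul_apply, Pi.pow_apply, Pi.natCast_apply] at this
    have e : (fun z : ℍ => E₄ z ^ 3) = (⇑E₄) ^ 3 := by
      funext w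
      simp
    rw [e, this]
    push_cast
    ring
  have h := congrFun Fermat.Agent.S28.CPrime.hTwo_eq z
  simp only [Pi.sub_apply, Pi.mul_apply, serreDerivative_apply] at h
  rw [h, hD3, mf_D_E4, l1_D_discriminant]
  push_cast
  ring

end Fermat.Agent.ES.I2
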